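import Fermat.Agent.FlatBound.OfHopf
import Fermat.Agent.Deformation.MatrixRep
import Fermat.Agent.LocalModelP.Bounds

/-!
# Radicands of classes cut out by a flat representation at a place over `p`

`kum_of_isFlatAt` is the bound used for local classes at `p`.
-/

set_option autoImplicit false

noncomputable section

open Matrix

namespace Fermat.Agent.FlatBound

open Fermat.Agent.Deformation Fermat.Agent.LocalModelP FlatModel Duality

variable {p : ℕ} [hp : Fact p.Prime] {k : Type} [Field k]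

local notation "Ω" => PadicAlgCl p
local notation "ℚbar" => AlgebraicClosure ℚ

/-- The vectors of a matrix representation as a Galois module. -/
def vecAct (M : GQ →* M2 k) : FlatModel.GalQ →* AddMonoid.End (Fin 2 → k) where
  toFun σ := (Matrix.mulVecLin (M σ)).toAddMonoidHom
  map_one' := AddMonoidHom.ext fun v => by
    show (M 1) *ᵥ v = v
    rw [map_one, Matrix.one_mulVec]
  map_mul' σ τ := AddMonoidHom.ext fun v => by
    show (M (σ * τ)) *ᵥ v = M σ *ᵥ (M τ *ᵥ v)
    rw [map_mul, Matrix.mulVec_mulVec]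

omit hp in
/-- A flat representation over a finite field has a flat model on its vectors. -/
theorem exists_model_of_isFlatAt_matrix [Finite k] {M : GQ →* M2 k} {hM : MatCont M}
    (h : (ofMatrix M hM).IsFlatAt p) : Nonempty (Model p (vecAct M)) := by
  have : Finite (k ⧸ (⊥ : Ideal k)) :=
    Finite.of_surjective (Ideal.Quotient.mk ⊥) Ideal.Quotient.mk_surjective
  obtain ⟨H, _, _, _, -, -, e, hadd, hgal⟩ := h.2 ⊥ inferInstance
  let q : ((Fin 2 → k) ⧸ ((⊥ : Ideal k) • (⊤ : Submodule k (Fin 2 → k)))) ≃ₗ[k] (Fin 2 → k) :=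
    Submodule.quotEquivOfEqBot _ (Submodule.bot_smul _)
  refine exists_model_of_hopf (vecAct M) H (e.trans q.toEquiv) (fun f g => ?_) fun σ f g hfg => ?_
  · show q (e (f * g)) = q (e f) + q (e g)
    exact (congrArg q (hadd f g)).trans (q.map_add (e f) (e g))
  · show q (e g) = vecAct M σ (q (e f))
    rw [hgal σ f g hfg]
    obtain ⟨v, hv⟩ := Submodule.Quotient.mk_surjective _ (e f)
    rw [← hv]
    rfl

variable [CharP k p] {P : ValuationSubring ℚbar} (T : AtPlace p P)

omit hp in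
theorem nsmul_vec_eq_zero (v : Fin 2 → k) : p • v = 0 := funext fun i => by
  rw [Pi.smul_apply, nsmul_eq_mul, CharP.cast_eq_zero, zero_mul, Pi.zero_apply]

omit [CharP k p] in
theorem hom_eq_one_of_act {M : GQ →* M2 k} {g : GalLoc p}
    (h : ∀ v, vecAct M (localGaloisToGlobal p g) v = v) : M (T.hom g) = 1 := by
  have h1 : M (localGaloisToGlobal p g) = 1 := by
    refine Matrix.ext_iff_mulVec.mpr fun v => ?_
    rw [Matrix.one_mulVec]
    exact h v
  rw [AtPlace.hom_apply, map_mul, map_mul, h1, mul_one, ← map_mul, mul_inv_cancel, map_one]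

include T in
/-- The radicands of a class which vanishes on the inertia elements fixing the points of a flat
representation satisfy the flat bound. -/
theorem kum_of_isFlatAt [Finite k] {M : GQ →* M2 k} {hM : MatCont M}
    (h : (ofMatrix M hM).IsFlatAt p) (S : LocalModelP.Setup p)
    (hπ : ∀ g ∈ inertiaLoc p, M (T.hom g) = 1 → g S.π = S.π)
    (t : k →+ ZMod p) {c : GalLoc p → k} (hc : ∀ g ∈ S.J, M (T.hom g) = 1 → c g = 0) :
    Kum S t (FlatBd S) c := by
  obtain ⟨Mo⟩ := exists_model_of_isFlatAt_matrix h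
  have : FiniteDimensional ℚ_[p] S.F := S.toUnif.finiteDimensional_fld S.N_ne
  have hval : ∀ x ∈ S.F, x ≠ 0 → ∃ j : ℤ, ‖x‖ = ‖S.π‖ ^ j := fun x hx hx0 => S.norm_zpow hx hx0
  have key : ∀ (a : k) (x : PadicAlgCl p), S.Rad (lam t c a) x →
      ∃ α : PadicAlgCl p, α ^ p = x ∧ x ∈ S.F ∧ ∀ σ : GalLoc p, FixesUnram σ →
        (∀ v : Fin 2 → k, vecAct M (localGaloisToGlobal p σ) v = v) →
          (∀ z ∈ S.F, σ z = z) ∧ σ α = α := by
    rintro a x ⟨hxF, -, α, hα, hg⟩
    refine ⟨α, hα, hxF, fun σ hσ hact => ?_⟩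
    have hM1 : M (T.hom σ) = 1 := hom_eq_one_of_act T hact
    have hin : σ ∈ inertiaLoc p := mem_inertiaLoc_of_fix_roots fun m η hm hη => hσ m η hm hη
    have hJ : σ ∈ S.J := S.toUnif.mem_J.mpr ⟨hin, hπ σ hin hM1⟩
    have hGF : σ ∈ S.GF := S.J_le hJ
    refine ⟨fun z hz => S.mem_F.mp hz σ hGF, ?_⟩
    rw [hg σ hGF, show lam t c a σ = t (a * c σ) from rfl, hc σ hJ hM1, mul_zero, map_zero,
      LocalModelP.zp_zero, one_mul]
  have hp2 : 3 ≤ p := lt_of_le_of_ne hp.out.two_le (Ne.symm S.ne_two)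
  refine ⟨fun a x hx => ?_, fun a x i hx hi hpi hlt => ?_⟩
  · obtain ⟨α, hα, hxF, hfix⟩ := key a x hx
    obtain ⟨j, hj⟩ := hval x hxF hx.2.1
    rw [S.vp_eq hj, ZMod.intCast_zmod_eq_zero_iff_dvd]
    by_contra hpj
    have h1 := kummer_valuation Mo nsmul_vec_eq_zero S.F S.π_mem S.toUnif.norm_π_pow hval
      (hα.symm ▸ hxF) hfix (hα.symm ▸ hj) hpj
    obtain ⟨d, hd⟩ : ∃ d, p = d + 3 := ⟨p - 3, by omega⟩
    have he : S.e = S.e₁ * (p - 1) := S.e_eq
    have he1 := S.e₁_pos
    subst hd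
    obtain ⟨f, hf⟩ : ∃ f, S.e₁ = f + 1 := ⟨S.e₁ - 1, by omega⟩
    rw [he, hf] at h1
    simp only [show d + 3 - 1 = d + 2 by omega,
      show (f + 1) * (d + 2) - 1 = f * (d + 2) + d + 1 by rw [Nat.succ_mul]; omega] at h1
    have h2 : f + 1 ≤ f * (d + 2) + d + 1 := by nlinarith
    have h3 := Nat.mul_le_mul_left ((d + 3) * (d + 2)) h2
    nlinarith
  · obtain ⟨α, hα, hxF, hfix⟩ := key a x hx
    refine kummer_level Mo nsmul_vec_eq_zero S.F S.π_mem S.toUnif.norm_π_pow hval
      (hα.symm ▸ hxF) hfix (hα.symm ▸ hi) hpi ?_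
    rw [S.e_eq]
    calc (p - 1) * i < (p - 1) * (p * S.e₁) := (Nat.mul_lt_mul_left (by omega)).mpr hlt
      _ = p * (S.e₁ * (p - 1)) := by ring

end Fermat.Agent.FlatBound
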