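import Fermat.Agent.FlatBound.Roots

/-!
# Coordinates of a finite flat group killed by `p` and its Cartier dual

A finite group `G` comes with functions `φ j : G → Ω` forming a basis of all functions, whose
multiplication and addition tables are integral.  The coordinates `ψ j χ` of a character `χ` in
this basis are the coordinates of the dual group.
-/

set_option autoImplicit false

noncomputable section

open Finset Module

namespace Fermat.Agent.FlatBound

variable {Ω : Type} [NormedField Ω] [IsUltrametricDist Ω]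

/-- Integral coordinates on a finite group. -/
structure Coords (Ω : Type) [NormedField Ω] (G ι : Type) [AddCommGroup G] [Fintype ι] where
  /-- the coordinate functions -/
  φ : ι → G → Ω
  /-- multiplication table -/
  a : ι → ι → ι → Ω
  /-- comultiplication table -/
  b : ι → ι → ι → Ω
  /-- coordinates of the constant function `1` -/
  e : ι → Ω
  indep : LinearIndependent Ω φ
  span_top : ⊤ ≤ Submodule.span Ω (Set.range φ)
  mul_eq : ∀ k l x, φ k x * φ l x = ∑ j, a k l j * φ j x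
  add_eq : ∀ j x y, φ j (x + y) = ∑ k, ∑ l, b j k l * (φ k x * φ l y)
  one_eq : ∀ x, ∑ j, e j * φ j x = 1
  norm_a_le : ∀ k l j, ‖a k l j‖ ≤ 1
  norm_b_le : ∀ j k l, ‖b j k l‖ ≤ 1
  norm_e_le : ∀ j, ‖e j‖ ≤ 1

/-- A family of elements whose squares are integral combinations of them is bounded by `1`. -/
theorem norm_le_one_of_sq {κ : Type} [Fintype κ] (f : κ → Ω) (c : κ → κ → Ω)
    (hc : ∀ k j, ‖c k j‖ ≤ 1) (h : ∀ k, f k * f k = ∑ j, c k j * f j) (k : κ) : ‖f k‖ ≤ 1 := by
  obtain ⟨m, -, hm⟩ := Finset.univ.exists_max_image (fun j => ‖f j‖) ⟨k, Finset.mem_univ k⟩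
  refine (hm k (Finset.mem_univ k)).trans ?_
  have h1 : ‖f m‖ * ‖f m‖ ≤ ‖f m‖ := by
    rw [← norm_mul, h]
    refine IsUltrametricDist.norm_sum_le_of_forall_le_of_nonneg (norm_nonneg _) fun j _ => ?_
    rw [norm_mul]
    exact (mul_le_of_le_one_left (norm_nonneg _) (hc m j)).trans (hm j (Finset.mem_univ j))
  nlinarith [norm_nonneg (f m)]

theorem norm_sum_mul_le {κ : Type} [Fintype κ] {f g : κ → Ω} {c d : ℝ} (hc : 0 ≤ c) (hd : 0 ≤ d)
    (hf : ∀ j, ‖f j‖ ≤ c) (hg : ∀ j, ‖g j‖ ≤ d) : ‖∑ j, f j * g j‖ ≤ c * d := by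
  refine IsUltrametricDist.norm_sum_le_of_forall_le_of_nonneg (mul_nonneg hc hd) fun j _ => ?_
  rw [norm_mul]
  exact mul_le_mul (hf j) (hg j) (norm_nonneg _) hc

namespace Coords

variable {G ι : Type} [AddCommGroup G] [Fintype ι] (C : Coords Ω G ι)

/-- The coordinate functions as a basis. -/
def basis : Basis ι Ω (G → Ω) := Basis.mk C.indep C.span_top

omit [IsUltrametricDist Ω] in
theorem basis_apply (j : ι) : C.basis j = C.φ j := Basis.mk_apply _ _ _

omit [IsUltrametricDist Ω] in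
theorem eq_zero_of_sum {f : ι → Ω} (h : ∀ x, ∑ j, f j * C.φ j x = 0) (j : ι) : f j = 0 :=
  Fintype.linearIndependent_iff.mp C.indep f (funext fun x => by
    simpa [Finset.sum_apply] using h x) j

omit [IsUltrametricDist Ω] in
theorem coord_ext {f g : ι → Ω} (h : ∀ x, ∑ j, f j * C.φ j x = ∑ j, g j * C.φ j x) : f = g := by
  funext j
  refine sub_eq_zero.mp (C.eq_zero_of_sum (f := fun j => f j - g j) (fun x => ?_) j)
  simp only [sub_mul, Finset.sum_sub_distrib, h x, sub_self]

omit [IsUltrametricDist Ω] in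
theorem coord_ext₂ {f g : ι → ι → Ω}
    (h : ∀ x y, ∑ k, ∑ l, f k l * (C.φ k x * C.φ l y) = ∑ k, ∑ l, g k l * (C.φ k x * C.φ l y)) :
    f = g := by
  funext k l
  have h1 : ∀ y, (fun k => ∑ l, f k l * C.φ l y) = fun k => ∑ l, g k l * C.φ l y := fun y =>
    C.coord_ext fun x => by
      calc ∑ k, (∑ l, f k l * C.φ l y) * C.φ k x = ∑ k, ∑ l, f k l * (C.φ k x * C.φ l y) :=
            Finset.sum_congr rfl fun k _ => by
              rw [Finset.sum_mul]; exact Finset.sum_congr rfl fun l _ => by ring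
        _ = ∑ k, ∑ l, g k l * (C.φ k x * C.φ l y) := h x y
        _ = ∑ k, (∑ l, g k l * C.φ l y) * C.φ k x :=
            Finset.sum_congr rfl fun k _ => by
              rw [Finset.sum_mul]; exact Finset.sum_congr rfl fun l _ => by ring
  exact congrFun (C.coord_ext fun y => congrFun (h1 y) k) l

theorem norm_φ_le (j : ι) (x : G) : ‖C.φ j x‖ ≤ 1 :=
  norm_le_one_of_sq (fun j => C.φ j x) (fun k j => C.a k k j) (fun k j => C.norm_a_le k k j)
    (fun k => C.mul_eq k k x) j

/-- The coordinates of a character. -/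
def ψ (χ : AddChar G Ω) (j : ι) : Ω := C.basis.repr (fun x => χ x) j

omit [IsUltrametricDist Ω] in
theorem sum_ψ (χ : AddChar G Ω) (x : G) : ∑ j, C.ψ χ j * C.φ j x = χ x := by
  have h := congrFun (C.basis.sum_repr (fun x => χ x)) x
  rw [Finset.sum_apply] at h
  simpa [ψ, basis_apply] using h

omit [IsUltrametricDist Ω] in
theorem ψ_mul_ψ (χ : AddChar G Ω) (k l : ι) :
    C.ψ χ k * C.ψ χ l = ∑ j, C.b j k l * C.ψ χ j := by
  have h := C.coord_ext₂ (f := fun k l => C.ψ χ k * C.ψ χ l)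
    (g := fun k l => ∑ j, C.b j k l * C.ψ χ j) fun x y => ?_
  · exact congrFun (congrFun h k) l
  calc ∑ k, ∑ l, C.ψ χ k * C.ψ χ l * (C.φ k x * C.φ l y)
      = (∑ k, C.ψ χ k * C.φ k x) * ∑ l, C.ψ χ l * C.φ l y := by
        rw [Finset.sum_mul_sum]
        exact Finset.sum_congr rfl fun k _ => Finset.sum_congr rfl fun l _ => by ring
    _ = χ (x + y) := by rw [C.sum_ψ, C.sum_ψ, χ.map_add_eq_mul]
    _ = ∑ j, C.ψ χ j * ∑ k, ∑ l, C.b j k l * (C.φ k x * C.φ l y) := by
        rw [← C.sum_ψ]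
        exact Finset.sum_congr rfl fun j _ => by rw [C.add_eq]
    _ = ∑ k, ∑ l, (∑ j, C.b j k l * C.ψ χ j) * (C.φ k x * C.φ l y) := by
        simp only [Finset.mul_sum, Finset.sum_mul]
        rw [Finset.sum_comm]
        refine Finset.sum_congr rfl fun k _ => ?_
        rw [Finset.sum_comm]
        exact Finset.sum_congr rfl fun l _ => Finset.sum_congr rfl fun j _ => by ring

theorem norm_ψ_le (χ : AddChar G Ω) (j : ι) : ‖C.ψ χ j‖ ≤ 1 :=
  norm_le_one_of_sq (C.ψ χ) (fun k j => C.b j k k) (fun k j => C.norm_b_le j k k)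
    (fun k => C.ψ_mul_ψ χ k k) j

omit [IsUltrametricDist Ω] in
theorem ψ_mul (χ χ' : AddChar G Ω) (j : ι) :
    C.ψ (χ * χ') j = ∑ k, ∑ l, C.a k l j * (C.ψ χ k * C.ψ χ' l) := by
  refine congrFun (C.coord_ext (f := C.ψ (χ * χ'))
    (g := fun j => ∑ k, ∑ l, C.a k l j * (C.ψ χ k * C.ψ χ' l)) fun x => ?_) j
  rw [C.sum_ψ, AddChar.mul_apply, ← C.sum_ψ χ, ← C.sum_ψ χ', Finset.sum_mul_sum]
  simp only [Finset.sum_mul]
  rw [Finset.sum_comm (s := (Finset.univ : Finset ι)) (f := fun j k => ∑ l, _)]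
  refine Finset.sum_congr rfl fun k _ => ?_
  rw [Finset.sum_comm]
  refine Finset.sum_congr rfl fun l _ => ?_
  rw [show C.ψ χ k * C.φ k x * (C.ψ χ' l * C.φ l x)
    = C.ψ χ k * C.ψ χ' l * (C.φ k x * C.φ l x) by ring, C.mul_eq, Finset.mul_sum]
  exact Finset.sum_congr rfl fun j _ => by ring

omit [IsUltrametricDist Ω] in
theorem ψ_one (j : ι) : C.ψ 1 j = C.e j :=
  congrFun (C.coord_ext (f := C.ψ 1) (g := C.e) fun x => by
    rw [C.sum_ψ, C.one_eq, AddChar.one_apply]) j

/-- The character transform of a coefficient vector. -/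
def tr (f : ι → Ω) (χ : AddChar G Ω) : Ω := ∑ j, f j * C.ψ χ j

omit [IsUltrametricDist Ω] in
theorem tr_eps (χ : AddChar G Ω) : C.tr (fun j => C.φ j 0) χ = 1 := by
  rw [tr, ← χ.map_zero_eq_one, ← C.sum_ψ χ 0]
  exact Finset.sum_congr rfl fun j _ => mul_comm _ _

theorem norm_tr_le {f : ι → Ω} {c : ℝ} (hc : 0 ≤ c) (hf : ∀ j, ‖f j‖ ≤ c) (χ : AddChar G Ω) :
    ‖C.tr f χ‖ ≤ c := by
  simpa [tr] using norm_sum_mul_le hc zero_le_one hf (C.norm_ψ_le χ)

omit [IsUltrametricDist Ω] in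
theorem tr_mul (f g : ι → Ω) (χ : AddChar G Ω) :
    C.tr (fun j => ∑ k, ∑ l, C.b j k l * (f k * g l)) χ = C.tr f χ * C.tr g χ := by
  rw [tr, tr, tr, Finset.sum_mul_sum]
  simp only [Finset.sum_mul]
  rw [Finset.sum_comm]
  refine Finset.sum_congr rfl fun k _ => ?_
  rw [Finset.sum_comm]
  refine Finset.sum_congr rfl fun l _ => ?_
  rw [show f k * C.ψ χ k * (g l * C.ψ χ l) = f k * g l * (C.ψ χ k * C.ψ χ l) by ring, C.ψ_mul_ψ,
    Finset.mul_sum]
  exact Finset.sum_congr rfl fun j _ => by ring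

/-- `F` is the transform of a coefficient vector of size at most `c`. -/
def Bd (c : ℝ) (F : AddChar G Ω → Ω) : Prop :=
  ∃ f : ι → Ω, (∀ j, ‖f j‖ ≤ c) ∧ F = C.tr f

omit [IsUltrametricDist Ω] in
theorem bd_congr {c : ℝ} {F F' : AddChar G Ω → Ω} (h : C.Bd c F) (he : ∀ χ, F' χ = F χ) :
    C.Bd c F' := by
  rwa [show F' = F from funext he]

omit [IsUltrametricDist Ω] in
theorem bd_mono {c d : ℝ} {F : AddChar G Ω → Ω} (h : C.Bd c F) (hcd : c ≤ d) : C.Bd d F := by
  obtain ⟨f, hf, rfl⟩ := h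
  exact ⟨f, fun j => (hf j).trans hcd, rfl⟩

omit [IsUltrametricDist Ω] in
theorem bd_zero {c : ℝ} (hc : 0 ≤ c) : C.Bd c 0 :=
  ⟨0, fun _ => by simpa using hc, funext fun χ => by simp [tr]⟩

theorem bd_one : C.Bd 1 1 :=
  ⟨fun j => C.φ j 0, fun j => C.norm_φ_le j 0, funext fun χ => (C.tr_eps χ).symm⟩

theorem bd_add {c : ℝ} {F F' : AddChar G Ω → Ω} (h : C.Bd c F) (h' : C.Bd c F') :
    C.Bd c (F + F') := by
  obtain ⟨f, hf, rfl⟩ := h
  obtain ⟨f', hf', rfl⟩ := h'
  refine ⟨f + f', fun j => (IsUltrametricDist.norm_add_le_max _ _).trans (max_le (hf j) (hf' j)),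
    funext fun χ => ?_⟩
  simp [tr, add_mul, Finset.sum_add_distrib]

omit [IsUltrametricDist Ω] in
theorem bd_smul {c : ℝ} {F : AddChar G Ω → Ω} (t : Ω) (h : C.Bd c F) :
    C.Bd (‖t‖ * c) (t • F) := by
  obtain ⟨f, hf, rfl⟩ := h
  refine ⟨t • f, fun j => ?_, funext fun χ => ?_⟩
  · rw [Pi.smul_apply, norm_smul]
    exact mul_le_mul_of_nonneg_left (hf j) (norm_nonneg _)
  · simp [tr, Finset.mul_sum, mul_assoc]

theorem bd_sub {c : ℝ} {F F' : AddChar G Ω → Ω} (h : C.Bd c F) (h' : C.Bd c F') :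
    C.Bd c (F - F') := by
  have h2 := C.bd_smul (-1 : Ω) h'
  rw [norm_neg, norm_one, one_mul, neg_one_smul] at h2
  rw [sub_eq_add_neg]
  exact C.bd_add h h2

theorem bd_sum {κ : Type} (s : Finset κ) {c : ℝ} (hc : 0 ≤ c) {F : κ → AddChar G Ω → Ω}
    (h : ∀ k ∈ s, C.Bd c (F k)) : C.Bd c (∑ k ∈ s, F k) :=
  Finset.sum_induction F (C.Bd c) (fun _ _ => C.bd_add) (C.bd_zero hc) h

theorem bd_mul {c d : ℝ} (hc : 0 ≤ c) (hd : 0 ≤ d) {F F' : AddChar G Ω → Ω} (h : C.Bd c F)
    (h' : C.Bd d F') : C.Bd (c * d) (F * F') := by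
  obtain ⟨f, hf, rfl⟩ := h
  obtain ⟨g, hg, rfl⟩ := h'
  refine ⟨fun j => ∑ k, ∑ l, C.b j k l * (f k * g l), fun j => ?_,
    funext fun χ => (C.tr_mul f g χ).symm⟩
  refine IsUltrametricDist.norm_sum_le_of_forall_le_of_nonneg (mul_nonneg hc hd) fun k _ => ?_
  refine IsUltrametricDist.norm_sum_le_of_forall_le_of_nonneg (mul_nonneg hc hd) fun l _ => ?_
  rw [norm_mul, norm_mul]
  exact (mul_le_of_le_one_left (by positivity) (C.norm_b_le j k l)).trans
    (mul_le_mul (hf k) (hg l) (norm_nonneg _) hc)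

theorem bd_pow {c : ℝ} (hc : 0 ≤ c) {F : AddChar G Ω → Ω} (h : C.Bd c F) (n : ℕ) :
    C.Bd (c ^ n) (F ^ n) := by
  induction n with
  | zero => simpa using C.bd_one
  | succ n ih =>
    rw [pow_succ, pow_succ]
    exact C.bd_mul (pow_nonneg hc n) hc ih h

theorem norm_apply_le_of_bd {c : ℝ} (hc : 0 ≤ c) {F : AddChar G Ω → Ω} (h : C.Bd c F)
    (χ : AddChar G Ω) : ‖F χ‖ ≤ c := by
  obtain ⟨f, hf, rfl⟩ := h
  exact C.norm_tr_le hc hf χ

section Duality

variable {p : ℕ} [hp : Fact p.Prime] [Finite G]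

omit [IsUltrametricDist Ω] in
theorem finite_chars : Finite (AddChar G Ω) ∧ Nat.card (AddChar G Ω) ≤ Nat.card G := by
  cases nonempty_fintype G
  have hli : LinearIndependent Ω (fun χ : AddChar G Ω => (fun x => χ x : G → Ω)) :=
    (linearIndependent_monoidHom (Multiplicative G) Ω).comp AddChar.toMonoidHom
      AddChar.toMonoidHomEquiv.injective
  have := hli.finite
  cases nonempty_fintype (AddChar G Ω)
  refine ⟨inferInstance, ?_⟩
  have h := hli.fintype_card_le_finrank
  rwa [Module.finrank_fintype_fun_eq_card, ← Nat.card_eq_fintype_card,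
    ← Nat.card_eq_fintype_card] at h

omit [IsUltrametricDist Ω] in
/-- A vector space over `ZMod p` has as many characters as elements. -/
theorem card_le_card_chars_of_module [Module (ZMod p) G] {ζ : Ω} (hζ : IsPrimitiveRoot ζ p) :
    Nat.card G ≤ Nat.card (AddChar G Ω) := by
  classical
  have : NeZero p := ⟨hp.out.ne_zero⟩
  have : Module.Finite (ZMod p) G := Module.Finite.of_finite
  let B := Module.finBasis (ZMod p) G
  let χ : (Fin (finrank (ZMod p) G) → ZMod p) → AddChar G Ω := fun v =>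
    (AddChar.zmodChar p hζ.pow_eq_one).compAddMonoidHom
      (∑ i, v i • B.coord i : G →ₗ[ZMod p] ZMod p).toAddMonoidHom
  have hχ : Function.Injective χ := by
    intro v w hvw
    funext i
    have h := DFunLike.congr_fun hvw (B i)
    simp only [χ, AddChar.compAddMonoidHom_apply, LinearMap.toAddMonoidHom_coe,
      LinearMap.coe_sum, Finset.sum_apply, LinearMap.smul_apply, Basis.coord_apply,
      Basis.repr_self, smul_eq_mul] at h
    rw [Finset.sum_eq_single i (fun j _ hj => by simp [hj])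
        (fun hi => absurd (Finset.mem_univ i) hi),
      Finset.sum_eq_single i (fun j _ hj => by simp [hj])
        (fun hi => absurd (Finset.mem_univ i) hi)] at h
    simp only [Finsupp.single_eq_same, mul_one, AddChar.zmodChar_apply] at h
    exact ZMod.val_injective p (hζ.pow_inj (ZMod.val_lt _) (ZMod.val_lt _) h)
  have := (finite_chars (Ω := Ω) (G := G)).1
  refine le_trans ?_ (Nat.card_le_card_of_injective χ hχ)
  rw [Nat.card_congr B.equivFun.toEquiv]

omit [IsUltrametricDist Ω] in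
/-- A group killed by `p` has as many characters as elements. -/
theorem card_le_card_chars {ζ : Ω} (hζ : IsPrimitiveRoot ζ p) (hG : ∀ x : G, p • x = 0) :
    Nat.card G ≤ Nat.card (AddChar G Ω) :=
  @card_le_card_chars_of_module Ω _ G _ p hp _ (AddCommGroup.zmodModule hG) ζ hζ

variable {ζ : Ω} (hζ : IsPrimitiveRoot ζ p) (hG : ∀ x : G, p • x = 0)

omit [IsUltrametricDist Ω] in
include hζ hG in
theorem span_chars :
    Submodule.span Ω (Set.range fun χ : AddChar G Ω => (fun x => χ x : G → Ω)) = ⊤ := by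
  cases nonempty_fintype G
  have := (finite_chars (Ω := Ω) (G := G)).1
  cases nonempty_fintype (AddChar G Ω)
  have hli : LinearIndependent Ω (fun χ : AddChar G Ω => (fun x => χ x : G → Ω)) :=
    (linearIndependent_monoidHom (Multiplicative G) Ω).comp AddChar.toMonoidHom
      AddChar.toMonoidHomEquiv.injective
  refine Submodule.eq_top_of_finrank_eq ?_
  rw [finrank_span_eq_card hli, Module.finrank_fintype_fun_eq_card, ← Nat.card_eq_fintype_card,
    ← Nat.card_eq_fintype_card]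
  exact le_antisymm (finite_chars (Ω := Ω) (G := G)).2 (card_le_card_chars hζ hG)

omit [IsUltrametricDist Ω] in
include hζ hG in
theorem exists_char_ne {x y : G} (hxy : x ≠ y) : ∃ χ : AddChar G Ω, χ x ≠ χ y := by
  classical
  by_contra h
  push Not at h
  have hle : Submodule.span Ω (Set.range fun χ : AddChar G Ω => (fun x => χ x : G → Ω)) ≤
      LinearMap.ker ((LinearMap.proj x : (G → Ω) →ₗ[Ω] Ω) - LinearMap.proj y) :=
    Submodule.span_le.mpr (by rintro _ ⟨χ, rfl⟩; simp [h χ])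
  rw [span_chars hζ hG] at hle
  have := hle (Submodule.mem_top (x := (Pi.single x 1 : G → Ω)))
  simp [hxy.symm] at this

omit [IsUltrametricDist Ω] in
include hζ hG in
theorem eq_zero_of_tr {f : ι → Ω} (h : ∀ χ, C.tr f χ = 0) : f = 0 := by
  funext j
  set T : (G → Ω) →ₗ[Ω] Ω := C.basis.constr Ω f with hT
  have hle : Submodule.span Ω (Set.range fun χ : AddChar G Ω => (fun x => χ x : G → Ω)) ≤
      LinearMap.ker T := by
    refine Submodule.span_le.mpr ?_
    rintro _ ⟨χ, rfl⟩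
    rw [SetLike.mem_coe, LinearMap.mem_ker, hT, Basis.constr_apply_fintype, ← h χ, tr]
    exact Finset.sum_congr rfl fun j _ => by rw [Basis.equivFun_apply, smul_eq_mul, mul_comm]; rfl
  rw [span_chars hζ hG] at hle
  have h1 := hle (Submodule.mem_top (x := C.basis j))
  rwa [LinearMap.mem_ker, hT, Basis.constr_basis] at h1

omit [IsUltrametricDist Ω] in
include hζ hG in
theorem tr_injective : Function.Injective C.tr := fun f g h => sub_eq_zero.mp <|
  C.eq_zero_of_tr hζ hG fun χ => by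
    have h1 := congrFun h χ
    simp only [tr] at h1 ⊢
    simp [sub_mul, h1]

omit [IsUltrametricDist Ω] in
include hζ hG in
theorem tr_surjective : Function.Surjective C.tr := by
  cases nonempty_fintype G
  have := (finite_chars (Ω := Ω) (G := G)).1
  cases nonempty_fintype (AddChar G Ω)
  let T : (ι → Ω) →ₗ[Ω] (AddChar G Ω → Ω) :=
    { toFun := C.tr
      map_add' := fun f g => funext fun χ => by simp [tr, add_mul, Finset.sum_add_distrib]
      map_smul' := fun t f => funext fun χ => by simp [tr, Finset.mul_sum, mul_assoc] }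
  refine (LinearMap.injective_iff_surjective_of_finrank_eq_finrank (f := T) ?_).mp
    (C.tr_injective hζ hG)
  have h2 : Fintype.card ι = Fintype.card G := by
    rw [← Module.finrank_eq_card_basis C.basis, Module.finrank_fintype_fun_eq_card]
  rw [Module.finrank_fintype_fun_eq_card, Module.finrank_fintype_fun_eq_card, h2,
    ← Nat.card_eq_fintype_card, ← Nat.card_eq_fintype_card]
  exact le_antisymm (card_le_card_chars hζ hG) (finite_chars (Ω := Ω) (G := G)).2

omit [IsUltrametricDist Ω] in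
include hζ hG in
theorem coord_ext_chars₂ {f g : ι → ι → Ω}
    (h : ∀ χ χ', ∑ k, ∑ l, f k l * (C.ψ χ k * C.ψ χ' l)
      = ∑ k, ∑ l, g k l * (C.ψ χ k * C.ψ χ' l)) : f = g := by
  funext k l
  have h1 : ∀ χ', (fun k => ∑ l, f k l * C.ψ χ' l) = fun k => ∑ l, g k l * C.ψ χ' l := fun χ' =>
    C.tr_injective hζ hG (funext fun χ => by
      calc ∑ k, (∑ l, f k l * C.ψ χ' l) * C.ψ χ k = ∑ k, ∑ l, f k l * (C.ψ χ k * C.ψ χ' l) :=
            Finset.sum_congr rfl fun k _ => by
              rw [Finset.sum_mul]; exact Finset.sum_congr rfl fun l _ => by ring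
        _ = ∑ k, ∑ l, g k l * (C.ψ χ k * C.ψ χ' l) := h χ χ'
        _ = ∑ k, (∑ l, g k l * C.ψ χ' l) * C.ψ χ k :=
            Finset.sum_congr rfl fun k _ => by
              rw [Finset.sum_mul]; exact Finset.sum_congr rfl fun l _ => by ring)
  exact congrFun (C.tr_injective hζ hG (funext fun χ' => congrFun (h1 χ') k)) l

omit [IsUltrametricDist Ω] in
include hζ hG in
/-- The inverse transform is bounded. -/
theorem exists_coord_bound : ∃ B : ℝ, 0 ≤ B ∧ ∀ (f : ι → Ω) (s : ℝ), 0 ≤ s →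
    (∀ χ, ‖C.tr f χ‖ ≤ s) → ∀ j, ‖f j‖ ≤ B * s := by
  classical
  have := (finite_chars (Ω := Ω) (G := G)).1
  cases nonempty_fintype (AddChar G Ω)
  choose R hR using fun χ : AddChar G Ω => C.tr_surjective hζ hG (Pi.single χ 1)
  refine ⟨∑ χ, ∑ j, ‖R χ j‖, by positivity, fun f s hs hf j => ?_⟩
  have hfe : f = fun j => ∑ χ, C.tr f χ * R χ j := C.tr_injective hζ hG (funext fun χ' => by
    conv_rhs => rw [tr]
    simp only [Finset.sum_mul]
    rw [Finset.sum_comm, Finset.sum_eq_single χ']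
    · have h := congrFun (hR χ') χ'
      rw [Pi.single_eq_same, tr] at h
      calc C.tr f χ' = C.tr f χ' * ∑ j, R χ' j * C.ψ χ' j := by rw [h, mul_one]
        _ = _ := by rw [Finset.mul_sum]; exact Finset.sum_congr rfl fun j _ => by ring
    · intro χ _ hne
      have h := congrFun (hR χ) χ'
      rw [Pi.single_eq_of_ne (Ne.symm hne), tr] at h
      calc ∑ j, C.tr f χ * R χ j * C.ψ χ' j = C.tr f χ * ∑ j, R χ j * C.ψ χ' j := by
            rw [Finset.mul_sum]; exact Finset.sum_congr rfl fun j _ => by ring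
        _ = 0 := by rw [h, mul_zero]
    · exact fun h => absurd (Finset.mem_univ _) h)
  rw [hfe]
  refine (norm_sum_le _ _).trans ?_
  rw [Finset.sum_mul]
  refine Finset.sum_le_sum fun χ _ => ?_
  rw [norm_mul, mul_comm]
  exact mul_le_mul (Finset.single_le_sum (f := fun j => ‖R χ j‖) (fun _ _ => norm_nonneg _)
    (Finset.mem_univ j)) (hf χ) (norm_nonneg _) (by positivity)

include hζ hG in
/-- Distinct points are far apart. -/
theorem exists_coord_far {x y : G} (hxy : x ≠ y) :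
    ∃ j, ‖(p : Ω)‖ ≤ ‖C.φ j x - C.φ j y‖ ^ (p - 1) := by
  obtain ⟨χ, hχ⟩ := exists_char_ne hζ hG hxy
  have hroot : ∀ z, χ z ^ p = 1 := fun z => by
    rw [← χ.map_nsmul_eq_pow, hG, χ.map_zero_eq_one]
  have h := norm_root_sub_root_pow (hroot x) (hroot y) hχ
  have hne : (Finset.univ : Finset ι).Nonempty := by
    by_contra h0
    rw [Finset.not_nonempty_iff_eq_empty] at h0
    have := C.one_eq x
    simp [h0] at this
  obtain ⟨j, -, hj⟩ := Finset.univ.exists_max_image (fun j => ‖C.φ j x - C.φ j y‖) hne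
  refine ⟨j, ?_⟩
  rw [← h]
  refine pow_le_pow_left₀ (norm_nonneg _) ?_ _
  rw [← C.sum_ψ, ← C.sum_ψ, ← Finset.sum_sub_distrib]
  refine IsUltrametricDist.norm_sum_le_of_forall_le_of_nonneg (norm_nonneg _) fun i _ => ?_
  rw [← mul_sub, norm_mul]
  exact (mul_le_of_le_one_left (norm_nonneg _) (C.norm_ψ_le χ i)).trans (hj i (Finset.mem_univ i))

include hζ hG in
/-- Points with congruent coordinates are equal. -/
theorem eq_of_near {c : ℝ} (hsmall : c ^ (p - 1) < ‖(p : Ω)‖) {x y : G}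
    (h : ∀ j, ‖C.φ j x - C.φ j y‖ ≤ c) : x = y := by
  by_contra hxy
  obtain ⟨j, hj⟩ := C.exists_coord_far hζ hG hxy
  exact absurd (hj.trans (pow_le_pow_left₀ (norm_nonneg _) (h j) _)) (not_le.mpr hsmall)

end Duality

end Coords

end Fermat.Agent.FlatBound
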