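import Fermat.Agent.FlatBound.TotRam
import Fermat.Agent.Duality.Local.Unramified

/-!
# Roots of unity of order prime to `p` and residues

These generate unramified fields (`unram_cyclo`) and lift residues (`exists_residue_roots`).
-/

set_option autoImplicit false

noncomputable section

open Finset Module Polynomial
open scoped Classical IntermediateField

namespace Fermat.Agent.FlatBound

variable {p : ℕ} [hp : Fact p.Prime]

local notation "Ω" => PadicAlgCl p

theorem norm_natCast_eq_one_of_not_dvd {n : ℕ} (hn : ¬ p ∣ n) : ‖(n : Ω)‖ = 1 := by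
  rw [← map_natCast (algebraMap ℚ_[p] Ω), PadicAlgCl.norm_extends, Padic.norm_natCast_eq_one_iff]
  exact hp.out.coprime_iff_not_dvd.mpr hn

/-- Roots of unity of order prime to `p` have distinct residues. -/
theorem eq_of_root_near {n : ℕ} (hn : ¬ p ∣ n) {a b : PadicAlgCl p} (ha : a ^ n = 1)
    (hb : b ^ n = 1)
    (h : ‖a - b‖ < 1) : a = b := by
  have hn0 : n ≠ 0 := fun e => hn (e ▸ dvd_zero p)
  have hb1 : ‖b‖ = 1 := norm_eq_one_of_pow_eq_one hn0 hb
  have hb0 : b ≠ 0 := fun e => by simp [e] at hb1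
  by_contra hne
  set u := a / b with hu
  have hu1 : u ≠ 1 := fun e => hne ((div_eq_one_iff_eq hb0).mp e)
  have hun : u ^ n = 1 := by rw [hu, div_pow, ha, hb, div_one]
  have hsum : ∑ i ∈ Finset.range n, u ^ i = 0 := by
    have h1 := geom_sum_mul u n
    rw [hun, sub_self] at h1
    exact (mul_eq_zero.mp h1).resolve_right (sub_ne_zero.mpr hu1)
  have hu' : ‖u - 1‖ < 1 := by
    rwa [show u - 1 = (a - b) / b by rw [hu]; field_simp, norm_div, hb1, div_one]
  have hlt : ‖∑ i ∈ Finset.range n, (u ^ i - 1)‖ < 1 := by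
    refine (IsUltrametricDist.norm_sum_le_of_forall_le_of_nonneg (norm_nonneg _)
      fun i _ => ?_).trans_lt
      hu'
    rw [← geom_sum_mul, norm_mul]
    refine mul_le_of_le_one_left (norm_nonneg _) ?_
    refine IsUltrametricDist.norm_sum_le_of_forall_le_of_nonneg zero_le_one fun j _ => ?_
    rw [norm_pow, norm_eq_one_of_pow_eq_one hn0 hun, one_pow]
  rw [Finset.sum_sub_distrib, hsum, Finset.sum_const, Finset.card_range, nsmul_one, zero_sub,
    norm_neg, norm_natCast_eq_one_of_not_dvd hn] at hlt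
  exact lt_irrefl _ hlt

/-- The field generated by the `n`-th roots of unity. -/
def cyclo (p : ℕ) [Fact p.Prime] (n : ℕ) : IntermediateField ℚ_[p] (PadicAlgCl p) :=
  IntermediateField.adjoin ℚ_[p] {x | x ^ n = 1}

theorem root_mem_cyclo {n : ℕ} {x : Ω} (hx : x ^ n = 1) : x ∈ cyclo p n :=
  IntermediateField.subset_adjoin _ _ hx

theorem cyclo_le_of_dvd {n m : ℕ} (h : n ∣ m) : cyclo p n ≤ cyclo p m :=
  IntermediateField.adjoin.mono _ _ _ fun x (hx : x ^ n = 1) => by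
    obtain ⟨c, rfl⟩ := h
    show x ^ (n * c) = 1
    rw [pow_mul, hx, one_pow]

theorem finiteDimensional_cyclo {n : ℕ} (hn : n ≠ 0) :
    FiniteDimensional ℚ_[p] (cyclo p n) := by
  have hfin : {x : Ω | x ^ n = 1}.Finite :=
    Set.Finite.subset (Polynomial.nthRootsFinset n (1 : Ω)).finite_toSet fun x hx =>
      (Polynomial.mem_nthRootsFinset (Nat.pos_of_ne_zero hn) 1).mpr hx
  have : Finite {x : Ω | x ^ n = 1} := hfin.to_subtype
  exact IntermediateField.finiteDimensional_adjoin fun x _ =>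
    (Algebra.IsAlgebraic.isAlgebraic x).isIntegral

theorem map_cyclo_le {n : ℕ} (σ : Ω ≃ₐ[ℚ_[p]] Ω) :
    (cyclo p n).map σ.toAlgHom ≤ cyclo p n := by
  rw [cyclo, IntermediateField.adjoin_map]
  refine IntermediateField.adjoin.mono _ _ _ ?_
  rintro _ ⟨x, hx, rfl⟩
  show σ x ^ n = 1
  rw [← map_pow, show x ^ n = 1 from hx, map_one]

theorem eq_one_of_fix_primitive {n : ℕ} [NeZero n] {γ : Ω} (hγ : IsPrimitiveRoot γ n)
    (g : cyclo p n ≃ₐ[ℚ_[p]] cyclo p n)
    (hg : g ⟨γ, root_mem_cyclo hγ.pow_eq_one⟩ = ⟨γ, root_mem_cyclo hγ.pow_eq_one⟩) : g = 1 := by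
  apply AlgEquiv.ext
  rintro ⟨x, hx⟩
  refine IntermediateField.adjoin_induction ℚ_[p]
    (p := fun y hy => g ⟨y, hy⟩ = ⟨y, hy⟩) ?_ ?_ ?_ ?_ ?_ hx
  · intro y hy
    obtain ⟨k, -, rfl⟩ := hγ.eq_pow_of_pow_eq_one hy
    conv_rhs => rw [show (⟨γ ^ k, IntermediateField.subset_adjoin _ _ hy⟩ : cyclo p n)
      = ⟨γ, root_mem_cyclo hγ.pow_eq_one⟩ ^ k from rfl, ← hg, ← map_pow]
    rfl
  · intro c
    exact g.commutes c
  · intro y z hy' hz' hy hz
    exact (map_add g ⟨y, hy'⟩ ⟨z, hz'⟩).trans (by rw [hy, hz])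
  · intro y hy' hy
    exact (map_inv₀ g ⟨y, hy'⟩).trans (by rw [hy])
  · intro y z hy' hz' hy hz
    exact (map_mul g ⟨y, hy'⟩ ⟨z, hz'⟩).trans (by rw [hy, hz])

/-- The fields generated by roots of unity of order prime to `p` are unramified. -/
theorem unram_cyclo {n : ℕ} (hn : ¬ p ∣ n) : Unram (cyclo p n) := by
  have hn0 : n ≠ 0 := fun e => hn (e ▸ dvd_zero p)
  have : NeZero n := ⟨hn0⟩
  have : NeZero (n : Ω) := ⟨by exact_mod_cast hn0⟩
  obtain ⟨γ, hγ⟩ := HasEnoughRootsOfUnity.exists_primitiveRoot (PadicAlgCl p) n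
  have := finiteDimensional_cyclo (p := p) hn0
  have : Normal ℚ_[p] (cyclo p n) :=
    IntermediateField.normal_iff_forall_map_le'.mpr fun σ => map_cyclo_le σ
  have : IsGalois ℚ_[p] (cyclo p n) := {}
  intro x hx hx0
  have hiso : ∀ (g : cyclo p n ≃ₐ[ℚ_[p]] cyclo p n) (z : cyclo p n), ‖g z‖ = ‖z‖ := fun g z => by
    show ‖((g z : cyclo p n) : Ω)‖ = ‖(z : Ω)‖
    have h := AlgEquiv.liftNormal_commutes g Ω z
    change AlgEquiv.liftNormal g Ω (z : Ω) = ((g z : cyclo p n) : Ω) at h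
    rw [← h]
    exact Duality.Local.norm_galLoc_apply _ _
  set α : cyclo p n := ⟨γ, root_mem_cyclo hγ.pow_eq_one⟩
  have hα : ‖α‖ ≤ 1 := (norm_eq_one_of_pow_eq_one hn0 hγ.pow_eq_one).le
  have hres : ∀ g : cyclo p n ≃ₐ[ℚ_[p]] cyclo p n, g ≠ 1 → ‖g α - α‖ = 1 := fun g hg => by
    have h1 : ‖g α - α‖ ≤ 1 := by
      refine (norm_sub_le_max' _ _).trans (max_le ?_ hα)
      rw [hiso]; exact hα
    refine le_antisymm h1 ?_
    by_contra hlt
    rw [not_le] at hlt
    refine hg (eq_one_of_fix_primitive hγ g (Subtype.ext ?_))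
    refine eq_of_root_near hn ?_ hγ.pow_eq_one hlt
    rw [← SubmonoidClass.coe_pow, ← map_pow]
    show ((g (α ^ n) : cyclo p n) : Ω) = 1
    rw [show α ^ n = 1 from Subtype.ext hγ.pow_eq_one, map_one]
    rfl
  obtain ⟨y, hy⟩ := Duality.Local.exists_norm_eq_of_residue (K := ℚ_[p]) hiso hα hres
    (⟨x, hx⟩ : cyclo p n)
  rcases eq_or_ne y 0 with rfl | hy0
  · rw [norm_zero, eq_comm] at hy
    exact absurd (congrArg Subtype.val (norm_eq_zero.mp hy)) hx0
  obtain ⟨k, hk⟩ := Padic.norm_eq_zpow_neg_valuation hy0 |>.symm |> fun h => (⟨y.valuation, h⟩ :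
    ∃ k : ℤ, (p : ℝ) ^ (-k) = ‖y‖)
  refine ⟨k, ?_⟩
  rw [Duality.Places.norm_natCast_self, inv_zpow, ← zpow_neg, hk, hy]; rfl

/-- A root of unity of order prime to `p` near an element of a field lies in that field. -/
theorem root_mem_of_near {F : IntermediateField ℚ_[p] (PadicAlgCl p)} {n : ℕ} (hn : ¬ p ∣ n)
    {x ω : PadicAlgCl p} (hx : x ∈ F) (hω : ω ^ n = 1) (h : ‖x - ω‖ < 1) : ω ∈ F := by
  rw [← InfiniteGalois.fixedField_fixingSubgroup F]
  rintro ⟨σ, hσ⟩
  have hσω : σ ω ^ n = 1 := by rw [← map_pow, hω, map_one]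
  show σ ω = ω
  refine eq_of_root_near hn hσω hω ?_
  rw [show σ ω - ω = (σ ω - σ x) + (x - ω) by rw [show σ x = x from hσ ⟨x, hx⟩]; ring]
  refine (IsUltrametricDist.norm_add_le_max _ _).trans_lt (max_lt ?_ h)
  rwa [← map_sub, Duality.Local.norm_galLoc_apply, norm_sub_rev]

/-- Residues of a finite Galois extension are roots of unity of order prime to `p`. -/
theorem exists_residue_roots_of_galois (F : IntermediateField ℚ_[p] (PadicAlgCl p))
    [FiniteDimensional ℚ_[p] F] [IsGalois ℚ_[p] F] : ∃ n : ℕ, ¬ p ∣ n ∧ ∀ x ∈ F, ‖x‖ = 1 →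
      ∃ ω : PadicAlgCl p, ω ^ n = 1 ∧ ω ∈ F ∧ ‖x - ω‖ < 1 := by
  have := Duality.Local.finite_residueField ℚ_[p] F
  set k := IsLocalRing.ResidueField (Duality.Local.unitBall F) with hk
  have := Fintype.ofFinite k
  have hpk : (p : k) = 0 := by
    rw [← map_natCast (IsLocalRing.residue (Duality.Local.unitBall F))]
    refine Duality.Local.residue_unitBall_eq_zero.mpr ?_
    show ‖((((p : Duality.Local.unitBall F) : F)) : Ω)‖ < 1
    exact lt_of_eq_of_lt (by simp) (norm_p_lt_one (p := p))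
  have : CharP k p := (CharP.charP_iff_prime_eq_zero hp.out).mpr hpk
  obtain ⟨f, hf, hcard⟩ := FiniteField.card k p
  set n := Fintype.card k - 1 with hn
  have hq : 1 < Fintype.card k := Fintype.one_lt_card
  have hpn : ¬ p ∣ n := fun hd => by
    have h1 : p ∣ Fintype.card k := hcard ▸ dvd_pow_self p f.ne_zero
    have h2 := Nat.dvd_sub h1 hd
    rw [show Fintype.card k - n = 1 by omega] at h2
    exact hp.out.one_lt.ne' (Nat.dvd_one.mp h2)
  refine ⟨n, hpn, fun x hx hx1 => ?_⟩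
  have hn0 : n ≠ 0 := by omega
  set X' : Duality.Local.unitBall F := ⟨⟨x, hx⟩, le_of_eq hx1⟩
  have hne : IsLocalRing.residue _ X' ≠ (0 : k) := fun h => by
    have := Duality.Local.residue_unitBall_eq_zero.mp h
    change ‖x‖ < 1 at this
    rw [hx1] at this
    exact lt_irrefl _ this
  have hpow : ‖x ^ n - 1‖ < 1 := by
    have h1 : IsLocalRing.residue _ (X' ^ n - 1) = (0 : k) := by
      rw [map_sub, map_pow, map_one, hn, FiniteField.pow_card_sub_one_eq_one _ hne, sub_self]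
    exact Duality.Local.residue_unitBall_eq_zero.mp h1
  have : NeZero n := ⟨hn0⟩
  have : NeZero (n : Ω) := ⟨by exact_mod_cast hn0⟩
  obtain ⟨γ, hγ⟩ := HasEnoughRootsOfUnity.exists_primitiveRoot (PadicAlgCl p) n
  have hprod := congrArg (fun P => ‖Polynomial.eval x P‖)
    (Polynomial.X_pow_sub_one_eq_prod (Nat.pos_of_ne_zero hn0) hγ)
  simp only [eval_sub, eval_pow, eval_X, eval_one, eval_prod, eval_C, norm_prod] at hprod
  by_contra hall
  push Not at hall
  refine absurd hpow (not_lt.mpr ?_)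
  rw [hprod]
  refine Finset.one_le_prod fun ω hω => ?_
  rw [Polynomial.mem_nthRootsFinset (Nat.pos_of_ne_zero hn0)] at hω
  by_contra hlt
  rw [not_le] at hlt
  exact absurd hlt (not_lt.mpr (hall ω hω (root_mem_of_near hpn hx hω hlt)))

/-- Residues of a finite extension are roots of unity of order prime to `p`. -/
theorem exists_residue_roots (F : IntermediateField ℚ_[p] (PadicAlgCl p))
    [FiniteDimensional ℚ_[p] F] : ∃ n : ℕ, ¬ p ∣ n ∧ ∀ x ∈ F, ‖x‖ = 1 →
      ∃ ω : PadicAlgCl p, ω ^ n = 1 ∧ ω ∈ F ∧ ‖x - ω‖ < 1 := by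
  set M := IntermediateField.normalClosure ℚ_[p] F (PadicAlgCl p)
  obtain ⟨n, hn, h⟩ := exists_residue_roots_of_galois M
  refine ⟨n, hn, fun x hx hx1 => ?_⟩
  obtain ⟨ω, hω, -, hlt⟩ := h x (F.le_normalClosure hx) hx1
  exact ⟨ω, hω, root_mem_of_near hn hx hω hlt, hlt⟩

/-- A field whose residues come from `K` is spanned over `K` by powers of a uniformizer. -/
theorem exists_poly_of_residues (K F : IntermediateField ℚ_[p] (PadicAlgCl p))
    [FiniteDimensional ℚ_[p] K] {w : PadicAlgCl p} {e : ℕ} (hw : Uniformizer w e) (hwF : w ∈ F)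
    (hval : ∀ x ∈ F, x ≠ 0 → ∃ k : ℤ, ‖x‖ = ‖w‖ ^ k)
    (hres : ∀ x ∈ F, ‖x‖ = 1 → ∃ c : PadicAlgCl p, c ∈ K ∧ c ∈ F ∧ ‖x - c‖ < 1)
    {x : PadicAlgCl p} (hx : x ∈ F) : ∃ h : K[X], h.natDegree < e ∧ aeval w h = x := by
  set W : Submodule K Ω := Submodule.span K (Set.range fun i : Fin e => w ^ (i : ℕ)) with hW
  suffices hxW : x ∈ W by
    obtain ⟨c, hc⟩ := (Submodule.mem_span_range_iff_exists_fun K).mp hxW
    refine ⟨∑ i : Fin e, Polynomial.C (c i) * Polynomial.X ^ (i : ℕ), ?_, ?_⟩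
    · refine lt_of_le_of_lt (natDegree_sum_le_of_forall_le _ _ (n := e - 1) fun i _ =>
        (natDegree_C_mul_X_pow_le _ _).trans (by omega)) (by have := hw.pos; omega)
    · rw [map_sum, ← hc]
      exact Finset.sum_congr rfl fun i _ => by
        rw [map_mul, aeval_C, map_pow, aeval_X, Algebra.smul_def]
  have hwn := hw.norm_pos
  have step : ∀ x ∈ F, ‖x‖ ≤ 1 → ∀ j ≤ e, ∃ v : Ω, v ∈ W ∧ v ∈ F ∧ ‖x - v‖ ≤ ‖w‖ ^ j := by
    intro x hx hx1 j
    induction j with
    | zero => exact fun _ => ⟨0, W.zero_mem, F.zero_mem, by simpa using hx1⟩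
    | succ j ih =>
      intro hj
      obtain ⟨v, hvW, hvF, hv⟩ := ih (by omega)
      set z := (x - v) / w ^ j with hz
      have hzF : z ∈ F := F.div_mem (F.sub_mem hx hvF) (pow_mem hwF j)
      have hz1 : ‖z‖ ≤ 1 := by
        rw [hz, norm_div, norm_pow, div_le_one (pow_pos hwn j)]
        exact hv
      have hxv : x - v = w ^ j * z := by
        rw [hz, mul_div_cancel₀ _ (pow_ne_zero j (norm_pos_iff.mp hwn))]
      have hsmall : ∀ u ∈ F, ‖u‖ < 1 → ‖u‖ ≤ ‖w‖ := by
        intro u hu hu1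
        rcases eq_or_ne u 0 with rfl | hu0
        · simp
        obtain ⟨k, hk⟩ := hval u hu hu0
        rw [hk] at hu1 ⊢
        have hk1 : 1 ≤ k := by
          by_contra hle
          exact absurd hu1 (not_lt.mpr (one_le_zpow_of_nonpos₀ hwn hw.norm_lt_one.le
            (show k ≤ 0 by omega)))
        calc ‖w‖ ^ k ≤ ‖w‖ ^ (1 : ℤ) :=
              zpow_le_zpow_right_of_le_one₀ hwn hw.norm_lt_one.le hk1
          _ = ‖w‖ := zpow_one _
      obtain ⟨c, hcK, hcF, hc⟩ : ∃ c : Ω, c ∈ K ∧ c ∈ F ∧ ‖z - c‖ < 1 := by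
        rcases hz1.lt_or_eq with hlt | heq
        · exact ⟨0, K.zero_mem, F.zero_mem, by simpa using hlt⟩
        · exact hres z hzF heq
      refine ⟨v + c * w ^ j, W.add_mem hvW ?_, F.add_mem hvF (F.mul_mem hcF (pow_mem hwF j)), ?_⟩
      · exact W.smul_mem (⟨c, hcK⟩ : K) (Submodule.subset_span ⟨⟨j, by omega⟩, rfl⟩)
      · rw [show x - (v + c * w ^ j) = w ^ j * (z - c) by rw [mul_sub, ← hxv]; ring, norm_mul,
          norm_pow, pow_succ]
        exact mul_le_mul_of_nonneg_left (hsmall _ (F.sub_mem hzF hcF) hc) (pow_nonneg hwn.le j)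
  have hpW : ∀ v ∈ W, (p : Ω) * v ∈ W := fun v hv => by
    have := W.smul_mem (p : K) hv
    rwa [IntermediateField.smul_def, smul_eq_mul,
      show (((p : K)) : Ω) = (p : Ω) by simp] at this
  have iter : ∀ m : ℕ, ∀ x ∈ F, ‖x‖ ≤ 1 → ∃ v : Ω, v ∈ W ∧ ‖x - v‖ ≤ ‖(p : Ω)‖ ^ m := by
    intro m
    induction m with
    | zero => exact fun x _ hx1 => ⟨0, W.zero_mem, by simpa using hx1⟩
    | succ m ih =>
      intro x hx hx1
      obtain ⟨v, hvW, hvF, hv⟩ := step x hx hx1 e le_rfl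
      rw [hw.norm_pow] at hv
      have hp0 : (p : Ω) ≠ 0 := norm_pos_iff.mp norm_p_pos
      obtain ⟨v', hv'W, hv'⟩ := ih ((x - v) / (p : Ω))
        (F.div_mem (F.sub_mem hx hvF) (by exact_mod_cast F.natCast_mem p))
        (by rw [norm_div, div_le_one norm_p_pos]; exact hv)
      refine ⟨v + (p : Ω) * v', W.add_mem hvW (hpW v' hv'W), ?_⟩
      rw [show x - (v + (p : Ω) * v') = (p : Ω) * ((x - v) / (p : Ω) - v') by field_simp; ring,
        norm_mul, pow_succ']
      exact mul_le_mul_of_nonneg_left hv' (norm_nonneg _)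
  have hclosed : IsClosed (W : Set Ω) := by
    have : Module.Finite K W := Module.Finite.span_of_finite K (Set.finite_range _)
    have : Module.Finite ℚ_[p] W := Module.Finite.trans K W
    have : Module.Finite ℚ_[p] (W.restrictScalars ℚ_[p]) := by
      change Module.Finite ℚ_[p] W
      infer_instance
    exact (W.restrictScalars ℚ_[p]).closed_of_finiteDimensional
  have key : ∀ x ∈ F, ‖x‖ ≤ 1 → x ∈ W := by
    intro x hx hx1
    show x ∈ (W : Set Ω)
    rw [← hclosed.closure_eq, Metric.mem_closure_iff]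
    intro ε hε
    obtain ⟨m, hm⟩ := exists_pow_lt_of_lt_one hε (norm_p_lt_one (p := p))
    obtain ⟨v, hvW, hv⟩ := iter m x hx hx1
    exact ⟨v, hvW, by rw [dist_eq_norm]; exact hv.trans_lt hm⟩
  obtain ⟨m, hm⟩ : ∃ m : ℕ, ‖(p : Ω) ^ m * x‖ ≤ 1 := by
    obtain ⟨m, hm⟩ := exists_pow_lt_of_lt_one (show 0 < 1 / (‖x‖ + 1) by positivity)
      (norm_p_lt_one (p := p))
    refine ⟨m, ?_⟩
    rw [norm_mul, norm_pow]
    rw [lt_div_iff₀ (by positivity)] at hm
    nlinarith [norm_nonneg x, pow_nonneg (norm_nonneg (p : Ω)) m]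
  have h1 := W.smul_mem (((p : K) ^ m)⁻¹)
    (key _ (F.mul_mem (pow_mem (by exact_mod_cast F.natCast_mem p) m) hx) hm)
  rwa [IntermediateField.smul_def, smul_eq_mul, IntermediateField.coe_inv,
    IntermediateField.coe_pow, show (((p : K)) : Ω) = (p : Ω) by simp,
    inv_mul_cancel_left₀ (pow_ne_zero m (norm_pos_iff.mp norm_p_pos))] at h1

/-- The degree of such a uniformizer is its ramification index. -/
theorem natDegree_minpoly_le_of_residues (K F : IntermediateField ℚ_[p] (PadicAlgCl p))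
    [FiniteDimensional ℚ_[p] K] {w : PadicAlgCl p} {e : ℕ} (hw : Uniformizer w e) (hwF : w ∈ F)
    (hval : ∀ x ∈ F, x ≠ 0 → ∃ k : ℤ, ‖x‖ = ‖w‖ ^ k)
    (hres : ∀ x ∈ F, ‖x‖ = 1 → ∃ c : PadicAlgCl p, c ∈ K ∧ c ∈ F ∧ ‖x - c‖ < 1) :
    (minpoly K w).natDegree ≤ e := by
  obtain ⟨h, hd, hv⟩ := exists_poly_of_residues K F hw hwF hval hres (pow_mem hwF e)
  have hdeg : h.degree < (Polynomial.X ^ e : K[X]).degree := by
    rw [degree_X_pow]
    exact lt_of_le_of_lt degree_le_natDegree (by exact_mod_cast hd)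
  have hd' : (Polynomial.X ^ e - h : K[X]).natDegree = e := by
    rw [natDegree_eq_of_degree_eq (degree_sub_eq_left_of_degree_lt hdeg), natDegree_X_pow]
  calc (minpoly K w).natDegree ≤ (Polynomial.X ^ e - h : K[X]).natDegree :=
        natDegree_le_of_dvd (minpoly.dvd K w (by simp [hv]))
          (fun h0 => by rw [h0, natDegree_zero] at hd'; exact hw.pos.ne hd')
    _ = e := hd'

end Fermat.Agent.FlatBound
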