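import Fermat.Agent.FlatBound.Roots
import Fermat.Agent.Duality.Local.Basic

/-!
# Expansions in a uniformizer over a field with unramified value group

`exists_norm_aeval_eq`: the absolute value of a short expansion is that of its largest term.
-/

set_option autoImplicit false

noncomputable section

open Finset Module Polynomial
open scoped Classical

namespace Fermat.Agent.FlatBound

variable {p : ℕ} [hp : Fact p.Prime]

local notation "Ω" => PadicAlgCl p

theorem norm_p_pos : 0 < ‖(p : Ω)‖ := by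
  rw [Duality.Places.norm_natCast_self]
  exact inv_pos.mpr (by exact_mod_cast hp.out.pos)

theorem norm_p_lt_one : ‖(p : Ω)‖ < 1 := by
  rw [Duality.Places.norm_natCast_self]
  exact inv_lt_one_of_one_lt₀ (by exact_mod_cast hp.out.one_lt)

variable {K : IntermediateField ℚ_[p] (PadicAlgCl p)}

theorem norm_algEquiv_apply (σ : Ω ≃ₐ[K] Ω) (x : Ω) : ‖σ x‖ = ‖x‖ :=
  Duality.Local.norm_galLoc_apply (σ.restrictScalars ℚ_[p]) x

/-- The nonzero elements of `K` have absolute values in `|p| ^ ℤ`. -/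
def Unram (K : IntermediateField ℚ_[p] (PadicAlgCl p)) : Prop :=
  ∀ x ∈ K, x ≠ 0 → ∃ k : ℤ, ‖x‖ = ‖(p : PadicAlgCl p)‖ ^ k

/-- `w` has the absolute value of an `e`-th root of `p`. -/
structure Uniformizer (w : PadicAlgCl p) (e : ℕ) : Prop where
  pos : 0 < e
  norm_pow : ‖w‖ ^ e = ‖(p : PadicAlgCl p)‖

namespace Uniformizer

variable {w : PadicAlgCl p} {e : ℕ} (hw : Uniformizer w e)

include hw

theorem norm_pos : 0 < ‖w‖ := by
  rcases (norm_nonneg w).lt_or_eq with h | h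
  · exact h
  · exfalso
    have := hw.norm_pow
    rw [← h, zero_pow hw.pos.ne'] at this
    exact (norm_p_pos (p := p)).ne this

theorem norm_lt_one : ‖w‖ < 1 := by
  by_contra h
  rw [not_lt] at h
  have := one_le_pow₀ (n := e) h
  rw [hw.norm_pow] at this
  exact absurd this (not_le.mpr norm_p_lt_one)

theorem zpow_mul_pow (k : ℤ) (i : ℕ) :
    ‖(p : Ω)‖ ^ k * ‖w‖ ^ i = ‖w‖ ^ ((e : ℤ) * k + i) := by
  rw [← hw.norm_pow, zpow_add₀ hw.norm_pos.ne', ← zpow_natCast, ← zpow_natCast, ← zpow_mul]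

theorem exists_zpow_term (hK : Unram K) {c : K} (hc : c ≠ 0) (i : ℕ) :
    ∃ k : ℤ, ‖(c : Ω)‖ * ‖w‖ ^ i = ‖w‖ ^ ((e : ℤ) * k + i) ∧ ‖(c : Ω)‖ = ‖(p : Ω)‖ ^ k := by
  obtain ⟨k, hk⟩ := hK c c.2 (fun h => hc (Subtype.ext h))
  exact ⟨k, by rw [hk, hw.zpow_mul_pow], hk⟩

theorem zpow_inj {m n : ℤ} (h : ‖w‖ ^ m = ‖w‖ ^ n) : m = n :=
  zpow_right_injective₀ hw.norm_pos hw.norm_lt_one.ne h

theorem zpow_le {m n : ℤ} (h : ‖w‖ ^ m ≤ ‖w‖ ^ n) : n ≤ m := by
  by_contra hlt
  rw [not_le] at hlt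
  exact absurd h (not_le.mpr (zpow_lt_zpow_right_of_lt_one₀ hw.norm_pos hw.norm_lt_one hlt))

/-- The absolute value of a short expansion is that of its largest term. -/
theorem exists_norm_aeval_eq (hK : Unram K) {h : K[X]} (hdeg : h.natDegree < e) (h0 : h ≠ 0) :
    (∀ i, ‖(h.coeff i : Ω)‖ * ‖w‖ ^ i ≤ ‖aeval w h‖) ∧
      ∃ m : ℤ, ‖aeval w h‖ = ‖w‖ ^ m := by
  classical
  have hs : h.support.Nonempty := nonempty_support_iff.mpr h0
  have hnorm : ‖aeval w h‖ = h.support.sup' hs fun i => ‖(h.coeff i : Ω)‖ * ‖w‖ ^ i := by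
    rw [aeval_def, eval₂_eq_sum, Polynomial.sum]
    have key : ∀ i ∈ h.support, ‖algebraMap K Ω (h.coeff i) * w ^ i‖
        = ‖(h.coeff i : Ω)‖ * ‖w‖ ^ i := fun i _ => by rw [norm_mul, _root_.norm_pow]; rfl
    rw [IsUltrametricDist.norm_sum_eq_sup'_of_pairwise_ne hs ?_, Finset.sup'_congr hs rfl key]
    intro i hi j hj hij heq
    simp only [key i hi, key j hj] at heq
    obtain ⟨k, hk, -⟩ := hw.exists_zpow_term hK (mem_support_iff.mp hi) i
    obtain ⟨l, hl, -⟩ := hw.exists_zpow_term hK (mem_support_iff.mp hj) j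
    rw [hk, hl] at heq
    have h1 := hw.zpow_inj heq
    have hil : (i : ℤ) < e := by exact_mod_cast (le_natDegree_of_mem_supp i hi).trans_lt hdeg
    have hjl : (j : ℤ) < e := by exact_mod_cast (le_natDegree_of_mem_supp j hj).trans_lt hdeg
    have hkl : k = l := by
      rcases lt_trichotomy k l with hlt | hlt | hlt
      · nlinarith [mul_le_mul_of_nonneg_left (show (1 : ℤ) ≤ l - k by omega)
          (show (0 : ℤ) ≤ e by omega)]
      · exact hlt
      · nlinarith [mul_le_mul_of_nonneg_left (show (1 : ℤ) ≤ k - l by omega)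
          (show (0 : ℤ) ≤ e by omega)]
    subst hkl
    exact hij (by omega)
  refine ⟨fun i => ?_, ?_⟩
  · rw [hnorm]
    by_cases hi : i ∈ h.support
    · exact Finset.le_sup' (fun i => ‖(h.coeff i : Ω)‖ * ‖w‖ ^ i) hi
    · rw [notMem_support_iff.mp hi, ZeroMemClass.coe_zero, norm_zero, zero_mul, ← hnorm]
      exact norm_nonneg _
  · obtain ⟨i, hi, heq⟩ := Finset.exists_mem_eq_sup' hs fun i => ‖(h.coeff i : Ω)‖ * ‖w‖ ^ i
    obtain ⟨k, hk, -⟩ := hw.exists_zpow_term hK (mem_support_iff.mp hi) i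
    exact ⟨_, by rw [hnorm, heq, hk]⟩

theorem norm_coeff_mul_le (hK : Unram K) {h : K[X]} (hdeg : h.natDegree < e) (i : ℕ) :
    ‖(h.coeff i : Ω)‖ * ‖w‖ ^ i ≤ ‖aeval w h‖ := by
  rcases eq_or_ne h 0 with rfl | h0
  · simp
  · exact (hw.exists_norm_aeval_eq hK hdeg h0).1 i

theorem eq_zero_of_aeval_eq_zero (hK : Unram K) {h : K[X]} (hdeg : h.natDegree < e)
    (h0 : aeval w h = 0) : h = 0 := by
  ext i
  have h1 := hw.norm_coeff_mul_le hK hdeg i
  rw [h0, norm_zero] at h1
  have h2 : ‖(h.coeff i : Ω)‖ = 0 := le_antisymm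
    (nonpos_of_mul_nonpos_left h1 (pow_pos hw.norm_pos i)) (norm_nonneg _)
  rw [coeff_zero]
  exact congrArg Subtype.val (Subtype.ext (norm_eq_zero.mp h2) : h.coeff i = 0)

/-- Short expansions with integral value have integral coefficients. -/
theorem norm_coeff_le_one (hK : Unram K) {h : K[X]} (hdeg : h.natDegree < e)
    (h1 : ‖aeval w h‖ ≤ 1) (i : ℕ) : ‖(h.coeff i : Ω)‖ ≤ 1 := by
  rcases eq_or_ne (h.coeff i) 0 with h0 | h0
  · simp [h0]
  obtain ⟨k, hk, hck⟩ := hw.exists_zpow_term hK h0 i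
  have h2 : ‖w‖ ^ ((e : ℤ) * k + i) ≤ ‖w‖ ^ (0 : ℤ) := by
    rw [← hk, zpow_zero]; exact (hw.norm_coeff_mul_le hK hdeg i).trans h1
  have h3 := hw.zpow_le h2
  have hi : (i : ℤ) < e := by exact_mod_cast (le_natDegree_of_ne_zero h0).trans_lt hdeg
  have hk0 : 0 ≤ k := by
    by_contra hlt
    nlinarith [mul_le_mul_of_nonneg_left (show (k : ℤ) ≤ -1 by omega) (show (0 : ℤ) ≤ e by omega)]
  rw [hck]
  obtain ⟨k, rfl⟩ := Int.eq_ofNat_of_zero_le hk0
  rw [zpow_natCast]
  exact pow_le_one₀ (norm_p_pos).le norm_p_lt_one.le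

/-- Short expansions in two uniformizers have equal absolute values. -/
theorem norm_aeval_congr (hK : Unram K) {w' : Ω} (hw' : Uniformizer w' e) {h : K[X]}
    (hdeg : h.natDegree < e) : ‖aeval w h‖ = ‖aeval w' h‖ := by
  have hww : ‖w‖ = ‖w'‖ := (pow_left_inj₀ (norm_nonneg _) (norm_nonneg _) hw.pos.ne').mp
    (hw.norm_pow.trans hw'.norm_pow.symm)
  have key : ∀ {v v' : Ω}, Uniformizer v' e → ‖v‖ = ‖v'‖ → ‖aeval v h‖ ≤ ‖aeval v' h‖ := by
    intro v v' hv' hvv
    rw [aeval_def, eval₂_eq_sum, Polynomial.sum]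
    refine IsUltrametricDist.norm_sum_le_of_forall_le_of_nonneg (norm_nonneg _) fun i _ => ?_
    rw [norm_mul, _root_.norm_pow, hvv]
    exact hv'.norm_coeff_mul_le hK hdeg i
  exact le_antisymm (key hw' hww) (key hw hww.symm)

end Uniformizer

/-- A short integral polynomial has small value. -/
theorem norm_aeval_le_one {h : K[X]} (hc : ∀ i, ‖(h.coeff i : Ω)‖ ≤ 1) {x : Ω} (hx : ‖x‖ ≤ 1) :
    ‖aeval x h‖ ≤ 1 := by
  rw [aeval_def, eval₂_eq_sum, Polynomial.sum]
  refine IsUltrametricDist.norm_sum_le_of_forall_le_of_nonneg zero_le_one fun i _ => ?_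
  rw [norm_mul, _root_.norm_pow]
  exact mul_le_one₀ (hc i) (by positivity) (pow_le_one₀ (norm_nonneg _) hx)

/-- Values of an integral polynomial at congruent arguments are congruent. -/
theorem norm_aeval_sub_le {h : K[X]} (hc : ∀ i, ‖(h.coeff i : Ω)‖ ≤ 1) {x y : Ω} (hx : ‖x‖ ≤ 1)
    (hy : ‖y‖ ≤ 1) : ‖aeval x h - aeval y h‖ ≤ ‖x - y‖ := by
  rw [aeval_eq_sum_range, aeval_eq_sum_range, ← Finset.sum_sub_distrib]
  refine IsUltrametricDist.norm_sum_le_of_forall_le_of_nonneg (norm_nonneg _) fun i _ => ?_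
  rw [← smul_sub, IntermediateField.smul_def, smul_eq_mul, norm_mul, ← geom_sum₂_mul x y i,
    norm_mul]
  refine (mul_le_of_le_one_left (by positivity) (hc i)).trans
    (mul_le_of_le_one_left (norm_nonneg _) ?_)
  refine IsUltrametricDist.norm_sum_le_of_forall_le_of_nonneg zero_le_one fun j _ => ?_
  rw [norm_mul, _root_.norm_pow, norm_pow]
  exact mul_le_one₀ (pow_le_one₀ (norm_nonneg _) hx) (by positivity)
    (pow_le_one₀ (norm_nonneg _) hy)

/-- Division by an Eisenstein-like monic polynomial preserves integrality. -/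
theorem norm_coeff_le_one_of_mul {P q : K[X]} (hP : P.Monic)
    (hP1 : ∀ i < P.natDegree, ‖(P.coeff i : Ω)‖ < 1)
    (h : ∀ i, ‖((P * q).coeff i : Ω)‖ ≤ 1) (j : ℕ) : ‖(q.coeff j : Ω)‖ ≤ 1 := by
  classical
  by_contra hj
  rw [not_le] at hj
  have hj0 : q.coeff j ≠ 0 := fun h0 => by simp [h0] at hj; linarith
  obtain ⟨m, hm, hmax⟩ := q.support.exists_max_image (fun i => ‖(q.coeff i : Ω)‖)
    ⟨j, mem_support_iff.mpr hj0⟩
  have hmj : 1 < ‖(q.coeff m : Ω)‖ := hj.trans_le (hmax j (mem_support_iff.mpr hj0))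
  have hall : ∀ i, ‖(q.coeff i : Ω)‖ ≤ ‖(q.coeff m : Ω)‖ := fun i => by
    by_cases hi : i ∈ q.support
    · exact hmax i hi
    · rw [notMem_support_iff.mp hi, ZeroMemClass.coe_zero, norm_zero]
      exact norm_nonneg _
  have hmem : ((P.natDegree, m) : ℕ × ℕ) ∈
      Finset.HasAntidiagonal.antidiagonal (P.natDegree + m) := by simp
  have hbad := h (P.natDegree + m)
  rw [coeff_mul, ← Finset.add_sum_erase _ _ hmem, hP.coeff_natDegree, one_mul] at hbad
  set rest := ∑ x ∈ (Finset.HasAntidiagonal.antidiagonal (P.natDegree + m)).erase (P.natDegree, m),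
    P.coeff x.1 * q.coeff x.2
  have hrest : ‖(rest : Ω)‖ < ‖(q.coeff m : Ω)‖ := by
    rw [AddSubmonoidClass.coe_finsetSum]
    refine (IsUltrametricDist.norm_sum_le_of_forall_le_of_nonneg
      (C := ‖(q.coeff m : Ω)‖ * (Finset.range P.natDegree).fold max 0 fun i => ‖(P.coeff i : Ω)‖)
      (mul_nonneg (norm_nonneg _) ((Finset.le_fold_max _).mpr (Or.inl le_rfl)))
      fun x hx => ?_).trans_lt ?_
    · rw [Finset.mem_erase, Finset.HasAntidiagonal.mem_antidiagonal] at hx
      rw [MulMemClass.coe_mul, norm_mul, mul_comm]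
      rcases lt_trichotomy x.1 P.natDegree with hlt | heq | hgt
      · exact mul_le_mul (hall _)
          ((Finset.le_fold_max _).mpr (Or.inr ⟨x.1, Finset.mem_range.mpr hlt, le_rfl⟩))
          (norm_nonneg _) (norm_nonneg _)
      · exact absurd (Prod.ext heq (by omega)) hx.1
      · rw [coeff_eq_zero_of_natDegree_lt hgt, ZeroMemClass.coe_zero, norm_zero, mul_zero]
        exact mul_nonneg (norm_nonneg _) ((Finset.le_fold_max _).mpr (Or.inl le_rfl))
    · refine mul_lt_of_lt_one_right (by linarith)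
        ((Finset.fold_max_lt _).mpr ⟨one_pos, fun i hi => ?_⟩)
      exact hP1 i (Finset.mem_range.mp hi)
  rw [AddMemClass.coe_add, IsUltrametricDist.norm_add_eq_max_of_norm_ne_norm hrest.ne',
    max_eq_left hrest.le] at hbad
  linarith

/-- The roots of a polynomial over `K`. -/
def rootsIn (f : K[X]) : Finset Ω := by
  classical
  exact (f.aroots Ω).toFinset

theorem mem_rootsIn {f : K[X]} (hf : f ≠ 0) {z : Ω} : z ∈ rootsIn f ↔ aeval z f = 0 := by
  classical
  simp [rootsIn, hf]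

theorem map_minpoly_eq_prod (y : Ω) :
    (minpoly K y).map (algebraMap K Ω) = ∏ z ∈ rootsIn (minpoly K y), (X - C z) := by
  classical
  have hy : IsIntegral K y := (Algebra.IsAlgebraic.isAlgebraic y).isIntegral
  have hsep : (minpoly K y).Separable := (minpoly.irreducible hy).separable
  rw [rootsIn, Finset.prod_eq_multiset_prod, Multiset.toFinset_val,
    Multiset.dedup_eq_self.mpr (nodup_roots hsep.map)]
  exact (IsAlgClosed.splits _).eq_prod_roots_of_monic ((minpoly.monic hy).map _)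

theorem card_rootsIn_minpoly (y : Ω) :
    (rootsIn (minpoly K y)).card = (minpoly K y).natDegree := by
  have h := congrArg natDegree (map_minpoly_eq_prod (K := K) y)
  rw [natDegree_map, natDegree_prod_of_monic _ _ fun z _ => monic_X_sub_C z] at h
  simpa [natDegree_X_sub_C] using h.symm

theorem self_mem_rootsIn (y : Ω) : y ∈ rootsIn (minpoly K y) :=
  (mem_rootsIn (minpoly.ne_zero (Algebra.IsAlgebraic.isAlgebraic y).isIntegral)).mpr
    (minpoly.aeval K y)

theorem exists_algEquiv_of_mem_rootsIn {y z : Ω} (hz : z ∈ rootsIn (minpoly K y)) :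
    ∃ σ : Ω ≃ₐ[K] Ω, σ y = z :=
  minpoly.exists_algEquiv_of_root' (Algebra.IsAlgebraic.isAlgebraic y)
    ((mem_rootsIn (minpoly.ne_zero (Algebra.IsAlgebraic.isAlgebraic y).isIntegral)).mp hz)

theorem algEquiv_mem_rootsIn {y z : Ω} (σ : Ω ≃ₐ[K] Ω) (hz : z ∈ rootsIn (minpoly K y)) :
    σ z ∈ rootsIn (minpoly K y) := by
  have h0 : minpoly K y ≠ 0 := minpoly.ne_zero (Algebra.IsAlgebraic.isAlgebraic y).isIntegral
  rw [mem_rootsIn h0] at hz ⊢
  rw [aeval_algHom_apply, hz, map_zero]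

/-- The derivative at a root is the product of the differences. -/
theorem aeval_derivative_minpoly (y : Ω) :
    aeval y (derivative (minpoly K y))
      = ∏ z ∈ (rootsIn (minpoly K y)).erase y, (y - z) := by
  rw [← eval_map_algebraMap, ← derivative_map, map_minpoly_eq_prod,
    ← Finset.mul_prod_erase _ _ (self_mem_rootsIn y), derivative_mul, derivative_X_sub_C, one_mul,
    eval_add, eval_mul, eval_sub, eval_X, eval_C, sub_self, zero_mul, add_zero, eval_prod]
  simp

end Fermat.Agent.FlatBound
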