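import Fermat.Agent.FlatBound.TotRam

/-!
# The different does not decrease in towers

`TotRam.norm_derivative_le` compares the differents.
-/

set_option autoImplicit false

noncomputable section

open Finset Module Polynomial
open scoped Classical IntermediateField

namespace Fermat.Agent.FlatBound

variable {p : ℕ} [hp : Fact p.Prime]

local notation "Ω" => PadicAlgCl p

variable {K : IntermediateField ℚ_[p] (PadicAlgCl p)} {L : IntermediateField K (PadicAlgCl p)}
  {π y : PadicAlgCl p} {e n : ℕ}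

/-- The degree of a uniformizer of a subfield divides the ramification index. -/
theorem TotRam.dvd_of_uniformizer (hT : TotRam K L π e) (hy : y ∈ L) (hu : Uniformizer y n) :
    n ∣ e := by
  obtain ⟨k, hk⟩ := hT.exists_zpow hy (norm_pos_iff.mp hu.norm_pos)
  have h : ‖π‖ ^ (k * n) = ‖π‖ ^ (e : ℤ) := by
    rw [zpow_mul, ← hk, zpow_natCast, zpow_natCast, hu.norm_pow, hT.unif.norm_pow]
  have h2 := hT.unif.zpow_inj h
  exact Int.natCast_dvd_natCast.mp ⟨k, by rw [mul_comm]; exact h2.symm⟩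

/-- The different of `K⟮y⟯` is at most that of `L`. -/
theorem TotRam.norm_derivative_le (hT : TotRam K L π e) (hy : y ∈ L) (hu : Uniformizer y n)
    (hn : (minpoly K y).natDegree = n) :
    ‖aeval π (derivative (minpoly K π))‖ ≤ ‖aeval y (derivative (minpoly K y))‖ := by
  have hρ1 := hT.unif.norm_lt_one.le
  have hy1 : ‖y‖ ≤ 1 := hu.norm_lt_one.le
  obtain ⟨hY, hYd, hYv⟩ := hT.exists_poly hy
  set F : Ω → Ω := fun w => aeval w hY with hF
  have hFσ : ∀ (σ : Ω ≃ₐ[K] Ω) (w : Ω), F (σ w) = σ (F w) := fun σ w => aeval_algHom_apply σ w hY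
  set S := rootsIn (minpoly K π) with hS
  set T := rootsIn (minpoly K y) with hT'
  have hFS : ∀ w ∈ S, F w ∈ T := fun w hw => by
    obtain ⟨σ, rfl⟩ := exists_algEquiv_of_mem_rootsIn hw
    rw [hFσ, hF]
    simp only [hYv]
    exact algEquiv_mem_rootsIn σ (self_mem_rootsIn y)
  have hd1 : ∀ w ∈ S, ‖π - w‖ ≤ 1 := fun w hw =>
    (norm_sub_le_max' _ _).trans (max_le hρ1 ((TotRam.norm_root hw).le.trans hρ1))
  set Sy := S.filter (fun w => F w = y) with hSy
  set g : Polynomial Ω := ∏ w ∈ Sy, (X - C w) with hg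
  have hgfix : ∀ τ : Ω ≃ₐ[K] Ω, τ y = y → g.map (τ : Ω →+* Ω) = g := by
    intro τ hτ
    rw [hg, Polynomial.map_prod]
    refine Finset.prod_nbij τ ?_ (fun a _ b _ h => τ.injective h) ?_
      (fun w _ => by simp)
    · intro w hw
      rw [hSy, Finset.mem_filter] at hw ⊢
      exact ⟨algEquiv_mem_rootsIn τ hw.1, by rw [hFσ, hw.2, hτ]⟩
    · intro w hw
      rw [hSy, Finset.mem_coe, Finset.mem_filter] at hw
      refine ⟨τ.symm w, ?_, τ.apply_symm_apply w⟩
      rw [hSy, Finset.mem_coe, Finset.mem_filter]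
      exact ⟨algEquiv_mem_rootsIn τ.symm hw.1, by rw [hFσ, hw.2, τ.symm_apply_eq, hτ]⟩
  have hgi : ∀ i, ∃ h : K[X], (∀ j, ‖(h.coeff j : Ω)‖ ≤ 1) ∧ aeval y h = g.coeff i := by
    intro i
    have hmem : g.coeff i ∈ K⟮y⟯ := by
      rw [← InfiniteGalois.fixedField_fixingSubgroup K⟮y⟯]
      rintro ⟨τ, hτ⟩
      have h := congrArg (fun q => q.coeff i)
        (hgfix τ (hτ ⟨y, IntermediateField.mem_adjoin_simple_self K y⟩))
      simpa [coeff_map] using h
    obtain ⟨h, hd, hv⟩ := exists_poly_of_mem_adjoin hmem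
    refine ⟨h, fun j => hu.norm_coeff_le_one hT.unram (hn ▸ hd) ?_ j, hv⟩
    rw [hv]
    rcases le_or_gt i Sy.card with hi | hi
    · exact (norm_coeff_prod_le zero_le_one _ (fun w hw =>
        (TotRam.norm_root (Finset.mem_filter.mp hw).1).le.trans hρ1) i hi).trans (by simp)
    · rw [coeff_eq_zero_of_natDegree_lt (by
        rw [hg, natDegree_prod_of_monic _ _ fun w _ => monic_X_sub_C w]
        simpa [natDegree_X_sub_C] using hi), norm_zero]
      exact zero_le_one
  choose h hh1 hh2 using hgi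
  have hgπ : g.eval π = 0 := by
    rw [hg, eval_prod]
    exact Finset.prod_eq_zero
      (Finset.mem_filter.mpr ⟨self_mem_rootsIn π, hYv⟩) (by simp)
  have key : ∀ z ∈ T.erase y, ∏ w ∈ S.filter (fun w => F w = z), ‖π - w‖ ≤ ‖y - z‖ := by
    intro z hz
    obtain ⟨σ, hσ⟩ := exists_algEquiv_of_mem_rootsIn (Finset.mem_of_mem_erase hz)
    have he : ∏ w ∈ S.filter (fun w => F w = z), (π - w) = (g.map (σ : Ω →+* Ω)).eval π := by
      rw [hg, Polynomial.map_prod, eval_prod]
      refine (Finset.prod_nbij σ ?_ (fun a _ b _ h => σ.injective h) ?_ ?_).symm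
      · intro w hw
        rw [Finset.mem_filter] at hw ⊢
        exact ⟨algEquiv_mem_rootsIn σ hw.1, by rw [hFσ, hw.2, hσ]⟩
      · intro w hw
        rw [Finset.mem_coe, Finset.mem_filter] at hw
        refine ⟨σ.symm w, ?_, σ.apply_symm_apply w⟩
        rw [Finset.mem_coe, Finset.mem_filter]
        exact ⟨algEquiv_mem_rootsIn σ.symm hw.1, by rw [hFσ, hw.2, ← hσ, σ.symm_apply_apply]⟩
      · intro w _
        simp
    rw [← norm_prod, he, ← sub_zero (eval π _), ← hgπ, ← eval_sub]
    rw [eval_eq_sum, Polynomial.sum]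
    refine IsUltrametricDist.norm_sum_le_of_forall_le_of_nonneg (norm_nonneg _) fun i _ => ?_
    rw [norm_mul, norm_pow]
    refine (mul_le_of_le_one_right (norm_nonneg _) (pow_le_one₀ (norm_nonneg _) hρ1)).trans ?_
    rw [coeff_sub, coeff_map, ← hh2, norm_sub_rev y z]
    change ‖σ (aeval y (h i)) - aeval y (h i)‖ ≤ _
    rw [← aeval_algHom_apply, hσ]
    refine norm_aeval_sub_le (hh1 i) ?_ hy1
    rw [← hσ, norm_algEquiv_apply]
    exact hy1
  rw [aeval_derivative_minpoly, norm_prod, aeval_derivative_minpoly, norm_prod, ← hS, ← hT']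
  calc ∏ w ∈ S.erase π, ‖π - w‖
      = ∏ z ∈ T, ∏ w ∈ (S.erase π).filter (fun w => F w = z), ‖π - w‖ :=
        (Finset.prod_fiberwise_of_maps_to (fun w hw => hFS w (Finset.mem_of_mem_erase hw)) _).symm
    _ = (∏ w ∈ (S.erase π).filter (fun w => F w = y), ‖π - w‖) *
          ∏ z ∈ T.erase y, ∏ w ∈ (S.erase π).filter (fun w => F w = z), ‖π - w‖ :=
        (Finset.mul_prod_erase T _ (self_mem_rootsIn y)).symm
    _ ≤ 1 * ∏ z ∈ T.erase y, ‖y - z‖ := by
        refine mul_le_mul (Finset.prod_le_one (fun _ _ => norm_nonneg _) fun w hw =>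
            hd1 w (Finset.mem_of_mem_erase (Finset.mem_filter.mp hw).1)) ?_
          (Finset.prod_nonneg fun _ _ => Finset.prod_nonneg fun _ _ => norm_nonneg _) zero_le_one
        refine Finset.prod_le_prod (fun _ _ => Finset.prod_nonneg fun _ _ => norm_nonneg _)
          fun z hz => le_of_eq_of_le ?_ (key z hz)
        refine Finset.prod_congr ?_ fun _ _ => rfl
        rw [Finset.filter_erase, Finset.erase_eq_of_notMem]
        intro hmem
        exact Finset.ne_of_mem_erase hz ((Finset.mem_filter.mp hmem).2.symm.trans hYv)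
    _ = ∏ z ∈ T.erase y, ‖y - z‖ := one_mul _

end Fermat.Agent.FlatBound
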