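import Fermat.Agent.FlatBound.PointField
import Fermat.Agent.FlatBound.Subfield

/-!
# Kummer levels of extensions cut out by finite flat groups killed by `p`

If `α ^ p` lies in `F` and `α` lies in the field of points then the bound on the different
restricts the level of `α ^ p`.
-/

set_option autoImplicit false

noncomputable section

open Finset Module Polynomial
open scoped Classical IntermediateField

namespace Fermat.Agent.FlatBound

variable {p : ℕ} [hp : Fact p.Prime]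

local notation "Ω" => PadicAlgCl p

/-- A root of unity of order prime to `p` in a totally ramified field lies in the base. -/
theorem TotRam.root_mem {K : IntermediateField ℚ_[p] (PadicAlgCl p)}
    {L : IntermediateField K (PadicAlgCl p)} {π : PadicAlgCl p} {e : ℕ} (hT : TotRam K L π e)
    {n : ℕ} (hn : ¬ p ∣ n) {ω : PadicAlgCl p} (hω : ω ^ n = 1) (hωL : ω ∈ L) : ω ∈ K := by
  have hn0 : n ≠ 0 := fun h => hn (h ▸ dvd_zero p)
  obtain ⟨h, hd, hh⟩ := hT.exists_poly hωL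
  refine root_mem_of_near hn (h.coeff 0).2 hω ?_
  rw [← hh, aeval_eq_sum_range' hd,
    ← Finset.add_sum_erase _ _ (Finset.mem_range.mpr hT.unif.pos), pow_zero,
    IntermediateField.smul_def, smul_eq_mul, mul_one, sub_add_cancel_left, norm_neg]
  refine (IsUltrametricDist.norm_sum_le_of_forall_le_of_nonneg hT.unif.norm_pos.le
    fun i hi => ?_).trans_lt hT.unif.norm_lt_one
  rw [IntermediateField.smul_def, smul_eq_mul, norm_mul, norm_pow]
  refine (mul_le_of_le_one_left (by positivity) (hT.unif.norm_coeff_le_one hT.unram hd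
    (by rw [hh, norm_eq_one_of_pow_eq_one hn0 hω]) i)).trans ?_
  calc ‖π‖ ^ i ≤ ‖π‖ ^ 1 := pow_le_pow_of_le_one hT.unif.norm_pos.le hT.unif.norm_lt_one.le
        (Nat.one_le_iff_ne_zero.mpr (Finset.ne_of_mem_erase hi))
    _ = ‖π‖ := pow_one _

/-- A finite field inside a totally ramified field is totally ramified over the same base. -/
theorem TotRam.subfield {K : IntermediateField ℚ_[p] (PadicAlgCl p)} [FiniteDimensional ℚ_[p] K]
    {L : IntermediateField K (PadicAlgCl p)} {πL : PadicAlgCl p} {eL : ℕ} (hT : TotRam K L πL eL)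
    (F : IntermediateField ℚ_[p] (PadicAlgCl p)) [FiniteDimensional ℚ_[p] F]
    (hFL : ∀ x ∈ F, x ∈ L) {π : PadicAlgCl p} {e : ℕ} (hu : Uniformizer π e) (hπ : π ∈ F)
    (hval : ∀ x ∈ F, x ≠ 0 → ∃ k : ℤ, ‖x‖ = ‖π‖ ^ k) :
    (∀ x ∈ F, x ∈ K⟮π⟯) ∧ (minpoly K π).natDegree ≤ e := by
  obtain ⟨n, hn, hres⟩ := exists_residue_roots F
  have hres' : ∀ x ∈ F, ‖x‖ = 1 → ∃ c : Ω, c ∈ K ∧ c ∈ F ∧ ‖x - c‖ < 1 := fun x hx hx1 => by
    obtain ⟨ω, hω, hωF, hlt⟩ := hres x hx hx1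
    exact ⟨ω, hT.root_mem hn hω (hFL ω hωF), hωF, hlt⟩
  refine ⟨fun x hx => ?_, natDegree_minpoly_le_of_residues K F hu hπ hval hres'⟩
  obtain ⟨h, -, hh⟩ := exists_poly_of_residues K F hu hπ hval hres' hx
  rw [← hh]
  exact (IntermediateField.algebra_adjoin_le_adjoin K _) (aeval_mem_adjoin_singleton K π)

/-- A Kummer extension of degree `p` with a uniformizer `y` satisfies the bound on the different. -/
theorem different_kummer {K : IntermediateField ℚ_[p] (PadicAlgCl p)}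
    {L : IntermediateField K (PadicAlgCl p)} {πL : PadicAlgCl p} {eL : ℕ} (hT : TotRam K L πL eL)
    (hlt : p ∣ eL → ‖(p : PadicAlgCl p)‖ ^ p <
      ‖aeval πL (derivative (minpoly K πL))‖ ^ (p - 1))
    {π α y : PadicAlgCl p} {e : ℕ}
    (hdeg : (minpoly K π).natDegree ≤ e) (hαp : α ^ p ∈ K⟮π⟯)
    (hyM : y ∈ K⟮π, α⟯) (hyL : y ∈ L) (hy : Uniformizer y (p * e)) {B : ℝ}
    (hB : ∀ τ : Ω ≃ₐ[K] Ω, τ π = π → ∀ ζ : Ω, ζ ^ p = 1 → τ α = ζ * α →
      ‖τ y - y‖ ^ (p - 1) ≤ B) :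
    ‖(p : PadicAlgCl p)‖ ^ p < B ^ (p - 1) * ‖y‖ ^ ((p * e - p) * (p - 1)) := by
  set M₁ := K⟮π⟯ with hM₁
  have : FiniteDimensional K M₁ := IntermediateField.adjoin.finiteDimensional (isIntegral_alg π)
  set q : M₁[X] := X ^ p - Polynomial.C ⟨α ^ p, hαp⟩ with hq
  have hα0 : aeval α q = 0 := by simp [hq]
  have hαi : IsIntegral M₁ α := (isIntegral_alg (K := K) α).tower_top
  have hdα : (minpoly M₁ α).natDegree ≤ p := by
    refine (natDegree_le_of_dvd (minpoly.dvd M₁ α hα0) (X_pow_sub_C_ne_zero hp.out.pos _)).trans ?_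
    rw [hq, natDegree_X_pow_sub_C]
  have : FiniteDimensional M₁ M₁⟮α⟯ := IntermediateField.adjoin.finiteDimensional hαi
  have heq : (M₁⟮α⟯).restrictScalars K = K⟮π, α⟯ :=
    IntermediateField.adjoin_simple_adjoin_simple K π α
  have hfin : finrank K K⟮π, α⟯ ≤ p * e := by
    rw [← heq]
    show finrank K M₁⟮α⟯ ≤ p * e
    have : Module.Free M₁ M₁⟮α⟯ := Module.Free.of_divisionRing _ _
    rw [← Module.finrank_mul_finrank K M₁ M₁⟮α⟯, IntermediateField.adjoin.finrank hαi,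
      IntermediateField.adjoin.finrank (isIntegral_alg π), mul_comm p e]
    exact Nat.mul_le_mul hdeg hdα
  have : FiniteDimensional K K⟮π, α⟯ :=
    IntermediateField.finiteDimensional_adjoin fun x _ => isIntegral_alg x
  have hyd : (minpoly K y).natDegree = p * e :=
    le_antisymm ((natDegree_minpoly_le_finrank hyM).trans hfin) (hy.le_natDegree_minpoly hT.unram)
  have hKy : K⟮y⟯ = K⟮π, α⟯ := IntermediateField.eq_of_le_of_finrank_le
    (IntermediateField.adjoin_simple_le_iff.mpr hyM) (by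
      rw [IntermediateField.adjoin.finrank (isIntegral_alg y), hyd]
      exact hfin)
  obtain ⟨h, -, hh⟩ := exists_poly_of_mem_adjoin (K := K) (w := y) (z := π)
    (by rw [hKy]; exact IntermediateField.subset_adjoin K _ (Set.mem_insert π _))
  set T := rootsIn (minpoly K y) with hTdef
  have hmaps : ∀ z ∈ T, aeval z h ∈ rootsIn (minpoly K π) := fun z hz => by
    obtain ⟨σ, rfl⟩ := exists_algEquiv_of_mem_rootsIn hz
    rw [aeval_algHom_apply, hh]
    exact algEquiv_mem_rootsIn σ (self_mem_rootsIn π)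
  obtain ⟨w, hw, hwc⟩ : ∃ w ∈ rootsIn (minpoly K π),
      p ≤ (T.filter fun z => aeval z h = w).card := by
    by_contra hall
    push Not at hall
    have hlt := Finset.sum_lt_sum_of_nonempty ⟨π, self_mem_rootsIn π⟩ hall
    rw [← Finset.card_eq_sum_card_fiberwise hmaps, Finset.sum_const, smul_eq_mul, hTdef,
      card_rootsIn_minpoly, card_rootsIn_minpoly, hyd] at hlt
    exact absurd ((Nat.mul_le_mul_right p hdeg).trans (mul_comm e p).le) (not_le.mpr hlt)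
  obtain ⟨σ, hσ⟩ := exists_algEquiv_of_mem_rootsIn hw
  have hp1 : p - 1 ≤ ((T.filter fun z => aeval z h = π).erase y).card := by
    rw [Finset.card_erase_of_mem (Finset.mem_filter.mpr ⟨self_mem_rootsIn y, hh⟩)]
    refine Nat.sub_le_sub_right (hwc.trans (Finset.card_le_card_of_injOn σ.symm ?_
      fun a _ b _ hab => σ.symm.injective hab)) 1
    intro z hz
    rw [Finset.mem_coe, Finset.mem_filter] at hz ⊢
    exact ⟨algEquiv_mem_rootsIn σ.symm hz.1, by
      rw [aeval_algHom_apply, hz.2, ← hσ, σ.symm_apply_apply]⟩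
  obtain ⟨Y, hYsub, hYc⟩ := Finset.exists_subset_card_eq hp1
  have hYB : ∀ z ∈ Y, ‖y - z‖ ^ (p - 1) ≤ B := fun z hz => by
    obtain ⟨hzT, hzh⟩ := Finset.mem_filter.mp (Finset.mem_of_mem_erase (hYsub hz))
    obtain ⟨τ, hτ⟩ := exists_algEquiv_of_mem_rootsIn hzT
    have hτπ : τ π = π := by rw [← hh, ← aeval_algHom_apply, hτ, hzh, hh]
    have hfix : ∀ m ∈ M₁, τ m = m := fun m hm => by
      obtain ⟨g, -, rfl⟩ := exists_poly_of_mem_adjoin hm
      rw [← aeval_algHom_apply, hτπ]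
    rw [norm_sub_rev, ← hτ]
    rcases eq_or_ne α 0 with rfl | hαne
    · exact hB τ hτπ 1 (one_pow p) (by rw [map_zero, mul_zero])
    · refine hB τ hτπ (τ α / α) ?_ (div_mul_cancel₀ _ hαne).symm
      rw [div_pow, ← map_pow, hfix _ hαp, div_self (pow_ne_zero p hαne)]
  have hroot : ∀ z ∈ T, ‖z‖ = ‖y‖ := fun z hz => by
    obtain ⟨τ, rfl⟩ := exists_algEquiv_of_mem_rootsIn hz
    exact norm_algEquiv_apply τ y
  have hYT : Y ⊆ T.erase y := hYsub.trans
    (Finset.erase_subset_erase _ (Finset.filter_subset _ _))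
  have hle : ‖aeval y (derivative (minpoly K y))‖ ^ (p - 1)
      ≤ B ^ (p - 1) * ‖y‖ ^ ((p * e - p) * (p - 1)) := by
    have hrest : ((T.erase y) \ Y).card = p * e - p := by
      rw [Finset.card_sdiff_of_subset hYT, hYc, Finset.card_erase_of_mem (self_mem_rootsIn y),
        card_rootsIn_minpoly, hyd]
      have := hp.out.one_le
      omega
    rw [aeval_derivative_minpoly, norm_prod, ← hTdef, ← Finset.prod_pow,
      ← Finset.prod_sdiff hYT, mul_comm (B ^ (p - 1))]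
    refine mul_le_mul ?_ ?_ (Finset.prod_nonneg fun _ _ => by positivity) (by positivity)
    · calc ∏ z ∈ (T.erase y) \ Y, ‖y - z‖ ^ (p - 1)
          ≤ ∏ _z ∈ (T.erase y) \ Y, ‖y‖ ^ (p - 1) := by
            refine Finset.prod_le_prod (fun _ _ => by positivity) fun z hz => ?_
            refine pow_le_pow_left₀ (norm_nonneg _) ((norm_sub_le_max' _ _).trans
              (max_le le_rfl (hroot z (Finset.mem_of_mem_erase (Finset.mem_sdiff.mp hz).1)).le)) _
        _ = _ := by rw [Finset.prod_const, hrest, ← pow_mul, mul_comm]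
    · calc ∏ z ∈ Y, ‖y - z‖ ^ (p - 1) ≤ ∏ _z ∈ Y, B :=
            Finset.prod_le_prod (fun _ _ => by positivity) hYB
        _ = B ^ (p - 1) := by rw [Finset.prod_const, hYc]
  have hpeL : p ∣ eL := (dvd_mul_right p e).trans (hT.dvd_of_uniformizer hyL hy)
  exact ((hlt hpeL).trans_le (pow_le_pow_left₀ (norm_nonneg _)
    (hT.norm_derivative_le hyL hy hyd) _)).trans_le hle

variable {G ι : Type} [AddCommGroup G] [Fintype ι] [Finite G] {C : Coords (PadicAlgCl p) G ι}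
  (hC : LocalPoints C) (F : IntermediateField ℚ_[p] (PadicAlgCl p)) [FiniteDimensional ℚ_[p] F]
  {π α : PadicAlgCl p} {e : ℕ} (hπF : π ∈ F) (hπ : ‖π‖ ^ e = ‖(p : PadicAlgCl p)‖)
  (hval : ∀ x ∈ F, x ≠ 0 → ∃ k : ℤ, ‖x‖ = ‖π‖ ^ k) (hαF : α ^ p ∈ F)
  (hfix : ∀ σ : PadicAlgCl p ≃ₐ[ℚ_[p]] PadicAlgCl p, FixesUnram σ →
    (∀ j x, σ (C.φ j x) = C.φ j x) → (∀ z ∈ F, σ z = z) ∧ σ α = α)

include hπ in
theorem uniformizer_of_norm_pow : Uniformizer π e := by
  refine ⟨Nat.pos_of_ne_zero fun h => ?_, hπ⟩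
  rw [h, pow_zero] at hπ
  exact (norm_p_lt_one (p := p)).ne hπ.symm

include hC hπF hπ hval hαF hfix in
/-- The field of points over which both `F` and `α` are totally ramified. -/
theorem exists_kummer_setting :
    ∃ (K : IntermediateField ℚ_[p] (PadicAlgCl p)) (L : IntermediateField K (PadicAlgCl p))
      (πL : PadicAlgCl p) (eL : ℕ), TotRam K L πL eL ∧
      (p ∣ eL → ‖(p : PadicAlgCl p)‖ ^ p <
        ‖aeval πL (derivative (minpoly K πL))‖ ^ (p - 1)) ∧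
      π ∈ L ∧ α ∈ L ∧ (minpoly K π).natDegree ≤ e ∧ α ^ p ∈ K⟮π⟯ := by
  obtain ⟨s, hs⟩ : ∃ s : Finset Ω, IntermediateField.adjoin ℚ_[p] (s : Set Ω) = F := by
    set b := Module.finBasis ℚ_[p] F
    refine ⟨Finset.univ.image fun i => ((b i : F) : Ω), le_antisymm
      (IntermediateField.adjoin_le_iff.mpr fun x hx => ?_) fun x hx => ?_⟩
    · obtain ⟨i, -, rfl⟩ := Finset.mem_image.mp hx
      exact (b i).2
    · have h1 := congrArg Subtype.val (b.sum_repr ⟨x, hx⟩)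
      rw [AddSubmonoidClass.coe_finsetSum] at h1
      rw [← show _ = x from h1]
      refine sum_mem fun i _ => ?_
      rw [SetLike.val_smul]
      exact IntermediateField.smul_mem _ (IntermediateField.subset_adjoin ℚ_[p] _
        (Finset.mem_image_of_mem _ (Finset.mem_univ i)))
  obtain ⟨n, L, πL, eL, hn, hT, hgen, hSL⟩ := exists_pointField C hC (insert α s)
    fun x hx σ h1 h2 => by
    rcases Finset.mem_insert.mp hx with rfl | hxs
    · exact (hfix σ h1 h2).2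
    · exact (hfix σ h1 h2).1 x (hs ▸ IntermediateField.subset_adjoin ℚ_[p] _ hxs)
  have := finiteDimensional_cyclo (p := p) (show n ≠ 0 from fun h => hn (h ▸ dvd_zero p))
  have hFle : F ≤ L.restrictScalars ℚ_[p] := by
    rw [← hs]
    refine IntermediateField.adjoin_le_iff.mpr fun x hx => ?_
    rw [SetLike.mem_coe, IntermediateField.mem_restrictScalars]
    exact hSL x (Finset.mem_insert_of_mem hx)
  have hFL : ∀ x ∈ F, x ∈ L := fun x hx => (IntermediateField.mem_restrictScalars _).mp (hFle hx)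
  obtain ⟨hFK, hdeg⟩ := hT.subfield F hFL (uniformizer_of_norm_pow hπ) hπF hval
  exact ⟨cyclo p n, L, πL, eL, hT, different_lt hT hgen, hFL π hπF,
    hSL α (Finset.mem_insert_self α s), hdeg, hFK _ hαF⟩

theorem norm_p_eq_of_uniformizer {y : PadicAlgCl p} {n : ℕ} (hy : ‖y‖ ^ n = ‖(p : PadicAlgCl p)‖)
    (m : ℕ) : ‖(p : PadicAlgCl p)‖ ^ m = ‖y‖ ^ ((n * m : ℕ) : ℤ) := by
  rw [zpow_natCast, pow_mul, hy]

theorem exists_bezout {p : ℕ} [hp : Fact p.Prime] {k : ℤ} (hk : ¬ (p : ℤ) ∣ k) :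
    ∃ (A : ℕ) (B : ℤ), 0 < A ∧ (A : ℤ) * k + B * p = 1 := by
  obtain ⟨a, b, hab⟩ := ((Nat.prime_iff_prime_int.mp hp.out).coprime_iff_not_dvd.mpr hk).symm
  have hpz : (0 : ℤ) < p := by exact_mod_cast hp.out.pos
  have hpos : 0 < a % (p : ℤ) := by
    refine lt_of_le_of_ne (Int.emod_nonneg _ hpz.ne') fun h => ?_
    have hd : (p : ℤ) ∣ a := Int.dvd_of_emod_eq_zero h.symm
    have h1 : (p : ℤ) ∣ 1 := hab ▸ dvd_add (hd.mul_right k) (dvd_mul_left (p : ℤ) b)
    have := Int.le_of_dvd one_pos h1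
    have := hp.out.two_le
    omega
  refine ⟨(a % (p : ℤ)).toNat, b + a / (p : ℤ) * k, by omega, ?_⟩
  rw [Int.toNat_of_nonneg hpos.le]
  calc a % (p : ℤ) * k + (b + a / (p : ℤ) * k) * p
      = (a % (p : ℤ) + (p : ℤ) * (a / (p : ℤ))) * k + b * p := by ring
    _ = 1 := by rw [Int.emod_add_mul_ediv, hab]

include hC hπF hπ hval hαF hfix in
/-- The level of `α ^ p` is large. -/
theorem kummer_level_coords {i : ℕ} (hi : ‖α ^ p - 1‖ = ‖π‖ ^ i) (hpi : ¬ p ∣ i)
    (hlt : (p - 1) * i < p * e) : p * ((p - 1) * (e - 1)) < p * e + (p - 1) ^ 2 * (i - 1) := by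
  obtain ⟨K, L, πL, eL, hT, hdl, hπL, hαL, hdeg, hαK⟩ :=
    exists_kummer_setting hC F hπF hπ hval hαF hfix
  have hu := uniformizer_of_norm_pow hπ
  have hi0 : 0 < i := Nat.pos_of_ne_zero fun h => hpi (h ▸ dvd_zero p)
  have hρ0 := hu.norm_pos
  have hρ1 := hu.norm_lt_one
  have hap : ‖α ^ p‖ = 1 := by
    rw [show α ^ p = 1 + (α ^ p - 1) by ring, IsUltrametricDist.norm_add_eq_max_of_norm_ne_norm
      (by rw [norm_one, hi]; exact (pow_lt_one₀ hρ0.le hρ1 hi0.ne').ne'), norm_one, hi,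
      max_eq_left (pow_le_one₀ hρ0.le hρ1.le)]
  have hα1 : ‖α‖ = 1 :=
    (pow_eq_one_iff_of_nonneg (norm_nonneg _) hp.out.ne_zero).mp (by rw [← norm_pow, hap])
  set β := α - 1 with hβ
  have hb1 : ‖β‖ ≤ 1 := (norm_sub_le_max' _ _).trans (max_le hα1.le norm_one.le)
  have hsum : α ^ p - 1 = β ^ p + ∑ k ∈ Finset.range (p - 1),
      β ^ (k + 1) * (p.choose (k + 1) : Ω) := by
    have hps : p + 1 = p - 1 + 1 + 1 := by have := hp.out.one_le; omega
    rw [show α = β + 1 by rw [hβ]; ring, add_pow, hps, Finset.sum_range_succ,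
      Finset.sum_range_succ']
    simp only [one_pow, mul_one, pow_zero, Nat.choose_zero_right, Nat.cast_one,
      Nat.sub_add_cancel hp.out.one_le, Nat.choose_self]
    ring
  have hmid : ‖∑ k ∈ Finset.range (p - 1), β ^ (k + 1) * (p.choose (k + 1) : Ω)‖
      ≤ ‖(p : Ω)‖ * ‖β‖ := by
    refine IsUltrametricDist.norm_sum_le_of_forall_le_of_nonneg (by positivity) fun k hk => ?_
    rw [Finset.mem_range] at hk
    obtain ⟨d, hd⟩ := hp.out.dvd_choose_self (show k + 1 ≠ 0 by omega) (show k + 1 < p by omega)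
    rw [hd, Nat.cast_mul, norm_mul, norm_mul, norm_pow, mul_comm]
    refine mul_le_mul (mul_le_of_le_one_right (norm_nonneg _) (norm_natCast_le_one' d)) ?_
      (by positivity) (norm_nonneg _)
    calc ‖β‖ ^ (k + 1) ≤ ‖β‖ ^ 1 := pow_le_pow_of_le_one (norm_nonneg _) hb1 (by omega)
      _ = ‖β‖ := pow_one _
  have hp1 : p - 1 + 1 = p := Nat.sub_add_cancel hp.out.one_le
  have hbig : ‖(p : Ω)‖ < ‖β‖ ^ (p - 1) := by
    by_contra hle
    rw [not_lt] at hle
    have hc : ‖α ^ p - 1‖ ≤ ‖(p : Ω)‖ * ‖β‖ := by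
      rw [hsum]
      refine (IsUltrametricDist.norm_add_le_max _ _).trans (max_le ?_ hmid)
      calc ‖β ^ p‖ = ‖β‖ ^ (p - 1) * ‖β‖ := by rw [norm_pow, ← pow_succ, hp1]
        _ ≤ ‖(p : Ω)‖ * ‖β‖ := mul_le_mul_of_nonneg_right hle (norm_nonneg _)
    have h2 : ‖α ^ p - 1‖ ^ (p - 1) ≤ ‖(p : Ω)‖ ^ p := by
      refine (pow_le_pow_left₀ (norm_nonneg _) hc _).trans ?_
      rw [mul_pow]
      calc ‖(p : Ω)‖ ^ (p - 1) * ‖β‖ ^ (p - 1) ≤ ‖(p : Ω)‖ ^ (p - 1) * ‖(p : Ω)‖ :=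
            mul_le_mul_of_nonneg_left hle (by positivity)
        _ = ‖(p : Ω)‖ ^ p := by rw [← pow_succ, hp1]
    rw [hi, ← hπ, ← pow_mul, ← pow_mul] at h2
    exact absurd h2 (not_le.mpr (pow_lt_pow_right_of_lt_one₀ hρ0 hρ1
      (by rw [mul_comm i, mul_comm e]; exact hlt)))
  have hb0 : 0 < ‖β‖ := by
    rcases (norm_nonneg β).lt_or_eq with h | h
    · exact h
    · exfalso
      rw [← h, zero_pow (by have := hp.out.two_le; omega)] at hbig
      exact (norm_p_pos (p := p)).not_gt hbig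
  have hbp : ‖β‖ ^ p = ‖π‖ ^ i := by
    have hd : ‖∑ k ∈ Finset.range (p - 1), β ^ (k + 1) * (p.choose (k + 1) : Ω)‖ < ‖β ^ p‖ := by
      refine hmid.trans_lt ?_
      calc ‖(p : Ω)‖ * ‖β‖ < ‖β‖ ^ (p - 1) * ‖β‖ := mul_lt_mul_of_pos_right hbig hb0
        _ = ‖β ^ p‖ := by rw [norm_pow, ← pow_succ, hp1]
    rw [← hi, hsum, IsUltrametricDist.norm_add_eq_max_of_norm_ne_norm hd.ne', max_eq_left hd.le,
      norm_pow]
  obtain ⟨A, B, hA, hAB⟩ := exists_bezout (p := p) (k := (i : ℤ))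
    (by rw [Int.natCast_dvd_natCast]; exact hpi)
  set y := β ^ A * π ^ B with hy
  have hyp : ‖y‖ ^ p = ‖π‖ := by
    have h1 : ‖y‖ = ‖β‖ ^ A * ‖π‖ ^ B := by rw [hy, norm_mul, norm_pow, norm_zpow]
    rw [h1, mul_pow, ← pow_mul, mul_comm A p, pow_mul, hbp, ← pow_mul, ← zpow_natCast,
      ← zpow_natCast (‖π‖ ^ B), ← zpow_mul, ← zpow_add₀ hρ0.ne']
    rw [show (((i * A : ℕ)) : ℤ) + B * (p : ℤ) = 1 by push_cast; linarith, zpow_one]
  have hyu : Uniformizer y (p * e) :=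
    ⟨Nat.mul_pos hp.out.pos hu.pos, by rw [pow_mul, hyp, hπ]⟩
  have hπM : π ∈ K⟮π, α⟯ := IntermediateField.subset_adjoin K _ (Set.mem_insert π _)
  have hαM : α ∈ K⟮π, α⟯ :=
    IntermediateField.subset_adjoin K _ (Set.mem_insert_of_mem π (Set.mem_singleton α))
  have hyM : y ∈ K⟮π, α⟯ :=
    mul_mem (pow_mem (sub_mem hαM (one_mem _)) A) (zpow_mem hπM B)
  have hyL : y ∈ L := mul_mem (pow_mem (sub_mem hαL (one_mem _)) A) (zpow_mem hπL B)
  have hy0 := hyu.norm_pos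
  have hβy : ‖β‖ = ‖y‖ ^ (i : ℤ) := by
    refine (pow_left_inj₀ (norm_nonneg _) (by positivity) hp.out.ne_zero).mp ?_
    rw [hbp, zpow_natCast, ← pow_mul, mul_comm i p, pow_mul, hyp]
  have hπy : ‖π‖ = ‖y‖ ^ (p : ℤ) := by rw [zpow_natCast, hyp]
  have hN : ∀ τ : Ω ≃ₐ[K] Ω, τ π = π → ∀ ζ : Ω, ζ ^ p = 1 → τ α = ζ * α →
      ‖τ y - y‖ ^ (p - 1) ≤ ‖y‖ ^ ((p * e : ℕ) + ((p - 1 : ℕ) : ℤ) * (1 - (i : ℤ))) := by
    intro τ hτ ζ hζ hτα
    have hfac : τ y - y = (τ β - β) *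
        (∑ j ∈ Finset.range A, τ β ^ j * β ^ (A - 1 - j)) * π ^ B := by
      rw [hy, map_mul, map_pow, map_zpow₀, hτ, mul_comm (τ β - β), geom_sum₂_mul, sub_mul]
    have hτβ : ‖τ β - β‖ ^ (p - 1) ≤ ‖(p : Ω)‖ := by
      rw [hβ, map_sub, map_one, hτα, show ζ * α - 1 - (α - 1) = (ζ - 1) * α by ring, norm_mul,
        hα1, mul_one]
      rcases eq_or_ne ζ 1 with rfl | hne
      · rw [sub_self, norm_zero, zero_pow (by have := hp.out.two_le; omega)]
        exact norm_p_pos.le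
      · exact (norm_root_sub_one_pow hζ hne).le
    have hS : ‖∑ j ∈ Finset.range A, τ β ^ j * β ^ (A - 1 - j)‖ ≤ ‖β‖ ^ (A - 1) := by
      refine IsUltrametricDist.norm_sum_le_of_forall_le_of_nonneg (by positivity) fun j hj => ?_
      rw [norm_mul, norm_pow, norm_pow, norm_algEquiv_apply, ← pow_add]
      exact le_of_eq (congrArg _ (by rw [Finset.mem_range] at hj; omega))
    rw [hfac, norm_mul, norm_mul, mul_pow, mul_pow]
    refine (mul_le_mul_of_nonneg_right (mul_le_mul hτβ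
      (pow_le_pow_left₀ (norm_nonneg _) hS _) (by positivity) (norm_nonneg _))
      (by positivity)).trans (le_of_eq ?_)
    rw [← hyu.norm_pow, norm_zpow, hβy, hπy, ← zpow_natCast ‖y‖ (p * e), ← zpow_natCast,
      ← zpow_natCast, ← zpow_natCast, ← zpow_mul, ← zpow_mul, ← zpow_mul, ← zpow_mul,
      ← zpow_add₀ hy0.ne', ← zpow_add₀ hy0.ne']
    congr 1
    have hA1 : ((A - 1 : ℕ) : ℤ) = (A : ℤ) - 1 := by omega
    rw [hA1]
    linear_combination ((p - 1 : ℕ) : ℤ) * hAB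
  have hmain := different_kummer hT hdl hdeg hαK hyM hyL hyu hN
  rw [norm_p_eq_of_uniformizer hyu.norm_pow, ← zpow_natCast, ← zpow_natCast, ← zpow_mul,
    ← zpow_add₀ hy0.ne', zpow_lt_zpow_iff_right_of_lt_one₀ hy0 hyu.norm_lt_one] at hmain
  obtain ⟨e', rfl⟩ : ∃ e', e = e' + 1 := ⟨e - 1, by have := hu.pos; omega⟩
  obtain ⟨i', rfl⟩ : ∃ i', i = i' + 1 := ⟨i - 1, by omega⟩
  obtain ⟨p', hp'⟩ : ∃ p', p = p' + 1 := ⟨p - 1, hp1.symm⟩
  have hsub : p * (e' + 1) - p = p * e' := by rw [Nat.mul_succ, Nat.add_sub_cancel]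
  rw [hsub] at hmain
  simp only [show p - 1 = p' by omega, Nat.add_sub_cancel] at hmain ⊢
  subst hp'
  zify
  push_cast at hmain
  linarith

include hC hπF hπ hval hαF hfix in
/-- The valuation of `α ^ p` is divisible by `p` unless the ramification is small. -/
theorem kummer_valuation_coords {k : ℤ} (hk : ‖α ^ p‖ = ‖π‖ ^ k) (hpk : ¬ (p : ℤ) ∣ k) :
    p * ((p - 1) * (e - 1)) + (p - 1) ^ 2 < p * e := by
  obtain ⟨K, L, πL, eL, hT, hdl, hπL, hαL, hdeg, hαK⟩ :=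
    exists_kummer_setting hC F hπF hπ hval hαF hfix
  have hu := uniformizer_of_norm_pow hπ
  have hρ0 := hu.norm_pos
  obtain ⟨A, B, -, hAB⟩ := exists_bezout (p := p) hpk
  set y := α ^ A * π ^ B with hy
  have hyp : ‖y‖ ^ p = ‖π‖ := by
    have h1 : ‖y‖ = ‖α‖ ^ A * ‖π‖ ^ B := by rw [hy, norm_mul, norm_pow, norm_zpow]
    rw [h1, mul_pow, ← pow_mul, mul_comm A p, pow_mul, ← norm_pow, hk, ← zpow_natCast,
      ← zpow_natCast (‖π‖ ^ B), ← zpow_mul, ← zpow_mul, ← zpow_add₀ hρ0.ne',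
      show k * (A : ℤ) + B * (p : ℤ) = 1 by linarith, zpow_one]
  have hyu : Uniformizer y (p * e) :=
    ⟨Nat.mul_pos hp.out.pos hu.pos, by rw [pow_mul, hyp, hπ]⟩
  have hπM : π ∈ K⟮π, α⟯ := IntermediateField.subset_adjoin K _ (Set.mem_insert π _)
  have hαM : α ∈ K⟮π, α⟯ :=
    IntermediateField.subset_adjoin K _ (Set.mem_insert_of_mem π (Set.mem_singleton α))
  have hyM : y ∈ K⟮π, α⟯ := mul_mem (pow_mem hαM A) (zpow_mem hπM B)
  have hyL : y ∈ L := mul_mem (pow_mem hαL A) (zpow_mem hπL B)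
  have hy0 := hyu.norm_pos
  have hN : ∀ τ : Ω ≃ₐ[K] Ω, τ π = π → ∀ ζ : Ω, ζ ^ p = 1 → τ α = ζ * α →
      ‖τ y - y‖ ^ (p - 1) ≤ ‖y‖ ^ ((p * e : ℕ) + ((p - 1 : ℕ) : ℤ)) := by
    intro τ hτ ζ hζ hτα
    have hfac : τ y - y = (ζ ^ A - 1) * y := by
      rw [hy, map_mul, map_pow, map_zpow₀, hτ, hτα, mul_pow]
      ring
    rw [hfac, norm_mul, mul_pow, zpow_add₀ hy0.ne', zpow_natCast, zpow_natCast, hyu.norm_pow]
    refine mul_le_mul_of_nonneg_right ?_ (by positivity)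
    have hA' : (ζ ^ A) ^ p = 1 := by rw [← pow_mul, mul_comm, pow_mul, hζ, one_pow]
    rcases eq_or_ne (ζ ^ A) 1 with h1 | h1
    · rw [h1, sub_self, norm_zero, zero_pow (by have := hp.out.two_le; omega)]
      exact norm_p_pos.le
    · exact (norm_root_sub_one_pow hA' h1).le
  have hmain := different_kummer hT hdl hdeg hαK hyM hyL hyu hN
  rw [norm_p_eq_of_uniformizer hyu.norm_pow, ← zpow_natCast, ← zpow_natCast, ← zpow_mul,
    ← zpow_add₀ hy0.ne', zpow_lt_zpow_iff_right_of_lt_one₀ hy0 hyu.norm_lt_one] at hmain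
  obtain ⟨e', rfl⟩ : ∃ e', e = e' + 1 := ⟨e - 1, by have := hu.pos; omega⟩
  obtain ⟨p', hp'⟩ : ∃ p', p = p' + 1 := ⟨p - 1, by have := hp.out.one_le; omega⟩
  have hsub : p * (e' + 1) - p = p * e' := by rw [Nat.mul_succ, Nat.add_sub_cancel]
  rw [hsub] at hmain
  simp only [show p - 1 = p' by omega, Nat.add_sub_cancel] at hmain ⊢
  subst hp'
  zify
  push_cast at hmain
  linarith

end Fermat.Agent.FlatBound
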