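import Fermat.Agent.FlatBound.Coords

/-!
# Approximate points of a finite flat group killed by `p` lift to points

If coordinates `θ` satisfy the equations up to `r` with `r ^ (p - 1) < |p| ^ p` then a point lies
within `r / |p|` of `θ`.  The proof takes a `p`-th root in the dual algebra by Newton's method.
-/

set_option autoImplicit false

noncomputable section

open Finset Module

namespace Fermat.Agent.FlatBound

variable {Ω : Type} [NormedField Ω] [IsUltrametricDist Ω] {p : ℕ} [hp : Fact p.Prime]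

theorem norm_p_lt_one_of_small {s : ℝ} (hs : 0 ≤ s) (hsmall : s ^ (p - 1) < ‖(p : Ω)‖ ^ p) :
    0 < ‖(p : Ω)‖ ∧ s < ‖(p : Ω)‖ ∧ (s / ‖(p : Ω)‖) ^ (p - 1) < ‖(p : Ω)‖ := by
  have hp0 : 0 < ‖(p : Ω)‖ := by
    rcases (norm_nonneg (p : Ω)).lt_or_eq with h | h
    · exact h
    · exfalso
      rw [← h, zero_pow hp.out.ne_zero] at hsmall
      linarith [pow_nonneg hs (p - 1)]
  have hle : ‖(p : Ω)‖ ≤ 1 := norm_natCast_le_one' p
  have hps : p = p - 1 + 1 := by have := hp.out.one_le; omega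
  refine ⟨hp0, ?_, ?_⟩
  · by_contra h
    rw [not_lt] at h
    have := pow_le_pow_left₀ hp0.le h (p - 1)
    have h2 : ‖(p : Ω)‖ ^ p ≤ ‖(p : Ω)‖ ^ (p - 1) :=
      pow_le_pow_of_le_one hp0.le hle (Nat.sub_le p 1)
    linarith
  · rw [div_pow, div_lt_iff₀ (pow_pos hp0 _), ← pow_succ', ← hps]
    exact hsmall

namespace Coords

variable {G ι : Type} [AddCommGroup G] [Fintype ι] (C : Coords Ω G ι) [Finite G]

/-- The contraction ratio of Newton's method. -/
def ratio (p : ℕ) (s : ℝ) : ℝ := max (s / ‖(p : Ω)‖) (s ^ (p - 1) / ‖(p : Ω)‖ ^ p)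

omit [IsUltrametricDist Ω] [Finite G] hp in
theorem ratio_mono {s r : ℝ} (hs : 0 ≤ s) (hsr : s ≤ r) :
    ratio (Ω := Ω) p s ≤ ratio (Ω := Ω) p r :=
  max_le_max (div_le_div_of_nonneg_right hsr (norm_nonneg _))
    (div_le_div_of_nonneg_right (pow_le_pow_left₀ hs hsr _) (by positivity))

omit [Finite G] in
/-- One step of Newton's method. -/
theorem newton_step {F : AddChar G Ω → Ω} {s : ℝ} (hs : 0 ≤ s)
    (hsmall : s ^ (p - 1) < ‖(p : Ω)‖ ^ p) (hF : C.Bd 1 F) (hw : C.Bd s (F ^ p - 1)) :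
    ∃ F' : AddChar G Ω → Ω, C.Bd 1 F' ∧ C.Bd (ratio (Ω := Ω) p s * s) (F' ^ p - 1) ∧
      C.Bd (s / ‖(p : Ω)‖) (F' - F) := by
  obtain ⟨hp0, hsp, -⟩ := norm_p_lt_one_of_small (p := p) hs hsmall
  have hpne : (p : Ω) ≠ 0 := norm_pos_iff.mp hp0
  set q := ratio (Ω := Ω) p s with hq
  set w := F ^ p - 1 with hwdef
  set c := s / ‖(p : Ω)‖ with hc
  have hc0 : 0 ≤ c := div_nonneg hs hp0.le
  have hc1 : c ≤ 1 := (div_le_one hp0).mpr hsp.le
  have hcs : s = ‖(p : Ω)‖ * c := by rw [hc]; field_simp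
  have hcq : c ≤ q := le_max_left _ _
  have hq0 : 0 ≤ q := hc0.trans hcq
  set t := (p : Ω)⁻¹ • w with ht
  have htw : (p : Ω) • t = w := by rw [ht, smul_smul, mul_inv_cancel₀ hpne, one_smul]
  have hbt : C.Bd c t := by
    have h := C.bd_smul (p : Ω)⁻¹ hw
    rwa [norm_inv, inv_mul_eq_div] at h
  have hbone : C.Bd 1 (1 - t) := C.bd_sub C.bd_one (C.bd_mono hbt hc1)
  refine ⟨F * (1 - t), by simpa using C.bd_mul zero_le_one zero_le_one hF hbone, ?_, ?_⟩
  swap
  · rw [show F * (1 - t) - F = (-1 : Ω) • (F * t) by rw [neg_one_smul]; ring]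
    have h := C.bd_smul (-1 : Ω) (C.bd_mul zero_le_one hc0 hF hbt)
    rwa [norm_neg, norm_one, one_mul, one_mul] at h
  set R := ∑ k ∈ Finset.range (p - 1), (-t) ^ (k + 2) * (p.choose (k + 2) : AddChar G Ω → Ω)
    with hR
  have hexp : (1 - t) ^ p = 1 - (p : Ω) • t + R := by
    have hps : p + 1 = p - 1 + 1 + 1 := by have := hp.out.one_le; omega
    rw [sub_eq_add_neg, add_comm, add_pow, hps, Finset.sum_range_succ', Finset.sum_range_succ']
    simp only [one_pow, mul_one, pow_zero, Nat.choose_zero_right, Nat.cast_one, zero_add, pow_one,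
      Nat.choose_one_right]
    rw [hR, show (p : Ω) • t = (p : AddChar G Ω → Ω) * t from funext fun χ => by simp]
    ring
  have hkey : (F * (1 - t)) ^ p - 1 = (1 + w) * R - w * w := by
    rw [mul_pow, hexp, htw, hwdef]
    ring
  rw [hkey]
  have hnegt : C.Bd c (-t) := by
    have h := C.bd_smul (-1 : Ω) hbt
    rwa [norm_neg, norm_one, one_mul, neg_one_smul] at h
  have hRb : C.Bd (q * s) R := by
    refine C.bd_sum _ (mul_nonneg hq0 hs) fun k hk => ?_
    rw [Finset.mem_range] at hk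
    have h1 := C.bd_smul (p.choose (k + 2) : Ω) (C.bd_pow hc0 hnegt (k + 2))
    rw [show (-t) ^ (k + 2) * (p.choose (k + 2) : AddChar G Ω → Ω)
      = (p.choose (k + 2) : Ω) • (-t) ^ (k + 2) from funext fun χ => by simp [mul_comm]]
    refine C.bd_mono h1 ?_
    rcases eq_or_ne (k + 2) p with hkp | hkp
    · rw [hkp, Nat.choose_self, Nat.cast_one, norm_one, one_mul]
      have h2 : c ^ p = s ^ (p - 1) / ‖(p : Ω)‖ ^ p * s := by
        rw [hc, div_pow, div_mul_eq_mul_div, ← pow_succ, Nat.sub_add_cancel hp.out.one_le]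
      rw [h2]
      exact mul_le_mul_of_nonneg_right (le_max_right _ _) hs
    · obtain ⟨d, hd⟩ := hp.out.dvd_choose_self (show k + 2 ≠ 0 by omega) (show k + 2 < p by omega)
      rw [hd, Nat.cast_mul, norm_mul]
      calc ‖(p : Ω)‖ * ‖(d : Ω)‖ * c ^ (k + 2) ≤ ‖(p : Ω)‖ * 1 * c ^ 2 :=
            mul_le_mul (mul_le_mul_of_nonneg_left (norm_natCast_le_one' d) hp0.le)
              (pow_le_pow_of_le_one hc0 hc1 (by omega)) (pow_nonneg hc0 _) (by positivity)
        _ = c * s := by rw [hcs]; ring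
        _ ≤ q * s := mul_le_mul_of_nonneg_right hcq hs
  have hb1w : C.Bd 1 (1 + w) :=
    C.bd_add C.bd_one (C.bd_mono hw (hsp.le.trans (norm_natCast_le_one' p)))
  refine C.bd_sub (by simpa using C.bd_mul zero_le_one (mul_nonneg hq0 hs) hb1w hRb) ?_
  refine C.bd_mono (C.bd_mul hs hs hw hw) (mul_le_mul_of_nonneg_right ?_ hs)
  refine le_trans ?_ hcq
  rw [hc, le_div_iff₀ hp0]
  exact mul_le_of_le_one_right hs (norm_natCast_le_one' p)

omit [Finite G] in
/-- Newton's method converges. -/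
theorem newton_seq {U : AddChar G Ω → Ω} {r : ℝ} (hr : 0 ≤ r)
    (hsmall : r ^ (p - 1) < ‖(p : Ω)‖ ^ p) (hU : C.Bd 1 U) (hw : C.Bd r (U ^ p - 1)) (n : ℕ) :
    ∃ F : AddChar G Ω → Ω, C.Bd 1 F ∧ C.Bd (ratio (Ω := Ω) p r ^ n * r) (F ^ p - 1) ∧
      C.Bd (r / ‖(p : Ω)‖) (F - U) := by
  obtain ⟨hp0, hrp, -⟩ := norm_p_lt_one_of_small (p := p) hr hsmall
  have hq1 : ratio (Ω := Ω) p r ≤ 1 :=
    max_le ((div_le_one hp0).mpr hrp.le) ((div_le_one (pow_pos hp0 _)).mpr hsmall.le)
  have hq0 : 0 ≤ ratio (Ω := Ω) p r := le_trans (div_nonneg hr hp0.le) (le_max_left _ _)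
  induction n with
  | zero => exact ⟨U, hU, by simpa using hw, by simpa using C.bd_zero (div_nonneg hr hp0.le)⟩
  | succ n ih =>
    obtain ⟨F, hF, hFw, hFU⟩ := ih
    have hs0 : 0 ≤ ratio (Ω := Ω) p r ^ n * r := mul_nonneg (pow_nonneg hq0 n) hr
    have hsr : ratio (Ω := Ω) p r ^ n * r ≤ r := mul_le_of_le_one_left hr (pow_le_one₀ hq0 hq1)
    obtain ⟨F', h1, h2, h3⟩ :=
      C.newton_step hs0 ((pow_le_pow_left₀ hs0 hsr _).trans_lt hsmall) hF hFw
    refine ⟨F', h1, C.bd_mono h2 ?_, ?_⟩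
    · rw [pow_succ', mul_assoc]
      exact mul_le_mul_of_nonneg_right (ratio_mono hs0 hsr) hs0
    · rw [show F' - U = (F' - F) + (F - U) by ring]
      exact C.bd_add (C.bd_mono h3 (div_le_div_of_nonneg_right hsr hp0.le)) hFU

omit [IsUltrametricDist Ω] in
omit [IsUltrametricDist Ω] [Finite G] in
theorem tr_eps_mul (u : Ω) (χ : AddChar G Ω) : C.tr (fun j => C.φ j 0 * u) χ = u := by
  conv_rhs => rw [← mul_one u, ← C.tr_eps χ]
  rw [tr, tr, Finset.mul_sum]
  exact Finset.sum_congr rfl fun j _ => by ring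

omit [IsUltrametricDist Ω] in
/-- An algebra functional on the coordinates is a point. -/
theorem exists_point {f : ι → Ω} (hmul : ∀ k l, f k * f l = ∑ j, C.a k l j * f j)
    (hone : ∑ j, C.e j * f j = 1) : ∃ x : G, ∀ j, f j = C.φ j x := by
  classical
  cases nonempty_fintype G
  set T : (G → Ω) →ₗ[Ω] Ω := C.basis.constr Ω f with hT
  have hTb : ∀ j, T (C.φ j) = f j := fun j => by
    rw [hT, ← C.basis_apply, Basis.constr_basis]
  have hTmul : ∀ u v : G → Ω, T (u * v) = T u * T v := by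
    intro u v
    rw [← C.basis.sum_repr u, ← C.basis.sum_repr v, Finset.sum_mul_sum, map_sum, map_sum, map_sum,
      Finset.sum_mul_sum]
    refine Finset.sum_congr rfl fun k _ => ?_
    rw [map_sum]
    refine Finset.sum_congr rfl fun l _ => ?_
    rw [map_smul, map_smul, smul_mul_smul_comm, map_smul, C.basis_apply, C.basis_apply, hTb, hTb,
      show C.φ k * C.φ l = ∑ j, C.a k l j • C.φ j from funext fun x => by
        simp [C.mul_eq k l x, Finset.sum_apply], map_sum]
    simp only [map_smul, hTb, smul_eq_mul]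
    rw [← hmul]
    ring
  have hTone : T 1 = 1 := by
    rw [show (1 : G → Ω) = ∑ j, C.e j • C.φ j from funext fun x => by
      simp [← C.one_eq x, Finset.sum_apply], map_sum, ← hone]
    simp only [map_smul, hTb, smul_eq_mul]
  have hdec : ∀ u : G → Ω, T u = ∑ x, u x * T (Pi.single x 1) := fun u => by
    conv_lhs => rw [show u = ∑ x, u x • (Pi.single x 1 : G → Ω) from funext fun z => by
      simp [Finset.sum_apply, Pi.single_apply]]
    simp [map_sum]
  obtain ⟨x, hx⟩ : ∃ x, T (Pi.single x 1) ≠ 0 := by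
    by_contra h
    push Not at h
    have := hdec 1
    rw [hTone, Finset.sum_eq_zero fun z _ => by rw [h z, mul_zero]] at this
    exact one_ne_zero this
  have hz : ∀ z, z ≠ x → T (Pi.single z 1) = 0 := fun z hz => by
    have h1 := hTmul (Pi.single x 1) (Pi.single z 1)
    rw [show (Pi.single x (1 : Ω) : G → Ω) * Pi.single z 1 = 0 from funext fun w => by
      rcases eq_or_ne w x with rfl | hw
      · simp [hz.symm]
      · simp [hw], map_zero] at h1
    exact (mul_eq_zero.mp h1.symm).resolve_left hx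
  have hx1 : T (Pi.single x 1) = 1 := by
    have h := hdec 1
    rw [hTone, Finset.sum_eq_single x (fun z _ h' => by rw [hz z h', mul_zero])
      (fun h' => absurd (Finset.mem_univ x) h'), Pi.one_apply, one_mul] at h
    exact h.symm
  refine ⟨x, fun j => ?_⟩
  rw [← hTb, hdec, Finset.sum_eq_single x (fun z _ h' => by rw [hz z h', mul_zero])
    (fun h' => absurd (Finset.mem_univ x) h'), hx1, mul_one]

variable {ζ : Ω} (hζ : IsPrimitiveRoot ζ p) (hG : ∀ x : G, p • x = 0)

omit [Finite G] hp in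
include hG in
/-- The transform of an approximate point is an approximate root of unity. -/
theorem bd_tr_pow_sub_one {θ : ι → Ω} (hθ : ∀ j, ‖θ j‖ ≤ 1) {r : ℝ} (hr : 0 ≤ r)
    (hmul : ∀ k l, ‖θ k * θ l - ∑ j, C.a k l j * θ j‖ ≤ r) (hone : ‖∑ j, C.e j * θ j - 1‖ ≤ r) :
    C.Bd r (C.tr θ ^ p - 1) := by
  have key : ∀ n : ℕ, ∃ K : ι → ι → Ω, (∀ j i, ‖K j i‖ ≤ 1) ∧
      (∀ j x, C.φ j (n • x) = ∑ i, K j i * C.φ i x) ∧
      C.Bd r (C.tr θ ^ n - C.tr fun j => ∑ i, K j i * θ i) := by
    intro n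
    induction n with
    | zero =>
      refine ⟨fun j i => C.φ j 0 * C.e i, fun j i => ?_, fun j x => ?_, ?_⟩
      · rw [norm_mul]
        exact mul_le_one₀ (C.norm_φ_le j 0) (norm_nonneg _) (C.norm_e_le i)
      · simp only [mul_assoc, ← Finset.mul_sum, C.one_eq x, mul_one, zero_smul]
      · refine ⟨fun j => C.φ j 0 * (1 - ∑ i, C.e i * θ i), fun j => ?_, funext fun χ => ?_⟩
        · rw [norm_mul]
          exact (mul_le_of_le_one_left (norm_nonneg _) (C.norm_φ_le j 0)).trans
            (by rwa [norm_sub_rev])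
        · rw [Pi.sub_apply, pow_zero, Pi.one_apply, C.tr_eps_mul]
          simp only [mul_assoc, ← Finset.mul_sum]
          rw [C.tr_eps_mul]
    | succ n ih =>
      obtain ⟨K, hK1, hK2, hK3⟩ := ih
      refine ⟨fun j i => ∑ k, ∑ l, C.b j k l * ∑ m, K k m * C.a m l i, fun j i => ?_,
        fun j x => ?_, ?_⟩
      · refine IsUltrametricDist.norm_sum_le_of_forall_le_of_nonneg zero_le_one fun k _ => ?_
        refine IsUltrametricDist.norm_sum_le_of_forall_le_of_nonneg zero_le_one fun l _ => ?_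
        rw [norm_mul]
        refine mul_le_one₀ (C.norm_b_le j k l) (norm_nonneg _) ?_
        refine IsUltrametricDist.norm_sum_le_of_forall_le_of_nonneg zero_le_one fun m _ => ?_
        rw [norm_mul]
        exact mul_le_one₀ (hK1 k m) (norm_nonneg _) (C.norm_a_le m l i)
      · rw [succ_nsmul, C.add_eq]
        simp only [hK2, Finset.sum_mul, mul_assoc, C.mul_eq, Finset.mul_sum]
        rw [eq_comm, Finset.sum_comm]
        refine Finset.sum_congr rfl fun k _ => ?_
        rw [Finset.sum_comm]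
        refine Finset.sum_congr rfl fun l _ => ?_
        exact Finset.sum_comm
      · set T := fun j => ∑ i, K j i * θ i with hT
        have h1 : C.Bd r ((C.tr θ ^ n - C.tr T) * C.tr θ) := by
          simpa using C.bd_mul hr zero_le_one hK3 ⟨θ, hθ, rfl⟩
        refine C.bd_congr (C.bd_add h1 ⟨fun j => ∑ k, ∑ l, C.b j k l *
          ∑ m, K k m * (θ m * θ l - ∑ i, C.a m l i * θ i), fun j => ?_, rfl⟩) fun χ => ?_
        · refine IsUltrametricDist.norm_sum_le_of_forall_le_of_nonneg hr fun k _ => ?_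
          refine IsUltrametricDist.norm_sum_le_of_forall_le_of_nonneg hr fun l _ => ?_
          rw [norm_mul]
          refine (mul_le_of_le_one_left (norm_nonneg _) (C.norm_b_le j k l)).trans ?_
          refine IsUltrametricDist.norm_sum_le_of_forall_le_of_nonneg hr fun m _ => ?_
          rw [norm_mul]
          exact (mul_le_of_le_one_left (norm_nonneg _) (hK1 k m)).trans (hmul m l)
        · have hsplit : C.tr (fun j => ∑ k, ∑ l, C.b j k l *
              ∑ m, K k m * (θ m * θ l - ∑ i, C.a m l i * θ i)) χ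
              = C.tr (fun j => ∑ k, ∑ l, C.b j k l * (T k * θ l)) χ
                - C.tr (fun j => ∑ i, (∑ k, ∑ l, C.b j k l * ∑ m, K k m * C.a m l i) * θ i) χ := by
            rw [tr, tr, tr, ← Finset.sum_sub_distrib]
            refine Finset.sum_congr rfl fun j _ => ?_
            rw [← sub_mul]
            congr 1
            simp only [hT, mul_sub, Finset.sum_sub_distrib, Finset.sum_mul, Finset.mul_sum,
              mul_assoc]
            congr 1
            rw [eq_comm, Finset.sum_comm]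
            refine Finset.sum_congr rfl fun k _ => ?_
            rw [Finset.sum_comm]
            refine Finset.sum_congr rfl fun l _ => ?_
            exact Finset.sum_comm
          rw [Pi.add_apply, Pi.mul_apply, Pi.sub_apply, Pi.sub_apply, hsplit, C.tr_mul, pow_succ,
            Pi.mul_apply]
          ring
  obtain ⟨K, -, hK2, hK3⟩ := key p
  have hKp : ∀ j, K j = fun i => C.φ j 0 * C.e i := fun j => C.coord_ext fun x => by
    simp only [← hK2, hG, mul_assoc, ← Finset.mul_sum, C.one_eq, mul_one]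
  have h2 : C.Bd r (fun χ => (C.tr fun j => ∑ i, K j i * θ i) χ - 1) := by
    refine ⟨fun j => C.φ j 0 * (∑ i, C.e i * θ i - 1), fun j => ?_, funext fun χ => ?_⟩
    · rw [norm_mul]
      exact (mul_le_of_le_one_left (norm_nonneg _) (C.norm_φ_le j 0)).trans hone
    · rw [C.tr_eps_mul]
      simp only [hKp, mul_assoc, ← Finset.mul_sum]
      rw [C.tr_eps_mul]
  exact C.bd_congr (C.bd_add hK3 h2) fun χ => by
    simp only [Pi.add_apply, Pi.sub_apply, Pi.one_apply]
    ring

include hζ hG in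
/-- Approximate points are close to points. -/
theorem exists_point_near {θ : ι → Ω} (hθ : ∀ j, ‖θ j‖ ≤ 1) {r : ℝ} (hr : 0 ≤ r)
    (hsmall : r ^ (p - 1) < ‖(p : Ω)‖ ^ p)
    (hmul : ∀ k l, ‖θ k * θ l - ∑ j, C.a k l j * θ j‖ ≤ r)
    (hone : ‖∑ j, C.e j * θ j - 1‖ ≤ r) :
    ∃ y : G, ∀ j, ‖θ j - C.φ j y‖ ≤ r / ‖(p : Ω)‖ := by
  obtain ⟨hp0, hrp, hclose⟩ := norm_p_lt_one_of_small (p := p) hr hsmall
  set U := C.tr θ with hU
  set d := r / ‖(p : Ω)‖ with hd
  have hd0 : 0 ≤ d := div_nonneg hr hp0.le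
  have hrd : r ≤ d := by
    rw [hd, le_div_iff₀ hp0]
    exact mul_le_of_le_one_right hr (norm_natCast_le_one' p)
  have hbU : C.Bd 1 U := ⟨θ, hθ, rfl⟩
  have hw := C.bd_tr_pow_sub_one hG hθ hr hmul hone
  have happ : ∀ χ, ∃ η : Ω, η ^ p = 1 ∧ ‖U χ - η‖ * ‖(p : Ω)‖ ≤ r := fun χ =>
    exists_root_near_of_pow hζ (C.norm_apply_le_of_bd hr hw χ) hsmall
  choose η hη1 hη2 using happ
  have hη3 : ∀ χ, ‖U χ - η χ‖ ≤ d := fun χ => (le_div_iff₀ hp0).mpr (hη2 χ)
  have hsep : ∀ η η' : Ω, η ^ p = 1 → η' ^ p = 1 → ‖η - η'‖ ≤ d → η = η' := by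
    intro η η' h h' hle
    by_contra hne
    have := norm_root_sub_root_pow h h' hne
    exact absurd ((pow_le_pow_left₀ (norm_nonneg _) hle (p - 1)).trans_lt hclose)
      (not_lt.mpr this.ge)
  have hηU : ∀ χ χ', η (χ * χ') = η χ * η χ' := by
    intro χ χ'
    refine hsep _ _ (hη1 _) (by rw [mul_pow, hη1, hη1, one_mul]) ?_
    have h1 : ‖U (χ * χ') - U χ * U χ'‖ ≤ d := by
      have he : U (χ * χ') - U χ * U χ'
          = ∑ k, ∑ l, (∑ j, C.a k l j * θ j - θ k * θ l) * (C.ψ χ k * C.ψ χ' l) := by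
        simp only [hU, tr, C.ψ_mul, Finset.mul_sum, sub_mul, Finset.sum_sub_distrib,
          Finset.sum_mul]
        congr 1
        · rw [Finset.sum_comm]
          refine Finset.sum_congr rfl fun k _ => ?_
          rw [Finset.sum_comm]
          exact Finset.sum_congr rfl fun l _ => Finset.sum_congr rfl fun j _ => by ring
        · rw [Finset.sum_comm]
          exact Finset.sum_congr rfl fun k _ => Finset.sum_congr rfl fun l _ => by ring
      rw [he]
      refine IsUltrametricDist.norm_sum_le_of_forall_le_of_nonneg hd0 fun k _ => ?_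
      refine IsUltrametricDist.norm_sum_le_of_forall_le_of_nonneg hd0 fun l _ => ?_
      rw [norm_mul, norm_sub_rev, norm_mul]
      exact (mul_le_of_le_one_right (norm_nonneg _) (mul_le_one₀ (C.norm_ψ_le χ k) (norm_nonneg _)
        (C.norm_ψ_le χ' l))).trans ((hmul k l).trans hrd)
    have h2 : ‖U χ * U χ' - η χ * η χ'‖ ≤ d := by
      rw [show U χ * U χ' - η χ * η χ' = (U χ - η χ) * U χ' + η χ * (U χ' - η χ') by ring]
      refine (IsUltrametricDist.norm_add_le_max _ _).trans (max_le ?_ ?_) <;> rw [norm_mul]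
      · exact (mul_le_of_le_one_right (norm_nonneg _)
          (C.norm_apply_le_of_bd zero_le_one hbU χ')).trans (hη3 χ)
      · rw [norm_eq_one_of_pow_eq_one hp.out.ne_zero (hη1 χ), one_mul]
        exact hη3 χ'
    rw [show η (χ * χ') - η χ * η χ'
      = ((η (χ * χ') - U (χ * χ')) + (U (χ * χ') - U χ * U χ')) + (U χ * U χ' - η χ * η χ') by
        ring]
    refine (IsUltrametricDist.norm_add_le_max _ _).trans (max_le ?_ h2)
    refine (IsUltrametricDist.norm_add_le_max _ _).trans (max_le ?_ h1)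
    rw [norm_sub_rev]
    exact hη3 _
  have hη0 : η 1 = 1 := by
    have h := hηU 1 1
    rw [one_mul] at h
    have h1 : η 1 ≠ 0 := fun e => by simpa [e, zero_pow hp.out.ne_zero] using hη1 1
    exact mul_left_cancel₀ h1 (by rw [mul_one]; exact h.symm)
  obtain ⟨f, hf⟩ := C.tr_surjective hζ hG η
  have hf' : ∀ χ, ∑ j, f j * C.ψ χ j = η χ := fun χ => congrFun hf χ
  obtain ⟨y, hy⟩ := C.exists_point (f := f) (fun k l => by
      have h := C.coord_ext_chars₂ hζ hG (f := fun k l => f k * f l)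
        (g := fun k l => ∑ j, C.a k l j * f j) fun χ χ' => ?_
      · exact congrFun (congrFun h k) l
      calc ∑ k, ∑ l, f k * f l * (C.ψ χ k * C.ψ χ' l)
          = (∑ k, f k * C.ψ χ k) * ∑ l, f l * C.ψ χ' l := by
            rw [Finset.sum_mul_sum]
            exact Finset.sum_congr rfl fun k _ => Finset.sum_congr rfl fun l _ => by ring
        _ = η (χ * χ') := by rw [hf', hf', hηU]
        _ = ∑ k, ∑ l, (∑ j, C.a k l j * f j) * (C.ψ χ k * C.ψ χ' l) := by
            rw [← hf']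
            simp only [C.ψ_mul, Finset.mul_sum, Finset.sum_mul]
            rw [Finset.sum_comm]
            refine Finset.sum_congr rfl fun k _ => ?_
            rw [Finset.sum_comm]
            exact Finset.sum_congr rfl fun l _ => Finset.sum_congr rfl fun j _ => by ring)
    (by
      rw [← hη0, ← hf']
      exact Finset.sum_congr rfl fun j _ => by rw [C.ψ_one]; ring)
  refine ⟨y, fun j => ?_⟩
  obtain ⟨B, hB0, hB⟩ := C.exists_coord_bound hζ hG
  set q := ratio (Ω := Ω) p r with hq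
  have hq0 : 0 ≤ q := le_trans hd0 (le_max_left _ _)
  have hq1 : q < 1 :=
    max_lt ((div_lt_one hp0).mpr hrp) ((div_lt_one (pow_pos hp0 _)).mpr hsmall)
  obtain ⟨n, hn⟩ := exists_pow_lt_of_lt_one (show 0 < 1 / (B + 1) by positivity) hq1
  obtain ⟨F, -, hFw, hFU⟩ := C.newton_seq hr hsmall hbU hw n
  obtain ⟨g, hg, hgF⟩ := hFU
  have hgf : F = C.tr (θ + g) := funext fun χ => by
    have := congrFun hgF χ
    rw [Pi.sub_apply, hU, tr, tr] at this
    rw [tr]
    simp only [Pi.add_apply, add_mul, Finset.sum_add_distrib, ← this]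
    ring
  set s := q ^ n * r with hs
  have hs0 : 0 ≤ s := mul_nonneg (pow_nonneg hq0 n) hr
  have hsr : s ≤ r := mul_le_of_le_one_left hr (pow_le_one₀ hq0 hq1.le)
  have hpt : ∀ χ, ‖C.tr (θ + g - f) χ‖ ≤ s / ‖(p : Ω)‖ := by
    intro χ
    have e1 : C.tr (θ + g - f) χ = F χ - η χ := by
      rw [hgf, ← hf', tr, tr, ← Finset.sum_sub_distrib]
      exact Finset.sum_congr rfl fun j _ => by simp [sub_mul]
    rw [e1]
    obtain ⟨η', h1, h2⟩ := exists_root_near_of_pow hζ (C.norm_apply_le_of_bd hs0 hFw χ)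
      ((pow_le_pow_left₀ hs0 hsr _).trans_lt hsmall)
    have h3 : ‖F χ - η'‖ ≤ s / ‖(p : Ω)‖ := (le_div_iff₀ hp0).mpr h2
    suffices η' = η χ by rwa [this] at h3
    refine hsep _ _ h1 (hη1 χ) ?_
    rw [show η' - η χ = ((η' - F χ) + (F χ - U χ)) + (U χ - η χ) by ring]
    refine (IsUltrametricDist.norm_add_le_max _ _).trans (max_le ?_ (hη3 χ))
    refine (IsUltrametricDist.norm_add_le_max _ _).trans (max_le ?_ ?_)
    · rw [norm_sub_rev]
      exact h3.trans (div_le_div_of_nonneg_right hsr hp0.le)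
    · exact C.norm_apply_le_of_bd hd0 ⟨g, hg, hgF⟩ χ
  have hco := hB _ _ (div_nonneg hs0 hp0.le) hpt j
  rw [← hy, show θ j - f j = (θ + g - f) j + (-g j) by simp; ring]
  refine (IsUltrametricDist.norm_add_le_max _ _).trans (max_le (hco.trans ?_) ?_)
  · rw [hs, mul_div_assoc, ← mul_assoc]
    refine mul_le_of_le_one_left hd0 ?_
    rw [lt_div_iff₀ (by positivity)] at hn
    nlinarith [pow_nonneg hq0 n]
  · rw [norm_neg]; exact hg j

end Coords

end Fermat.Agent.FlatBound
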