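import Fermat.Agent.FlatBound.Kummer
import Fermat.Agent.FlatModel.Hopf

/-!
# Local coordinates of a flat model and the Kummer levels it allows

`kummer_level` and `kummer_valuation` restate the bounds of `Kummer.lean` for flat models over
`ℤ_(p)`.
-/

set_option autoImplicit false

noncomputable section

open Finset Module GaloisRep
open scoped Classical

namespace Fermat.Agent.FlatBound

open FlatModel

variable {p : ℕ} [hp : Fact p.Prime]

local notation "R" => ratLocalizedAt p
local notation "Ω" => PadicAlgCl p

/-- The image of an element of `ℤ_(p)`. -/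
def locCoe (r : ratLocalizedAt p) : PadicAlgCl p :=
  padicEmbedding p (algebraMap (ratLocalizedAt p) Qbar r)

theorem locCoe_eq (r : R) : locCoe r = algebraMap ℚ_[p] Ω ((r : ℚ) : ℚ_[p]) := by
  rw [locCoe, algebraMap_ratLoc_apply, AlgHom.commutes]
  exact ((map_ratCast (algebraMap ℚ_[p] Ω) _).trans (eq_ratCast (algebraMap ℚ Ω) _).symm).symm

theorem norm_locCoe_le (r : R) : ‖locCoe r‖ ≤ 1 := by
  rw [locCoe_eq, PadicAlgCl.norm_extends]
  refine Padic.norm_rat_le_one ?_
  exact fun hd => hp.out.one_lt.ne' (Nat.eq_one_of_dvd_coprimes r.2 hd dvd_rfl)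

theorem locCoe_mem_bot (r : R) :
    locCoe r ∈ (⊥ : IntermediateField ℚ_[p] (PadicAlgCl p)) := by
  rw [locCoe_eq]
  exact IntermediateField.algebraMap_mem _ _

variable {G : Type} [AddCommGroup G] [Finite G] {act : GalQ →* AddMonoid.End G}
  (M : Model p act)

instance finite_modelH : Module.Finite (ratLocalizedAt p) M.H := M.finite

instance free_modelH : Module.Free (ratLocalizedAt p) M.H := M.free

/-- A basis of the algebra of a flat model. -/
def modelBasis :
    Basis (Module.Free.ChooseBasisIndex (ratLocalizedAt p) M.H) (ratLocalizedAt p) M.H :=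
  Module.Free.chooseBasis _ _

/-- The coordinate functions in `Ω`. -/
def localφ (j : Module.Free.ChooseBasisIndex (ratLocalizedAt p) M.H) (x : G) : PadicAlgCl p :=
  padicEmbedding p (((modelBasis M j : M.H) : G → Qbar) x)

theorem emb_smul (r : R) (z : Qbar) : padicEmbedding p (r • z) = locCoe r * padicEmbedding p z := by
  rw [Algebra.smul_def, map_mul, locCoe]

omit [Finite G] in
theorem emb_eq_sum (φ : M.H) (x : G) :
    padicEmbedding p ((φ : G → Qbar) x)
      = ∑ j, locCoe ((modelBasis M).repr φ j) * localφ M j x := by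
  have h := congrArg (fun ψ : M.H => padicEmbedding p ((ψ : G → Qbar) x))
    ((modelBasis M).sum_repr φ)
  simp only [AddSubmonoidClass.coe_finsetSum, Finset.sum_apply, map_sum, SetLike.val_smul,
    Pi.smul_apply, emb_smul] at h
  exact h.symm

omit [Finite G] in
theorem localφ_add (j : Module.Free.ChooseBasisIndex (ratLocalizedAt p) M.H) (x y : G) :
    localφ M j (x + y) = ∑ k, ∑ l,
      locCoe (((modelBasis M).tensorProduct (modelBasis M)).repr
        (M.comul (modelBasis M j)) (k, l)) * (localφ M k x * localφ M l y) := by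
  have h := congrArg (fun z => padicEmbedding p (M.ev₂ z (x, y)))
    (((modelBasis M).tensorProduct (modelBasis M)).sum_repr (M.comul (modelBasis M j)))
  simp only [map_sum, map_smul, Finset.sum_apply, Pi.smul_apply, emb_smul,
    Module.Basis.tensorProduct_apply', Model.ev₂_tmul, map_mul, Model.ev₂_comul] at h
  rw [Fintype.sum_prod_type] at h
  exact h.symm

theorem card_index :
    Fintype.card (Module.Free.ChooseBasisIndex (ratLocalizedAt p) M.H) = Nat.card G := by
  cases nonempty_fintype G
  have hspan : ⊤ ≤ Submodule.span Qbar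
      (Set.range fun j => ((modelBasis M j : M.H) : G → Qbar)) := by
    rw [← M.span_eq_top, Submodule.span_le]
    intro φ hφ
    have h1 := congrArg Subtype.val ((modelBasis M).sum_repr ⟨φ, hφ⟩)
    rw [AddSubmonoidClass.coe_finsetSum] at h1
    rw [← show _ = φ from h1]
    refine Submodule.sum_mem _ fun i _ => ?_
    rw [SetLike.val_smul, ← algebraMap_smul Qbar]
    exact Submodule.smul_mem _ _ (Submodule.subset_span ⟨i, rfl⟩)
  rw [← Module.finrank_eq_card_basis (Basis.mk (M.linearIndependent_basis (modelBasis M)) hspan),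
    Module.finrank_fintype_fun_eq_card, Nat.card_eq_fintype_card]

theorem span_localφ : ⊤ ≤ Submodule.span Ω (Set.range (localφ M)) := by
  cases nonempty_fintype G
  intro f _
  have key : ∀ g : G → Qbar, (fun x => padicEmbedding p (g x)) ∈
      Submodule.span Ω (Set.range (localφ M)) := by
    intro g
    have hg : g ∈ Submodule.span Qbar (M.H : Set (G → Qbar)) := M.span_eq_top ▸ Submodule.mem_top
    induction hg using Submodule.span_induction with
    | mem φ hφ =>
      rw [show (fun x => padicEmbedding p (φ x))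
        = ∑ j, locCoe ((modelBasis M).repr ⟨φ, hφ⟩ j) • localφ M j from funext fun x => by
          rw [Finset.sum_apply]; exact emb_eq_sum M ⟨φ, hφ⟩ x]
      exact Submodule.sum_mem _ fun j _ => Submodule.smul_mem _ _ (Submodule.subset_span ⟨j, rfl⟩)
    | zero =>
      rw [show (fun x => padicEmbedding p ((0 : G → Qbar) x)) = 0 from funext fun x => by simp]
      exact Submodule.zero_mem _
    | add u v _ _ hu hv =>
      rw [show (fun x => padicEmbedding p ((u + v) x)) = (fun x => padicEmbedding p (u x)) +
        fun x => padicEmbedding p (v x) from funext fun x => by simp]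
      exact Submodule.add_mem _ hu hv
    | smul c u _ hu =>
      rw [show (fun x => padicEmbedding p ((c • u) x)) = padicEmbedding p c •
        fun x => padicEmbedding p (u x) from funext fun x => by simp]
      exact Submodule.smul_mem _ _ hu
  have hf : f = ∑ x, f x • fun z => padicEmbedding p ((Pi.single x 1 : G → Qbar) z) :=
    funext fun z => by
    simp [Finset.sum_apply, Pi.single_apply, apply_ite (padicEmbedding p)]
  rw [hf]
  exact Submodule.sum_mem _ fun x _ => Submodule.smul_mem _ _ (key _)

/-- The local coordinates of a flat model. -/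
def localCoords :
    Coords (PadicAlgCl p) G (Module.Free.ChooseBasisIndex (ratLocalizedAt p) M.H) where
  φ := localφ M
  a k l j := locCoe ((modelBasis M).repr (modelBasis M k * modelBasis M l) j)
  b j k l := locCoe (((modelBasis M).tensorProduct (modelBasis M)).repr
    (M.comul (modelBasis M j)) (k, l))
  e j := locCoe ((modelBasis M).repr 1 j)
  indep := linearIndependent_of_top_le_span_of_card_eq_finrank (span_localφ M) (by
    cases nonempty_fintype G
    rw [card_index, Module.finrank_fintype_fun_eq_card, Nat.card_eq_fintype_card])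
  span_top := span_localφ M
  mul_eq k l x := by
    rw [← emb_eq_sum M (modelBasis M k * modelBasis M l) x, localφ, localφ, ← map_mul]
    rfl
  add_eq j x y := localφ_add M j x y
  one_eq x := by
    rw [← emb_eq_sum M 1 x]
    exact map_one (padicEmbedding p)
  norm_a_le _ _ _ := norm_locCoe_le _
  norm_b_le _ _ _ := norm_locCoe_le _
  norm_e_le _ := norm_locCoe_le _

omit [Finite G] in
theorem localφ_act (σ : PadicAlgCl p ≃ₐ[ℚ_[p]] PadicAlgCl p)
    (j : Module.Free.ChooseBasisIndex (ratLocalizedAt p) M.H) (x : G) :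
    σ (localφ M j x) = localφ M j (act (localGaloisToGlobal p σ) x) := by
  rw [localφ, localφ, M.equivariant _ (modelBasis M j).2, padicEmbedding_localGaloisToGlobal]

/-- The local coordinates of a flat model satisfy `LocalPoints`. -/
theorem localPoints (hG : ∀ x : G, p • x = 0) : LocalPoints (localCoords M) where
  killed := hG
  mem_a _ _ _ := locCoe_mem_bot _
  mem_e _ := locCoe_mem_bot _
  equivariant σ x := ⟨act (localGaloisToGlobal p σ) x, fun j => localφ_act M σ j x⟩

theorem act_eq_of_fixed (hG : ∀ x : G, p • x = 0) {σ : PadicAlgCl p ≃ₐ[ℚ_[p]] PadicAlgCl p}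
    (h : ∀ j x, σ ((localCoords M).φ j x) = (localCoords M).φ j x) (x : G) :
    act (localGaloisToGlobal p σ) x = x := by
  obtain ⟨ζ, hζ⟩ := exists_primitive_root (p := p)
  refine (localCoords M).eq_of_near hζ hG (c := 0) ?_ fun j => ?_
  · rw [zero_pow (by have := hp.out.two_le; omega)]
    exact norm_p_pos
  · rw [show (localCoords M).φ j (act (localGaloisToGlobal p σ) x) = (localCoords M).φ j x from
      (localφ_act M σ j x).symm.trans (h j x), sub_self, norm_zero]

variable (hG : ∀ x : G, p • x = 0) (F : IntermediateField ℚ_[p] (PadicAlgCl p))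
  [FiniteDimensional ℚ_[p] F] {π α : PadicAlgCl p} {e : ℕ} (hπF : π ∈ F)
  (hπ : ‖π‖ ^ e = ‖(p : PadicAlgCl p)‖) (hval : ∀ x ∈ F, x ≠ 0 → ∃ k : ℤ, ‖x‖ = ‖π‖ ^ k)
  (hαF : α ^ p ∈ F)
  (hfix : ∀ σ : PadicAlgCl p ≃ₐ[ℚ_[p]] PadicAlgCl p, FixesUnram σ →
    (∀ x : G, act (localGaloisToGlobal p σ) x = x) → (∀ z ∈ F, σ z = z) ∧ σ α = α)

include M hG hπF hπ hval hαF hfix in
/-- Kummer levels allowed by a finite flat group killed by `p`: if `α ^ p` is a unit of level
`i` prime to `p` then `i` is large. -/
theorem kummer_level {i : ℕ} (hi : ‖α ^ p - 1‖ = ‖π‖ ^ i) (hpi : ¬ p ∣ i)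
    (hlt : (p - 1) * i < p * e) : p * ((p - 1) * (e - 1)) < p * e + (p - 1) ^ 2 * (i - 1) :=
  kummer_level_coords (localPoints M hG) F hπF hπ hval hαF
    (fun σ h1 h2 => hfix σ h1 (act_eq_of_fixed M hG h2)) hi hpi hlt

include M hG hπF hπ hval hαF hfix in
/-- Kummer levels allowed by a finite flat group killed by `p`: the valuation of `α ^ p` is
divisible by `p` unless the ramification is small. -/
theorem kummer_valuation {k : ℤ} (hk : ‖α ^ p‖ = ‖π‖ ^ k) (hpk : ¬ (p : ℤ) ∣ k) :
    p * ((p - 1) * (e - 1)) + (p - 1) ^ 2 < p * e :=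
  kummer_valuation_coords (localPoints M hG) F hπF hπ hval hαF
    (fun σ h1 h2 => hfix σ h1 (act_eq_of_fixed M hG h2)) hk hpk

end Fermat.Agent.FlatBound
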