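import Fermat.Agent.FlatBound.Model
import Fermat.Prelude.Def_GaloisRep_Flat

/-!
# A flat model from a finite Hopf algebra with the given points

The image of the Hopf algebra in the functions on its points is a flat model.
-/

set_option autoImplicit false

noncomputable section

open GaloisRep
open scoped TensorProduct

namespace Fermat.Agent.FlatBound

open FlatModel

variable {p : ℕ} [Fact p.Prime] {G : Type} [AddCommGroup G]
  (act : GalQ →* AddMonoid.End G)

local notation "R" => ratLocalizedAt p

/-- Composition of an `R`-point with a Galois element. -/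
def conjPoint {H : Type} [CommRing H] [Algebra (ratLocalizedAt p) H] (σ : GalQ)
    (f : H →ₐ[ratLocalizedAt p] Qbar) : H →ₐ[ratLocalizedAt p] Qbar where
  toRingHom := (σ : Qbar →+* Qbar).comp f.toRingHom
  commutes' r := by
    show σ (f (algebraMap R H r)) = algebraMap R Qbar r
    rw [f.commutes, algebraMap_ratLoc_apply, σ.commutes]

omit [Fact (Nat.Prime p)] in
/-- A finite Hopf algebra over `ℤ_(p)` whose points are `G` with its Galois action gives a flat
model of `G`. -/
theorem exists_model_of_hopf (H : Type) [CommRing H] [HopfAlgebra (ratLocalizedAt p) H]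
    [Module.Finite (ratLocalizedAt p) H]
    (e : WithConv (H →ₐ[ratLocalizedAt p] Qbar) ≃ G)
    (hadd : ∀ f g, e (f * g) = e f + e g)
    (hgal : ∀ (σ : GalQ) (f g : WithConv (H →ₐ[ratLocalizedAt p] Qbar)),
      (∀ h : H, g h = σ (f h)) → e g = act σ (e f)) :
    Nonempty (Model p act) := by
  let ev : H →ₐ[R] (G → Qbar) := AlgHom.pi fun x => (e.symm x).ofConv
  have hev : ∀ h x, ev h x = (e.symm x).ofConv h := fun _ _ => rfl
  refine ⟨{
    H := ev.range
    finite := ?_
    equivariant := ?_
    separates := ?_
    add_mem := ?_ }⟩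
  · exact Module.Finite.of_surjective ev.rangeRestrict.toLinearMap ev.rangeRestrict_surjective
  · rintro _ ⟨h, rfl⟩ σ x
    show ev h (act σ x) = σ (ev h x)
    rw [hev, hev]
    have h1 := hgal σ (e.symm x) (WithConv.toConv (conjPoint σ (e.symm x).ofConv)) fun _ => rfl
    rw [e.apply_symm_apply] at h1
    rw [← h1, e.symm_apply_apply]
    rfl
  · intro x y hxy
    refine e.symm.injective ?_
    refine (congrArg WithConv.toConv (AlgHom.ext fun h => ?_) :
      WithConv.toConv (e.symm x).ofConv = WithConv.toConv (e.symm y).ofConv)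
    exact hxy (ev h) ⟨h, rfl⟩
  · rintro _ ⟨h, rfl⟩
    have hmul : ∀ x y, ev h (x + y) =
        Algebra.TensorProduct.lift (e.symm x).ofConv (e.symm y).ofConv
          (fun _ _ => Commute.all _ _) (Coalgebra.comul h) := fun x y => by
      have h1 : e.symm (x + y) = e.symm x * e.symm y := by
        rw [Equiv.symm_apply_eq, hadd, e.apply_symm_apply, e.apply_symm_apply]
      rw [hev, h1]
      exact AlgHom.convMul_apply _ _ _
    show (fun q : G × G => ev h (q.1 + q.2)) ∈ _
    simp only [hmul]
    generalize (Coalgebra.comul h : H ⊗[R] H) = z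
    induction z using TensorProduct.induction_on with
    | zero =>
      simp only [map_zero]
      exact Submodule.zero_mem _
    | tmul a b =>
      exact Submodule.subset_span ⟨ev a, ⟨a, rfl⟩, ev b, ⟨b, rfl⟩, funext fun q => by
        rw [Algebra.TensorProduct.lift_tmul, hev, hev]⟩
    | add u v hu hv =>
      simp only [map_add]
      exact Submodule.add_mem _ hu hv

omit [Fact (Nat.Prime p)] in
/-- The levels of `IsFlatAt` have flat models. -/
theorem exists_model_of_isFlatAt {A : Type} [CommRing A] [IsLocalRing A] {ρ : GaloisRepAdic A}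
    (hρ : ρ.IsFlatAt p) (I : Ideal A) [Finite (A ⧸ I)]
    (act : GalQ →* AddMonoid.End (ρ.V ⧸ (I • (⊤ : Submodule A ρ.V))))
    (hact : ∀ σ x, act σ x = ρ.levelAction I σ x) :
    Nonempty (Model p act) := by
  obtain ⟨H, _, _, _, -, -, e, hadd, hgal⟩ := hρ.2 I inferInstance
  exact exists_model_of_hopf act H e hadd fun σ f g h => (hgal σ f g h).trans (hact σ _).symm

end Fermat.Agent.FlatBound
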