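import Fermat.Agent.FlatBound.TotRam
import Fermat.Agent.FlatBound.Lift

/-!
# Fontaine's bound for the field of points of a finite flat group killed by `p`

A root `β` of a small perturbation of the minimal polynomial of a uniformizer `π` of the field of
points gives approximate points, hence points, over `K⟮β⟯`.  So `β` lies in the field of points,
which bounds the different.
-/

set_option autoImplicit false

noncomputable section

open Finset Module Polynomial
open scoped Classical IntermediateField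

namespace Fermat.Agent.FlatBound

variable {p : ℕ} [hp : Fact p.Prime]

local notation "Ω" => PadicAlgCl p

variable {K : IntermediateField ℚ_[p] (PadicAlgCl p)} {L : IntermediateField K (PadicAlgCl p)}
  {π : PadicAlgCl p} {e : ℕ}
  {G ι : Type} [AddCommGroup G] [Fintype ι]

/-- The coordinates generate `L` over `K` and the relations between them are defined over `K`. -/
structure Generates (C : Coords (PadicAlgCl p) G ι)
    (L : IntermediateField K (PadicAlgCl p)) : Prop where
  killed : ∀ x : G, p • x = 0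
  mem_a : ∀ k l j, C.a k l j ∈ K
  mem_e : ∀ j, C.e j ∈ K
  mem : ∀ j x, C.φ j x ∈ L
  equivariant : ∀ (σ : PadicAlgCl p ≃ₐ[K] PadicAlgCl p) (x : G), ∃ y : G, ∀ j, σ (C.φ j x) = C.φ j y
  generates : ∀ σ : PadicAlgCl p ≃ₐ[K] PadicAlgCl p,
    (∀ j x, σ (C.φ j x) = C.φ j x) → ∀ z ∈ L, σ z = z

theorem exists_primitive_root : ∃ ζ : Ω, IsPrimitiveRoot ζ p :=
  haveI : NeZero (p : Ω) := ⟨norm_pos_iff.mp norm_p_pos⟩
  HasEnoughRootsOfUnity.exists_primitiveRoot Ω p

variable {C : Coords (PadicAlgCl p) G ι}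

/-- If `β` is an approximate root of the minimal polynomial of `π` then the points are defined
over `K⟮β⟯`. -/
theorem le_adjoin_of_near [Finite G] (hT : TotRam K L π e) (hC : Generates C L)
    {β : PadicAlgCl p} (hβ : Uniformizer β e) {r : ℝ} (hr : ‖aeval β (minpoly K π)‖ ≤ r)
    (hsmall : r ^ (p - 1) < ‖(p : PadicAlgCl p)‖ ^ p) : L ≤ K⟮β⟯ := by
  obtain ⟨ζ, hζ⟩ := exists_primitive_root (p := p)
  have hr0 : 0 ≤ r := (norm_nonneg _).trans hr
  obtain ⟨hp0, -, hclose⟩ := norm_p_lt_one_of_small (p := p) hr0 hsmall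
  choose h hdeg hval using fun x j => hT.exists_poly (hC.mem j x)
  have hint : ∀ x j i, ‖((h x j).coeff i : Ω)‖ ≤ 1 := fun x j i =>
    hT.unif.norm_coeff_le_one hT.unram (hdeg x j) (by rw [hval]; exact C.norm_φ_le j x) i
  have hβ1 : ‖β‖ ≤ 1 := hβ.norm_lt_one.le
  have happ : ∀ R : K[X], (∀ i, ‖(R.coeff i : Ω)‖ ≤ 1) → aeval π R = 0 → ‖aeval β R‖ ≤ r :=
    fun R h1 h2 => (hT.norm_aeval_le_of_root h1 h2 hβ1).trans hr
  have hθ : ∀ x, ∃ y : G, ∀ j, ‖aeval β (h x j) - C.φ j y‖ ≤ r / ‖(p : Ω)‖ := by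
    intro x
    refine C.exists_point_near hζ hC.killed (fun j => ?_) hr0 hsmall (fun k l => ?_) ?_
    · exact norm_aeval_le_one (hint x j) hβ1
    · have hR := happ (h x k * h x l - ∑ j, Polynomial.C (⟨C.a k l j, hC.mem_a k l j⟩ : K) * h x j)
        (fun i => ?_) (by
          simp only [map_sub, map_mul, map_sum, aeval_C, hval]
          exact sub_eq_zero.mpr (C.mul_eq k l x))
      · simp only [map_sub, map_mul, map_sum, aeval_C] at hR
        exact hR
      · rw [coeff_sub, AddSubgroupClass.coe_sub, coeff_mul, finsetSum_coeff,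
          AddSubmonoidClass.coe_finsetSum, AddSubmonoidClass.coe_finsetSum]
        refine (norm_sub_le_max' _ _).trans (max_le ?_ ?_) <;>
          refine IsUltrametricDist.norm_sum_le_of_forall_le_of_nonneg zero_le_one fun m _ => ?_
        · rw [MulMemClass.coe_mul, norm_mul]
          exact mul_le_one₀ (hint _ _ _) (norm_nonneg _) (hint _ _ _)
        · rw [coeff_C_mul, MulMemClass.coe_mul, norm_mul]
          exact mul_le_one₀ (C.norm_a_le k l m) (norm_nonneg _) (hint _ _ _)
    · have hR := happ (∑ j, Polynomial.C (⟨C.e j, hC.mem_e j⟩ : K) * h x j - 1)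
        (fun i => ?_) (by
          simp only [map_sub, map_mul, map_sum, map_one, aeval_C, hval]
          exact sub_eq_zero.mpr (C.one_eq x))
      · simp only [map_sub, map_mul, map_sum, map_one, aeval_C] at hR
        exact hR
      · rw [coeff_sub, AddSubgroupClass.coe_sub, finsetSum_coeff,
          AddSubmonoidClass.coe_finsetSum]
        refine (norm_sub_le_max' _ _).trans (max_le ?_ ?_)
        · refine IsUltrametricDist.norm_sum_le_of_forall_le_of_nonneg zero_le_one fun m _ => ?_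
          rw [coeff_C_mul, MulMemClass.coe_mul, norm_mul]
          exact mul_le_one₀ (C.norm_e_le m) (norm_nonneg _) (hint _ _ _)
        · rw [coeff_one]
          split_ifs <;> simp
  choose f hf using hθ
  have hinj : Function.Injective f := by
    intro x x' hxx
    refine C.eq_of_near hζ hC.killed hclose fun j => ?_
    have hd : (h x j - h x' j).natDegree < e :=
      (natDegree_sub_le _ _).trans_lt (max_lt (hdeg x j) (hdeg x' j))
    rw [← hval x j, ← hval x' j, ← map_sub, hT.unif.norm_aeval_congr hT.unram hβ hd, map_sub,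
      show aeval β (h x j) - aeval β (h x' j)
        = (aeval β (h x j) - C.φ j (f x)) - (aeval β (h x' j) - C.φ j (f x')) by rw [hxx]; ring]
    exact (norm_sub_le_max' _ _).trans (max_le (hf x j) (hf x' j))
  intro z hz
  rw [← InfiniteGalois.fixedField_fixingSubgroup K⟮β⟯]
  rintro ⟨σ, hσ⟩
  have hσβ : σ β = β := hσ ⟨β, IntermediateField.mem_adjoin_simple_self K β⟩
  refine hC.generates σ (fun j x => ?_) z hz
  obtain ⟨x₀, rfl⟩ := (Finite.injective_iff_surjective.mp hinj) x
  obtain ⟨y, hy⟩ := hC.equivariant σ (f x₀)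
  suffices y = f x₀ by rw [hy, this]
  refine C.eq_of_near hζ hC.killed hclose fun i => ?_
  rw [← hy, show σ (C.φ i (f x₀)) - C.φ i (f x₀)
    = (σ (C.φ i (f x₀)) - aeval β (h x₀ i)) + (aeval β (h x₀ i) - C.φ i (f x₀)) by ring]
  refine (IsUltrametricDist.norm_add_le_max _ _).trans (max_le ?_ (hf x₀ i))
  conv_lhs => rw [← hσβ, aeval_algHom_apply, ← map_sub, norm_algEquiv_apply, norm_sub_rev]
  exact hf x₀ i

/-- The perturbed polynomial has a root with the absolute value of a uniformizer. -/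
theorem exists_perturbed_root (hT : TotRam K L π e) {k s : ℕ} (hs : s < e) (hks : e < e * k + s) :
    ∃ β : PadicAlgCl p, Uniformizer β e ∧ (minpoly K β).natDegree ≤ e ∧
      ‖aeval β (minpoly K π)‖ = ‖π‖ ^ (e * k + s) := by
  set P := minpoly K π with hP
  have hPd : P.natDegree = e := hT.natDegree_minpoly
  set Q : K[X] := P + Polynomial.C ((p : K) ^ k) * X ^ s with hQ
  have hlow : (Polynomial.C ((p : K) ^ k) * X ^ s).natDegree < P.natDegree :=
    lt_of_le_of_lt (natDegree_C_mul_X_pow_le _ _) (hPd ▸ hs)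
  have hQd : Q.natDegree = e := by rw [hQ, natDegree_add_eq_left_of_natDegree_lt hlow, hPd]
  have hQm : Q.Monic := (minpoly.monic (isIntegral_alg π)).add_of_left
    (by
      rw [degree_eq_natDegree (minpoly.ne_zero (isIntegral_alg π))]
      exact lt_of_le_of_lt degree_le_natDegree (by exact_mod_cast hlow))
  obtain ⟨β, hβ⟩ := IsAlgClosed.exists_aeval_eq_zero Ω Q (by
    rw [degree_eq_natDegree hQm.ne_zero, hQd]
    exact_mod_cast hT.unif.pos.ne')
  have hρ0 := hT.unif.norm_pos
  have hρ1 := hT.unif.norm_lt_one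
  set ρ := ‖π‖ with hρ
  set b := ‖β‖ with hb
  have hpk : ‖(p : Ω)‖ ^ k = ρ ^ (e * k) := by
    rw [← hT.unif.norm_pow, ← pow_mul]
  have heq : β ^ e = -(∑ i ∈ Finset.range e, (P.coeff i : Ω) * β ^ i)
      - (p : Ω) ^ k * β ^ s := by
    have h0 := hβ
    rw [hQ] at h0
    simp only [map_add, map_mul, map_pow, aeval_C, aeval_X] at h0
    rw [aeval_eq_sum_range, hPd,
      Finset.sum_range_succ, ← hPd, (minpoly.monic (isIntegral_alg π)).coeff_natDegree,
      one_smul, hPd] at h0
    simp only [IntermediateField.smul_def, smul_eq_mul, map_natCast] at h0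
    linear_combination h0
  have hci : ∀ i < e, ‖(P.coeff i : Ω)‖ ≤ ρ ^ e := fun i hi => hT.norm_coeff_minpoly_le hi
  have hle : b ≤ ρ := by
    by_contra hlt
    rw [not_le] at hlt
    have hpow : ∀ m i, i < e → e - i ≤ m → ρ ^ m * b ^ i < b ^ e := fun m i hi hm => by
      have h1 : ρ ^ m < b ^ (e - i) :=
        lt_of_le_of_lt (pow_le_pow_of_le_one hρ0.le hρ1.le hm)
          (pow_lt_pow_left₀ hlt hρ0.le (by omega))
      calc ρ ^ m * b ^ i < b ^ (e - i) * b ^ i :=
            mul_lt_mul_of_pos_right h1 (pow_pos (hρ0.trans hlt) i)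
        _ = b ^ e := by rw [← pow_add, Nat.sub_add_cancel hi.le]
    have h1 : ‖β ^ e‖ < b ^ e := by
      rw [heq]
      refine (norm_sub_le_max' _ _).trans_lt (max_lt ?_ ?_)
      · rw [norm_neg]
        obtain ⟨i, hi, hmax⟩ := IsUltrametricDist.exists_norm_finsetSum_le
          (Finset.range e) (fun i => (P.coeff i : Ω) * β ^ i)
        have hne : (Finset.range e).Nonempty := Finset.nonempty_range_iff.mpr hT.unif.pos.ne'
        refine hmax.trans_lt ?_
        have hie : i < e := Finset.mem_range.mp (hi hne)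
        rw [norm_mul, norm_pow]
        exact (mul_le_mul_of_nonneg_right (hci i hie) (pow_nonneg (norm_nonneg _) i)).trans_lt
          (hpow e i hie (by omega))
      · rw [norm_mul, norm_pow, norm_pow, hpk]
        exact hpow (e * k) s hs (by omega)
    rw [norm_pow] at h1
    exact lt_irrefl _ h1
  have hb1 : b < 1 := hle.trans_lt hρ1
  have hge : ρ ≤ b := by
    by_contra hlt
    rw [not_le] at hlt
    have h0 : (0 : ℕ) ∈ Finset.range e := Finset.mem_range.mpr hT.unif.pos
    have hc : (P.coeff 0 : Ω)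
        = -(∑ i ∈ (Finset.range e).erase 0, (P.coeff i : Ω) * β ^ i)
          - (p : Ω) ^ k * β ^ s - β ^ e := by
      rw [heq, ← Finset.add_sum_erase _ _ h0, pow_zero, mul_one]
      ring
    have h1 := hT.norm_coeff_zero_minpoly
    rw [← hP, hc] at h1
    have hpe : 0 < ρ ^ e := pow_pos hρ0 e
    refine absurd h1 (ne_of_lt ?_)
    refine (norm_sub_le_max' _ _).trans_lt
      (max_lt ((norm_sub_le_max' _ _).trans_lt (max_lt ?_ ?_)) ?_)
    · rw [norm_neg]
      refine (IsUltrametricDist.norm_sum_le_of_forall_le_of_nonneg (C := ρ ^ e * b)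
        (mul_nonneg hpe.le (norm_nonneg _)) fun i hi => ?_).trans_lt
        (mul_lt_of_lt_one_right hpe hb1)
      rw [Finset.mem_erase, Finset.mem_range] at hi
      rw [norm_mul, norm_pow]
      refine mul_le_mul (hci i hi.2) ?_ (by positivity) hpe.le
      calc ‖β‖ ^ i ≤ ‖β‖ ^ 1 := pow_le_pow_of_le_one (norm_nonneg _) hb1.le (by omega)
        _ = b := pow_one _
    · rw [norm_mul, norm_pow, norm_pow, hpk]
      rcases Nat.eq_zero_or_pos s with hs0 | hs0
      · rw [hs0, pow_zero, mul_one]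
        exact pow_lt_pow_right_of_lt_one₀ hρ0 hρ1 (by omega)
      · have hk : 1 ≤ k := by
          by_contra hk
          have : k = 0 := by omega
          subst this
          omega
        exact lt_of_lt_of_le (mul_lt_of_lt_one_right (pow_pos hρ0 _)
          (pow_lt_one₀ (norm_nonneg _) hb1 hs0.ne'))
          (pow_le_pow_of_le_one hρ0.le hρ1.le (Nat.le_mul_of_pos_right e hk))
    · rw [norm_pow]
      exact pow_lt_pow_left₀ hlt (norm_nonneg _) hT.unif.pos.ne'
  have hbρ : ‖β‖ = ρ := le_antisymm hle hge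
  refine ⟨β, ⟨hT.unif.pos, by rw [hbρ, hT.unif.norm_pow]⟩,
    hQd ▸ natDegree_le_of_dvd (minpoly.dvd K β hβ) hQm.ne_zero, ?_⟩
  have h2 : aeval β P = -((p : Ω) ^ k * β ^ s) := by
    rw [hQ] at hβ
    simp only [map_add, map_mul, map_pow, aeval_X, map_natCast] at hβ
    exact eq_neg_of_add_eq_zero_left hβ
  rw [h2, norm_neg, norm_mul, norm_pow, norm_pow, hpk, hbρ, ← pow_add]

/-- Fontaine's bound, for a closest conjugate of `π`. -/
theorem different_bound_min [Finite G] (hT : TotRam K L π e) (hC : Generates C L)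
    {z₀ : PadicAlgCl p} (hz₀ : z₀ ∈ rootsIn (minpoly K π)) (hne : z₀ ≠ π)
    (hmin : ∀ z ∈ (rootsIn (minpoly K π)).erase π, ‖π - z₀‖ ≤ ‖π - z‖) :
    ‖(p : PadicAlgCl p)‖ ^ p ≤
      (‖aeval π (derivative (minpoly K π))‖ * ‖π - z₀‖ / ‖π‖) ^ (p - 1) := by
  by_contra hlt
  rw [not_le] at hlt
  have hρ0 := hT.unif.norm_pos
  have hρ1 := hT.unif.norm_lt_one
  have hπ0 : π ≠ 0 := norm_pos_iff.mp hρ0
  have hder : aeval π (derivative (minpoly K π)) ∈ L := by
    rw [aeval_eq_sum_range]
    exact sum_mem fun i _ => L.smul_mem (pow_mem hT.mem i)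
  have hd0 : aeval π (derivative (minpoly K π)) ≠ 0 := by
    rw [aeval_derivative_minpoly]
    exact Finset.prod_ne_zero_iff.mpr fun z hz => sub_ne_zero.mpr (Finset.ne_of_mem_erase hz).symm
  set w := aeval π (derivative (minpoly K π)) * (π - z₀) / π with hw
  have hwL : w ∈ L := L.div_mem (L.mul_mem hder (L.sub_mem hT.mem (hT.rootsIn_subset hz₀))) hT.mem
  have hwn : ‖w‖ = ‖aeval π (derivative (minpoly K π))‖ * ‖π - z₀‖ / ‖π‖ := by
    rw [hw, norm_div, norm_mul]
  rw [← hwn] at hlt
  obtain ⟨m, hm⟩ := hT.exists_zpow hwL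
    (div_ne_zero (mul_ne_zero hd0 (sub_ne_zero.mpr (Ne.symm hne))) hπ0)
  have hp1 : 0 < p - 1 := by have := hp.out.two_le; omega
  have hmN : (e : ℤ) < m := by
    by_contra hle
    rw [not_lt] at hle
    have h1 : ‖(p : Ω)‖ ^ p < ‖(p : Ω)‖ ^ (p - 1) :=
      pow_lt_pow_right_of_lt_one₀ norm_p_pos norm_p_lt_one (by omega)
    refine absurd (h1.trans_le (pow_le_pow_left₀ norm_p_pos.le ?_ _)) (not_lt.mpr hlt.le)
    rw [hm, ← hT.unif.norm_pow, ← zpow_natCast]
    exact zpow_le_zpow_right_of_le_one₀ hρ0 hρ1.le hle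
  obtain ⟨N, rfl⟩ := Int.eq_ofNat_of_zero_le (show 0 ≤ m by omega)
  rw [zpow_natCast] at hm
  obtain ⟨β, hβu, hβd, hβv⟩ := exists_perturbed_root hT (k := N / e) (s := N % e)
    (Nat.mod_lt _ hT.unif.pos) (by rw [Nat.div_add_mod]; omega)
  rw [Nat.div_add_mod, ← hm] at hβv
  have := hT.finiteDim
  have hLβ : L ≤ K⟮β⟯ := le_adjoin_of_near hT hC hβu hβv.le hlt
  have := IntermediateField.adjoin.finiteDimensional (isIntegral_alg (K := K) β)
  have hE : L = K⟮β⟯ := IntermediateField.eq_of_le_of_finrank_le hLβ (by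
    rw [IntermediateField.adjoin.finrank (isIntegral_alg β)]
    refine hβd.trans ?_
    rw [← hT.natDegree_minpoly]
    exact natDegree_minpoly_le_finrank hT.mem)
  have hβL : β ∈ L := hE ▸ IntermediateField.mem_adjoin_simple_self K β
  obtain ⟨z₁, hz₁, hz₁m⟩ := (rootsIn (minpoly K π)).exists_min_image (fun z => ‖β - z‖)
    ⟨π, self_mem_rootsIn π⟩
  obtain ⟨σ, hσ⟩ := exists_algEquiv_of_mem_rootsIn hz₁
  set β' := σ.symm β with hβ'
  have hβσ : σ β' = β := σ.apply_symm_apply β
  have hβ'L : β' ∈ L := hT.normal σ.symm β hβL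
  have hnorm : ∀ z, ‖β' - z‖ = ‖β - σ z‖ := fun z => by
    rw [← norm_algEquiv_apply σ, map_sub, hβσ]
  set t := ‖β' - π‖ with ht
  have hclose : ∀ z ∈ rootsIn (minpoly K π), t ≤ ‖β' - z‖ := fun z hz => by
    rw [ht, hnorm, hnorm, hσ]
    exact hz₁m _ (algEquiv_mem_rootsIn σ hz)
  have hmax : ∀ z ∈ (rootsIn (minpoly K π)).erase π, ‖β' - z‖ = max t ‖π - z‖ := fun z hz => by
    refine le_antisymm ?_ (max_le (hclose z (Finset.mem_of_mem_erase hz)) ?_)
    · rw [show β' - z = (β' - π) + (π - z) by ring]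
      exact IsUltrametricDist.norm_add_le_max _ _
    · rw [show π - z = (β' - z) - (β' - π) by ring]
      exact (norm_sub_le_max' _ _).trans (max_le le_rfl (hclose z (Finset.mem_of_mem_erase hz)))
  have hprod : ‖w‖ = t * ∏ z ∈ (rootsIn (minpoly K π)).erase π, max t ‖π - z‖ := by
    rw [← hβv, ← norm_algEquiv_apply σ.symm (aeval β (minpoly K π)), ← aeval_algHom_apply,
      ← hβ', ← eval_map_algebraMap, map_minpoly_eq_prod, eval_prod, norm_prod,
      ← Finset.mul_prod_erase _ _ (self_mem_rootsIn π), Finset.prod_congr rfl (g := fun z =>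
        max t ‖π - z‖) fun z hz => by rw [eval_sub, eval_X, eval_C, hmax z hz]]
    simp [ht]
  rw [hwn, aeval_derivative_minpoly, norm_prod] at hprod
  set d := ‖π - z₀‖ with hd
  have hd0' : 0 < d := norm_pos_iff.mpr (sub_ne_zero.mpr (Ne.symm hne))
  have hD0 : 0 < ∏ z ∈ (rootsIn (minpoly K π)).erase π, ‖π - z‖ :=
    Finset.prod_pos fun z hz => norm_pos_iff.mpr (sub_ne_zero.mpr (Finset.ne_of_mem_erase hz).symm)
  set D := ∏ z ∈ (rootsIn (minpoly K π)).erase π, ‖π - z‖ with hDdef
  rw [div_eq_iff hρ0.ne'] at hprod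
  rcases le_or_gt t d with htd | htd
  · rw [Finset.prod_congr rfl fun z hz => max_eq_right (htd.trans (hmin z hz)), ← hDdef] at hprod
    have h1 : D * d < D * d * 1 + 1 := by linarith
    nlinarith [mul_lt_mul_of_pos_left hρ1 (mul_pos hd0' hD0),
      mul_le_mul_of_nonneg_right htd hD0.le]
  · have htd' : d ≤ ‖π‖ * t :=
      hT.norm_le_mul_of_lt (L.sub_mem hT.mem (hT.rootsIn_subset hz₀))
        (L.sub_mem hβ'L hT.mem) htd
    have hz₀' : z₀ ∈ (rootsIn (minpoly K π)).erase π := Finset.mem_erase.mpr ⟨hne, hz₀⟩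
    rw [hDdef, ← Finset.mul_prod_erase _ _ hz₀', ← Finset.mul_prod_erase _ _ hz₀',
      max_eq_left htd.le, ← hd] at hprod
    set R := ∏ z ∈ ((rootsIn (minpoly K π)).erase π).erase z₀, ‖π - z‖
    have hR0 : 0 < R := Finset.prod_pos fun z hz => norm_pos_iff.mpr
      (sub_ne_zero.mpr (Finset.ne_of_mem_erase (Finset.mem_of_mem_erase hz)).symm)
    set M := ∏ z ∈ ((rootsIn (minpoly K π)).erase π).erase z₀, max t ‖π - z‖
    have hRM : R ≤ M :=
      Finset.prod_le_prod (fun _ _ => norm_nonneg _) fun z _ => le_max_right _ _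
    have h1 : d * d ≤ ‖π‖ * t * (‖π‖ * t) := mul_le_mul htd' htd' hd0'.le (by positivity)
    have h2 : d * d * R ≤ ‖π‖ * t * (‖π‖ * t) * M :=
      mul_le_mul h1 hRM hR0.le (by positivity)
    have h3 : ‖π‖ * t * (‖π‖ * t) * M < t * (t * M) * ‖π‖ := by
      have hM : 0 < M := hR0.trans_le hRM
      have ht0 : 0 < t := hd0'.trans htd
      calc ‖π‖ * t * (‖π‖ * t) * M = ‖π‖ * (t * (t * M) * ‖π‖) := by ring
        _ < 1 * (t * (t * M) * ‖π‖) := mul_lt_mul_of_pos_right hρ1 (by positivity)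
        _ = _ := one_mul _
    linarith [show d * R * d = d * d * R by ring]

/-- The strict bound on the different of a wildly ramified field of points. -/
theorem different_lt [Finite G] (hT : TotRam K L π e) (hC : Generates C L) (hpe : p ∣ e) :
    ‖(p : PadicAlgCl p)‖ ^ p < ‖aeval π (derivative (minpoly K π))‖ ^ (p - 1) := by
  have hρ0 := hT.unif.norm_pos
  have hρ1 := hT.unif.norm_lt_one
  have hp0 : (0 : ℝ) < ‖(p : Ω)‖ := norm_p_pos
  set S := (rootsIn (minpoly K π)).erase π with hS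
  have hcard : S.card = e - 1 := by
    rw [hS, Finset.card_erase_of_mem (self_mem_rootsIn π), card_rootsIn_minpoly,
      hT.natDegree_minpoly]
  have he1 : 1 < e := lt_of_lt_of_le hp.out.one_lt (Nat.le_of_dvd hT.unif.pos hpe)
  have hex : ∃ z ∈ S, ‖π - z‖ < ‖π‖ := by
    by_contra hall
    push Not at hall
    have h1 : ‖aeval π (derivative (minpoly K π))‖ = ‖π‖ ^ (e - 1) := by
      rw [aeval_derivative_minpoly, norm_prod, ← hS, Finset.prod_congr rfl (g := fun _ => ‖π‖),
        Finset.prod_const, hcard]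
      intro z hz
      exact le_antisymm ((norm_sub_le_max' _ _).trans
        (max_le le_rfl (TotRam.norm_root (Finset.mem_of_mem_erase hz)).le)) (hall z hz)
    have h2 : ‖aeval π (derivative (minpoly K π))‖ ≤ ‖π‖ ^ e := by
      rw [aeval_def, eval₂_eq_sum, Polynomial.sum]
      refine IsUltrametricDist.norm_sum_le_of_forall_le_of_nonneg (by positivity) fun i _ => ?_
      rw [norm_mul, norm_pow, coeff_derivative, map_mul, norm_mul]
      have hi1 : ‖algebraMap K Ω ((i : K) + 1)‖ ≤ 1 := by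
        rw [map_add, map_natCast, map_one, ← Nat.cast_add_one]
        exact norm_natCast_le_one' _
      refine (mul_le_of_le_one_right (by positivity) (pow_le_one₀ hρ0.le hρ1.le)).trans ?_
      rcases lt_trichotomy (i + 1) e with hi | hi | hi
      · exact (mul_le_of_le_one_right (norm_nonneg _) hi1).trans (hT.norm_coeff_minpoly_le hi)
      · obtain ⟨c, hc⟩ := hpe
        rw [map_add, map_natCast, map_one, ← Nat.cast_add_one, hi]
        refine (mul_le_of_le_one_left (norm_nonneg _) (hT.norm_coeff_minpoly_le_one _)).trans ?_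
        rw [hT.unif.norm_pow, hc, Nat.cast_mul, norm_mul]
        exact mul_le_of_le_one_right hp0.le (norm_natCast_le_one' c)
      · rw [coeff_eq_zero_of_natDegree_lt (hT.natDegree_minpoly ▸ hi), map_zero, norm_zero,
          zero_mul]
        positivity
    rw [h1] at h2
    exact absurd h2 (not_le.mpr (pow_lt_pow_right_of_lt_one₀ hρ0 hρ1 (by omega)))
  obtain ⟨z₁, hz₁, hlt⟩ := hex
  obtain ⟨z₀, hz₀, hmin⟩ := S.exists_min_image (fun z => ‖π - z‖) ⟨z₁, hz₁⟩
  have hlt₀ : ‖π - z₀‖ < ‖π‖ := (hmin z₁ hz₁).trans_lt hlt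
  have hb := different_bound_min hT hC (Finset.mem_of_mem_erase hz₀)
    (Finset.ne_of_mem_erase hz₀) hmin
  have hd : 0 < ‖aeval π (derivative (minpoly K π))‖ := by
    rw [aeval_derivative_minpoly, norm_prod]
    exact Finset.prod_pos fun z hz =>
      norm_pos_iff.mpr (sub_ne_zero.mpr (Finset.ne_of_mem_erase hz).symm)
  refine hb.trans_lt (pow_lt_pow_left₀ ?_ (by positivity) (by have := hp.out.two_le; omega))
  rw [div_lt_iff₀ hρ0]
  exact mul_lt_mul_of_pos_left hlt₀ hd

end Fermat.Agent.FlatBound
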