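import Fermat.Agent.FlatBound.Cyclo
import Fermat.Agent.FlatBound.Ramification

/-!
# The field of points over a sufficiently large unramified field

`exists_pointField` is the main result: such a field is totally ramified over an unramified one.
-/

set_option autoImplicit false

noncomputable section

open Finset Module Polynomial
open scoped Classical IntermediateField

namespace Fermat.Agent.FlatBound

variable {p : ℕ} [hp : Fact p.Prime]

local notation "Ω" => PadicAlgCl p

/-- `σ` fixes the roots of unity of order prime to `p`. -/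
def FixesUnram (σ : PadicAlgCl p ≃ₐ[ℚ_[p]] PadicAlgCl p) : Prop :=
  ∀ (n : ℕ) (x : PadicAlgCl p), ¬ p ∣ n → x ^ n = 1 → σ x = x

/-- An element of `Ω` fixed by all `σ` that fix `S` lies in `ℚ_p(S)`. -/
theorem mem_adjoin_of_fixed {S : Set (PadicAlgCl p)} {x : PadicAlgCl p}
    (h : ∀ σ : Ω ≃ₐ[ℚ_[p]] Ω, (∀ s ∈ S, σ s = s) → σ x = x) :
    x ∈ IntermediateField.adjoin ℚ_[p] S := by
  rw [← InfiniteGalois.fixedField_fixingSubgroup (IntermediateField.adjoin ℚ_[p] S)]
  rintro ⟨σ, hσ⟩
  exact h σ fun s hs => hσ ⟨s, IntermediateField.subset_adjoin _ _ hs⟩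

/-- The totally ramified field containing a finite Galois extension of `ℚ_p`. -/
theorem exists_totRam_ge (L₀ : IntermediateField ℚ_[p] (PadicAlgCl p))
    [FiniteDimensional ℚ_[p] L₀] [Normal ℚ_[p] L₀] :
    ∃ (n : ℕ) (T : IntermediateField (cyclo p n) (PadicAlgCl p)) (π : PadicAlgCl p) (e : ℕ),
      ¬ p ∣ n ∧ TotRam (cyclo p n) T π e ∧ ∀ x ∈ L₀, x ∈ T := by
  obtain ⟨n, hn, hres⟩ := exists_residue_roots L₀
  obtain ⟨π₀, hπ0, hπ1, hval⟩ := Duality.Local.exists_uniformizer L₀
  set π : Ω := (π₀ : Ω) with hπ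
  obtain ⟨k, hk⟩ := hval (p : L₀) (Nat.cast_ne_zero.mpr hp.out.ne_zero)
  have hk' : ‖(p : Ω)‖ = ‖π‖ ^ k := by
    rw [← show (((p : L₀)) : Ω) = (p : Ω) by simp]; exact hk
  have hk0 : 0 < k := by
    by_contra hle
    have h1 := one_le_zpow_of_nonpos₀ (show 0 < ‖π‖ from hπ0) hπ1.le (show k ≤ 0 by omega)
    rw [← hk'] at h1
    exact absurd h1 (not_le.mpr norm_p_lt_one)
  obtain ⟨e, rfl⟩ := Int.eq_ofNat_of_zero_le hk0.le
  have hu : Uniformizer π e := ⟨by omega, by rw [hk', zpow_natCast]⟩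
  have hn0 : n ≠ 0 := fun h => hn (h ▸ dvd_zero p)
  have := finiteDimensional_cyclo (p := p) hn0
  have hvalF : ∀ x ∈ L₀, x ≠ 0 → ∃ k : ℤ, ‖x‖ = ‖π‖ ^ k := fun x hx hx0 =>
    hval ⟨x, hx⟩ fun h => hx0 (congrArg Subtype.val h)
  have hresF : ∀ x ∈ L₀, ‖x‖ = 1 →
      ∃ c : Ω, c ∈ cyclo p n ∧ c ∈ L₀ ∧ ‖x - c‖ < 1 := fun x hx hx1 => by
    obtain ⟨ω, hω, hωF, hlt⟩ := hres x hx hx1
    exact ⟨ω, root_mem_cyclo hω, hωF, hlt⟩
  have hmem : ∀ x ∈ L₀, x ∈ (cyclo p n)⟮π⟯ := fun x hx => by
    obtain ⟨h, -, rfl⟩ := exists_poly_of_residues (cyclo p n) L₀ hu π₀.2 hvalF hresF hx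
    exact aeval_mem_adjoin_self π h
  refine ⟨n, (cyclo p n)⟮π⟯, π, e, hn, ⟨unram_cyclo hn, hu,
    IntermediateField.mem_adjoin_simple_self _ _,
    IntermediateField.adjoin.finiteDimensional (isIntegral_alg π), ?_, ?_⟩, hmem⟩
  · rw [IntermediateField.adjoin.finrank (isIntegral_alg π)]
    exact natDegree_minpoly_le_of_residues (cyclo p n) L₀ hu π₀.2 hvalF hresF
  · intro σ x hx
    obtain ⟨h, -, rfl⟩ := exists_poly_of_mem_adjoin hx
    rw [← aeval_algHom_apply]
    have hσπ : σ π ∈ L₀ := by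
      have h1 := IntermediateField.normal_iff_forall_map_le'.mp (inferInstance : Normal ℚ_[p] L₀)
        (σ.restrictScalars ℚ_[p])
      exact h1 ⟨π, π₀.2, rfl⟩
    have hE := hmem _ hσπ
    exact SetLike.le_def.mp (IntermediateField.adjoin_simple_le_iff.mpr hE)
      (aeval_mem_adjoin_self (σ π) h)
where
  aeval_mem_adjoin_self {K : IntermediateField ℚ_[p] (PadicAlgCl p)} (w : PadicAlgCl p)
      (h : K[X]) : aeval w h ∈ K⟮w⟯ :=
    (IntermediateField.algebra_adjoin_le_adjoin K _) (aeval_mem_adjoin_singleton K w)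

/-- A subfield of a totally ramified field is totally ramified. -/
theorem TotRam.exists_of_le {K : IntermediateField ℚ_[p] (PadicAlgCl p)}
    {T L : IntermediateField K (PadicAlgCl p)} {π : PadicAlgCl p} {e : ℕ} (hT : TotRam K T π e)
    (hLT : L ≤ T) (hnormal : ∀ (σ : Ω ≃ₐ[K] Ω), ∀ x ∈ L, σ x ∈ L) :
    ∃ (π' : PadicAlgCl p) (e' : ℕ), TotRam K L π' e' := by
  have := hT.finiteDim
  have : FiniteDimensional K L :=
    FiniteDimensional.of_injective (IntermediateField.inclusion hLT).toLinearMap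
      (IntermediateField.inclusion hLT).toRingHom.injective
  set T' := IntermediateField.extendScalars hLT with hT'
  have hπi : IsIntegral L π := (isIntegral_alg (K := K) π).tower_top
  have hadj : L⟮π⟯ = T' := by
    refine le_antisymm (IntermediateField.adjoin_simple_le_iff.mpr
      (IntermediateField.mem_extendScalars hLT |>.mpr hT.mem)) ?_
    intro x hx
    rw [IntermediateField.mem_extendScalars] at hx
    obtain ⟨h, -, rfl⟩ := hT.exists_poly hx
    rw [← aeval_map_algebraMap L π h]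
    exact (IntermediateField.algebra_adjoin_le_adjoin L _) (aeval_mem_adjoin_singleton L π)
  have hTe : finrank K T = e := by
    rw [← hT.adjoin_eq, IntermediateField.adjoin.finrank (isIntegral_alg π), hT.natDegree_minpoly]
  have hmul : finrank K L * (minpoly L π).natDegree = e := by
    rw [← IntermediateField.adjoin.finrank hπi, hadj, ← hTe, Module.finrank_mul_finrank K L T']
    rfl
  refine ⟨((minpoly L π).coeff 0 : L), finrank K L, hT.unram, ⟨finrank_pos, ?_⟩,
    ((minpoly L π).coeff 0).2, inferInstance, le_rfl, hnormal⟩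
  have hroots : ∀ z ∈ ((minpoly L π).map (algebraMap L Ω)).roots, ‖z‖ = ‖π‖ := by
    intro z hz
    refine TotRam.norm_root (K := K) ((mem_rootsIn (minpoly.ne_zero (isIntegral_alg π))).mpr ?_)
    have hz' : aeval z (minpoly L π) = 0 := by
      rw [← eval_map_algebraMap]; exact (mem_roots'.mp hz).2
    have hdvd := minpoly.dvd_map_of_isScalarTower K L π
    obtain ⟨q, hq⟩ := hdvd
    rw [← aeval_map_algebraMap L z (minpoly K π), hq, map_mul, hz', zero_mul]
  have hsp : ((minpoly L π).map (algebraMap L Ω)).Splits := IsAlgClosed.splits _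
  have h0 : ‖(((minpoly L π).coeff 0 : L) : Ω)‖ = ‖π‖ ^ (minpoly L π).natDegree := by
    have heq := hsp.eq_prod_roots_of_monic ((minpoly.monic hπi).map _)
    have hcard := hsp.natDegree_eq_card_roots
    rw [natDegree_map] at hcard
    rw [show (((minpoly L π).coeff 0 : L) : Ω) = ((minpoly L π).map (algebraMap L Ω)).coeff 0 by
      rw [coeff_map]; rfl, heq, coeff_zero_eq_eval_zero, eval_multiset_prod, Multiset.map_map]
    rw [hcard]
    clear heq hcard
    revert hroots
    generalize ((minpoly L π).map (algebraMap L Ω)).roots = R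
    intro hroots
    induction R using Multiset.induction_on with
    | empty => simp
    | cons a s ih =>
      rw [Multiset.map_cons, Multiset.prod_cons, Multiset.card_cons, norm_mul, Function.comp_apply,
        eval_sub, eval_X, eval_C, zero_sub, norm_neg]
      rw [hroots a (Multiset.mem_cons_self a s),
        ih fun z hz => hroots z (Multiset.mem_cons_of_mem hz),
        pow_succ']
  rw [h0, ← pow_mul, mul_comm, hmul, hT.unif.norm_pow]

/-- An element of a totally ramified field which lies in an unramified extension of a subfield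
lies in that subfield. -/
theorem mem_of_unram_extension {K K' : IntermediateField ℚ_[p] (PadicAlgCl p)}
    [FiniteDimensional ℚ_[p] K] {T L : IntermediateField K (PadicAlgCl p)}
    {π₀ π : PadicAlgCl p} {e₀ e : ℕ} (hT : TotRam K T π₀ e₀) (hTR : TotRam K L π e) (hLT : L ≤ T)
    (hle : K ≤ K') (hK' : Unram K') (hdeg : (minpoly K' π).natDegree ≤ e)
    {x : PadicAlgCl p} (hxT : x ∈ T) (hxB : x ∈ K'⟮π⟯) : x ∈ L := by
  set M := K⟮π, x⟯ with hM
  have hMB : ∀ z ∈ M, z ∈ K'⟮π⟯ := fun z hz => by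
    refine IntermediateField.adjoin_induction K
      (p := fun z _ => z ∈ K'⟮π⟯) ?_
      (fun c => K'⟮π⟯.algebraMap_mem ⟨_, hle c.2⟩)
      (fun a b _ _ ha hb => add_mem ha hb) (fun a _ ha => inv_mem ha)
      (fun a b _ _ ha hb => mul_mem ha hb) hz
    rintro a (rfl | ha)
    · exact IntermediateField.mem_adjoin_simple_self _ _
    · rw [Set.mem_singleton_iff.mp ha]; exact hxB
  have hMT : M ≤ T := IntermediateField.adjoin_le_iff.mpr (by
    rintro a (rfl | ha)
    · exact hLT hTR.mem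
    · rw [Set.mem_singleton_iff.mp ha]; exact hxT)
  have hπM : π ∈ M := IntermediateField.subset_adjoin K _ (Set.mem_insert π {x})
  have hxM : x ∈ M := IntermediateField.subset_adjoin K _
    (Set.mem_insert_of_mem π (Set.mem_singleton x))
  clear_value M
  obtain ⟨h, -, hh⟩ := exists_poly_of_residues K (M.restrictScalars ℚ_[p]) hTR.unif
    ((IntermediateField.mem_restrictScalars ℚ_[p]).mpr hπM) (fun z hz hz0 => by
      rw [IntermediateField.mem_restrictScalars] at hz
      obtain ⟨h, hd, rfl⟩ := exists_poly_of_mem_adjoin (hMB z hz)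
      exact (hTR.unif.exists_norm_aeval_eq hK' (hd.trans_le hdeg)
        (fun h0 => hz0 (by simp [h0]))).2)
    (fun z hz hz1 => by
      rw [IntermediateField.mem_restrictScalars] at hz
      obtain ⟨h, hd, rfl⟩ := hT.exists_poly (hMT hz)
      refine ⟨_, (h.coeff 0).2,
        (IntermediateField.mem_restrictScalars ℚ_[p]).mpr (M.algebraMap_mem (h.coeff 0)), ?_⟩
      rw [aeval_eq_sum_range' hd, ← Finset.add_sum_erase _ _ (Finset.mem_range.mpr hT.unif.pos),
        pow_zero, IntermediateField.smul_def, smul_eq_mul, mul_one, add_sub_cancel_left]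
      refine (IsUltrametricDist.norm_sum_le_of_forall_le_of_nonneg hT.unif.norm_pos.le
        fun i hi => ?_).trans_lt hT.unif.norm_lt_one
      rw [IntermediateField.smul_def, smul_eq_mul, norm_mul, norm_pow]
      refine (mul_le_of_le_one_left (by positivity)
        (hT.unif.norm_coeff_le_one hT.unram hd hz1.le i)).trans ?_
      calc ‖π₀‖ ^ i ≤ ‖π₀‖ ^ 1 := pow_le_pow_of_le_one hT.unif.norm_pos.le
            hT.unif.norm_lt_one.le (Nat.one_le_iff_ne_zero.mpr (Finset.ne_of_mem_erase hi))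
        _ = ‖π₀‖ := pow_one _)
    ((IntermediateField.mem_restrictScalars ℚ_[p]).mpr hxM)
  rw [← hh]
  rw [aeval_eq_sum_range]
  exact sum_mem fun i _ => L.smul_mem (pow_mem hTR.mem i)

variable {G ι : Type} [AddCommGroup G] [Fintype ι] [Finite G] (C : Coords (PadicAlgCl p) G ι)

/-- The hypotheses on coordinates of the points of a finite flat group over `ℤ_p`. -/
structure LocalPoints : Prop where
  killed : ∀ x : G, p • x = 0
  mem_a : ∀ k l j, C.a k l j ∈ (⊥ : IntermediateField ℚ_[p] (PadicAlgCl p))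
  mem_e : ∀ j, C.e j ∈ (⊥ : IntermediateField ℚ_[p] (PadicAlgCl p))
  equivariant : ∀ (σ : PadicAlgCl p ≃ₐ[ℚ_[p]] PadicAlgCl p) (x : G),
    ∃ y : G, ∀ j, σ (C.φ j x) = C.φ j y

omit [Finite G] in
/-- Inside a totally ramified field containing the points, the points generate a totally ramified
field. -/
theorem exists_totRam_points (hC : LocalPoints C)
    {K : IntermediateField ℚ_[p] (PadicAlgCl p)} {T : IntermediateField K (PadicAlgCl p)}
    {π₀ : PadicAlgCl p} {e₀ : ℕ} (hT : TotRam K T π₀ e₀) (hP : ∀ j y, C.φ j y ∈ T) :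
    ∃ (L : IntermediateField K (PadicAlgCl p)) (π : PadicAlgCl p) (e : ℕ),
      TotRam K L π e ∧ L ≤ T ∧ Generates C L := by
  set P : Set Ω := Set.range fun q : ι × G => C.φ q.1 q.2 with hPdef
  have hLT : IntermediateField.adjoin K P ≤ T := IntermediateField.adjoin_le_iff.mpr (by
    rintro _ ⟨q, rfl⟩
    exact hP q.1 q.2)
  have hnormal : ∀ (σ : Ω ≃ₐ[K] Ω), ∀ x ∈ IntermediateField.adjoin K P,
      σ x ∈ IntermediateField.adjoin K P := by
    intro σ x hx
    have hmap : (IntermediateField.adjoin K P).map σ.toAlgHom ≤ IntermediateField.adjoin K P := by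
      rw [IntermediateField.adjoin_map]
      refine IntermediateField.adjoin.mono _ _ _ ?_
      rintro _ ⟨_, ⟨q, rfl⟩, rfl⟩
      obtain ⟨y, hy⟩ := hC.equivariant (σ.restrictScalars ℚ_[p]) q.2
      exact ⟨(q.1, y), (hy q.1).symm⟩
    exact hmap ⟨x, hx, rfl⟩
  obtain ⟨π, e, hTR⟩ := hT.exists_of_le hLT hnormal
  refine ⟨_, π, e, hTR, hLT, hC.killed, fun k l j => ?_, fun j => ?_,
    fun j y => IntermediateField.subset_adjoin K _ ⟨(j, y), rfl⟩,
    fun σ y => hC.equivariant (σ.restrictScalars ℚ_[p]) y, ?_⟩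
  · have hle : (⊥ : IntermediateField ℚ_[p] Ω) ≤ K := bot_le
    exact hle (hC.mem_a k l j)
  · have hle : (⊥ : IntermediateField ℚ_[p] Ω) ≤ K := bot_le
    exact hle (hC.mem_e j)
  · intro σ hσ z hz
    refine IntermediateField.adjoin_induction K (p := fun z _ => σ z = z)
      ?_ (fun c => σ.commutes c) (fun a b _ _ ha hb => by rw [map_add, ha, hb])
      (fun a _ ha => by rw [map_inv₀, ha]) (fun a b _ _ ha hb => by rw [map_mul, ha, hb]) hz
    rintro _ ⟨q, rfl⟩
    exact hσ q.1 q.2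

omit [AddCommGroup G] [Fintype ι] [Finite G] in
/-- An element fixed by the unramified automorphisms fixing a subset of `L` lies in an unramified
extension of `L`. -/
theorem exists_mem_unram_extension {n : ℕ} (hn : ¬ p ∣ n)
    {L : IntermediateField (cyclo p n) (PadicAlgCl p)} {π : PadicAlgCl p} {e : ℕ}
    (hTR : TotRam (cyclo p n) L π e) {P : Set (PadicAlgCl p)} (hPL : ∀ w ∈ P, w ∈ L)
    {x : PadicAlgCl p}
    (hx : ∀ σ : Ω ≃ₐ[ℚ_[p]] Ω, FixesUnram σ → (∀ w ∈ P, σ w = w) → σ x = x) :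
    ∃ K' : IntermediateField ℚ_[p] (PadicAlgCl p), cyclo p n ≤ K' ∧ Unram K' ∧
      (minpoly K' π).natDegree ≤ e ∧ x ∈ K'⟮π⟯ := by
  have hxA : x ∈ IntermediateField.adjoin ℚ_[p] ({w : Ω | ∃ m, ¬ p ∣ m ∧ w ^ m = 1} ∪ P) :=
    mem_adjoin_of_fixed fun σ hσ => hx σ (fun m w hm hw => hσ w (Or.inl ⟨m, hm, hw⟩))
      (fun w hw => hσ _ (Or.inr hw))
  obtain ⟨s, hs1, hs2⟩ := IntermediateField.exists_finset_of_mem_adjoin hxA
  let ord : Ω → ℕ := fun w => if h : ∃ m, ¬ p ∣ m ∧ w ^ m = 1 then h.choose else 1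
  have hord : ∀ w, ¬ p ∣ ord w := fun w => by
    simp only [ord]
    split_ifs with h
    · exact h.choose_spec.1
    · exact fun hd => hp.out.one_lt.ne' (Nat.dvd_one.mp hd)
  have hroot : ∀ w, (∃ m, ¬ p ∣ m ∧ w ^ m = 1) → w ^ ord w = 1 := fun w h => by
    simp only [ord, dif_pos h]
    exact h.choose_spec.2
  obtain ⟨m, hm⟩ : ∃ m : ℕ, m = n * ∏ w ∈ s, ord w := ⟨_, rfl⟩
  have hpm : ¬ p ∣ m := fun hd => by
    rw [hm] at hd
    rcases hp.out.dvd_mul.mp hd with h | h
    · exact hn h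
    · obtain ⟨w, -, hw⟩ := (Nat.Prime.prime hp.out).exists_mem_finset_dvd h
      exact hord w hw
  have hle : cyclo p n ≤ cyclo p m := cyclo_le_of_dvd (hm ▸ dvd_mul_right n _)
  refine ⟨cyclo p m, hle, unram_cyclo hpm, ?_, ?_⟩
  · exact natDegree_minpoly_map_le hle (minpoly.aeval _ π) (minpoly.ne_zero (isIntegral_alg π))
      hTR.natDegree_minpoly.le
  · have h1 : IntermediateField.adjoin ℚ_[p] (s : Set Ω) ≤
        ((cyclo p m)⟮π⟯).restrictScalars ℚ_[p] := by
      refine IntermediateField.adjoin_le_iff.mpr fun w hw => ?_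
      rw [SetLike.mem_coe, IntermediateField.mem_restrictScalars]
      rcases hs1 hw with hr | hP
      · have hd : ord w ∣ m := hm ▸ dvd_mul_of_dvd_right (Finset.dvd_prod_of_mem ord hw) n
        exact (cyclo p m)⟮π⟯.algebraMap_mem
          ⟨w, cyclo_le_of_dvd hd (root_mem_cyclo (hroot w hr))⟩
      · obtain ⟨h, -, hh⟩ := hTR.exists_poly (hPL w hP)
        rw [← hh]
        exact aeval_mem_of_le hle π h
    have h2 := h1 hs2
    rwa [IntermediateField.mem_restrictScalars] at h2
where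
  natDegree_minpoly_map_le {K K' : IntermediateField ℚ_[p] (PadicAlgCl p)} (hle : K ≤ K')
      {w : PadicAlgCl p} {q : K[X]} {d : ℕ} (h0 : aeval w q = 0) (hq : q ≠ 0)
      (hd : q.natDegree ≤ d) : (minpoly K' w).natDegree ≤ d := by
    let inc : K →+* K' := (IntermediateField.inclusion hle).toRingHom
    have h1 : aeval w (q.map inc) = 0 := by
      rw [aeval_def, eval₂_map]
      exact h0
    refine (natDegree_le_of_dvd (minpoly.dvd _ w h1) (Polynomial.map_ne_zero hq)).trans ?_
    rw [natDegree_map]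
    exact hd
  aeval_mem_of_le {K K' : IntermediateField ℚ_[p] (PadicAlgCl p)} (hle : K ≤ K')
      (w : PadicAlgCl p) (q : K[X]) : aeval w q ∈ K'⟮w⟯ := by
    rw [aeval_eq_sum_range]
    refine sum_mem fun i _ => ?_
    rw [IntermediateField.smul_def, smul_eq_mul]
    exact mul_mem (K'⟮w⟯.algebraMap_mem ⟨_, hle (q.coeff i).2⟩)
      (pow_mem (IntermediateField.mem_adjoin_simple_self _ w) i)

/-- For finitely many elements fixed by the unramified automorphisms fixing the points there is a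
field of points containing them which is totally ramified over an unramified field. -/
theorem exists_pointField (hC : LocalPoints C) (S : Finset (PadicAlgCl p))
    (hS : ∀ x ∈ S, ∀ σ : Ω ≃ₐ[ℚ_[p]] Ω, FixesUnram σ → (∀ j y, σ (C.φ j y) = C.φ j y) → σ x = x) :
    ∃ (n : ℕ) (L : IntermediateField (cyclo p n) (PadicAlgCl p)) (π : PadicAlgCl p) (e : ℕ),
      ¬ p ∣ n ∧ TotRam (cyclo p n) L π e ∧ Generates C L ∧ ∀ x ∈ S, x ∈ L := by
  set P : Set Ω := Set.range fun q : ι × G => C.φ q.1 q.2 with hP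
  set A := IntermediateField.adjoin ℚ_[p] (P ∪ (S : Set Ω)) with hA
  have : Finite ↥(P ∪ (S : Set Ω)) := ((Set.finite_range _).union S.finite_toSet).to_subtype
  have : FiniteDimensional ℚ_[p] A := IntermediateField.finiteDimensional_adjoin fun x _ =>
    (Algebra.IsAlgebraic.isAlgebraic x).isIntegral
  obtain ⟨n, T, π₀, e₀, hn, hT, hL₀T⟩ :=
    exists_totRam_ge (IntermediateField.normalClosure ℚ_[p] A (PadicAlgCl p))
  have hmemT : ∀ x ∈ P ∪ (S : Set Ω), x ∈ T := fun x hx =>
    hL₀T x (A.le_normalClosure (IntermediateField.subset_adjoin ℚ_[p] _ hx))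
  obtain ⟨L, π, e, hTR, hLT, hgen⟩ :=
    exists_totRam_points C hC hT fun j y => hmemT _ (Or.inl ⟨(j, y), rfl⟩)
  have := finiteDimensional_cyclo (p := p) (show n ≠ 0 from fun h => hn (h ▸ dvd_zero p))
  refine ⟨n, L, π, e, hn, hTR, hgen, fun x hx => ?_⟩
  obtain ⟨K', hle, hK', hdeg, hxB⟩ := exists_mem_unram_extension hn hTR (P := P)
    (fun w hw => by
      obtain ⟨q, rfl⟩ := hw
      exact hgen.mem q.1 q.2)
    (x := x) fun σ h1 h2 => hS x hx σ h1 fun j y => h2 _ ⟨(j, y), rfl⟩
  exact mem_of_unram_extension hT hTR hLT hle hK' hdeg (hmemT x (Or.inr hx)) hxB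

end Fermat.Agent.FlatBound
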