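import Mathlib

/-!
# Roots of unity of prime order in an ultrametric field

All nontrivial `p`-th roots of unity have one distance from `1` (`norm_root_sub_one_pow`).
-/

set_option autoImplicit false

noncomputable section

open Finset

namespace Fermat.Agent.FlatBound

variable {Ω : Type} [NormedField Ω] [IsUltrametricDist Ω]

theorem norm_natCast_le_one' (n : ℕ) : ‖(n : Ω)‖ ≤ 1 :=
  IsUltrametricDist.norm_natCast_le_one Ω n

theorem norm_sub_le_max' (x y : Ω) : ‖x - y‖ ≤ max ‖x‖ ‖y‖ := by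
  rw [sub_eq_add_neg, ← norm_neg y]
  exact IsUltrametricDist.norm_add_le_max _ _

theorem norm_sub_eq_of_lt {x y : Ω} (h : ‖y‖ < ‖x‖) : ‖x - y‖ = ‖x‖ := by
  rw [sub_eq_add_neg, IsUltrametricDist.norm_add_eq_max_of_norm_ne_norm (by
    rw [norm_neg]; exact h.ne'), norm_neg, max_eq_left h.le]

omit [IsUltrametricDist Ω] in
theorem norm_eq_one_of_pow_eq_one {x : Ω} {n : ℕ} (hn : n ≠ 0) (h : x ^ n = 1) : ‖x‖ = 1 :=
  (pow_eq_one_iff_of_nonneg (norm_nonneg x) hn).mp (by rw [← norm_pow, h, norm_one])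

variable {p : ℕ} [hp : Fact p.Prime] {ζ : Ω}

theorem norm_root_sub_one_le (hζ : IsPrimitiveRoot ζ p) {η : Ω} (hη : η ^ p = 1) :
    ‖η - 1‖ ≤ ‖ζ - 1‖ := by
  obtain ⟨k, -, rfl⟩ := hζ.eq_pow_of_pow_eq_one hη
  rw [← geom_sum_mul, norm_mul]
  refine mul_le_of_le_one_left (norm_nonneg _) ?_
  refine IsUltrametricDist.norm_sum_le_of_forall_le_of_nonneg zero_le_one fun i _ => ?_
  rw [norm_pow, norm_eq_one_of_pow_eq_one hp.out.ne_zero hζ.pow_eq_one, one_pow]

/-- The distance from `1` of a nontrivial `p`-th root of unity. -/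
theorem norm_root_sub_one_pow {η : Ω} (hη : η ^ p = 1) (hne : η ≠ 1) :
    ‖η - 1‖ ^ (p - 1) = ‖(p : Ω)‖ := by
  obtain ⟨m, hm⟩ := Nat.exists_eq_succ_of_ne_zero hp.out.ne_zero
  have hprim : IsPrimitiveRoot η p := by
    have h := IsPrimitiveRoot.orderOf η
    rwa [orderOf_eq_prime hη hne] at h
  have hprim' : IsPrimitiveRoot η (m + 1) := by rwa [hm] at hprim
  have h := congrArg norm hprim'.prod_one_sub_pow_eq_order
  rw [norm_prod] at h
  rw [show ((p : ℕ) : Ω) = (m : Ω) + 1 by rw [hm]; push_cast; ring, ← h,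
    show p - 1 = m by omega, ← Finset.card_range m, ← Finset.prod_const, Finset.card_range]
  refine Finset.prod_congr rfl fun k hk => ?_
  rw [Finset.mem_range] at hk
  rw [norm_sub_rev 1]
  have hk' : IsPrimitiveRoot (η ^ (k + 1)) p :=
    hprim.pow_of_coprime _ (Nat.Coprime.symm ((hp.out.coprime_iff_not_dvd).mpr fun hd => by
      have := Nat.le_of_dvd (Nat.succ_pos k) hd
      omega))
  exact le_antisymm (norm_root_sub_one_le hk' hη)
    (norm_root_sub_one_le hprim hk'.pow_eq_one)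

/-- Distinct `p`-th roots of unity are far apart. -/
theorem norm_root_sub_root_pow {η η' : Ω} (h : η ^ p = 1) (h' : η' ^ p = 1) (hne : η ≠ η') :
    ‖η - η'‖ ^ (p - 1) = ‖(p : Ω)‖ := by
  have h1 : ‖η'‖ = 1 := norm_eq_one_of_pow_eq_one hp.out.ne_zero h'
  have h0 : η' ≠ 0 := fun e => by simp [e] at h1
  rw [show η - η' = η' * (η / η' - 1) by field_simp, norm_mul, h1, one_mul]
  exact norm_root_sub_one_pow (by rw [div_pow, h, h', div_one])
    fun e => hne ((div_eq_one_iff_eq h0).mp e)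

/-- An approximate root of unity is close to a root of unity. -/
theorem exists_root_near_of_pow (hζ : IsPrimitiveRoot ζ p) {x : Ω} {s : ℝ}
    (hs : ‖x ^ p - 1‖ ≤ s) (hsmall : s ^ (p - 1) < ‖(p : Ω)‖ ^ p) :
    ∃ η : Ω, η ^ p = 1 ∧ ‖x - η‖ * ‖(p : Ω)‖ ≤ s := by
  classical
  set S : Finset Ω := Polynomial.nthRootsFinset p (1 : Ω) with hS
  have hmem : ∀ η, η ∈ S ↔ η ^ p = 1 := fun η => by
    rw [hS, Polynomial.mem_nthRootsFinset hp.out.pos]
  have hcard : S.card = p := hζ.card_nthRootsFinset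
  have hprod : ∏ η ∈ S, ‖x - η‖ = ‖x ^ p - 1‖ := by
    have h := congrArg (Polynomial.eval x) (Polynomial.X_pow_sub_one_eq_prod hp.out.pos hζ)
    simp only [Polynomial.eval_sub, Polynomial.eval_pow, Polynomial.eval_X, Polynomial.eval_one,
      Polynomial.eval_prod, Polynomial.eval_C] at h
    rw [h, norm_prod]
  obtain ⟨η₀, hη₀, hmin⟩ := S.exists_min_image (fun η => ‖x - η‖)
    ⟨1, (hmem 1).mpr (one_pow p)⟩
  refine ⟨η₀, (hmem η₀).mp hη₀, ?_⟩
  rcases lt_or_ge (‖x - η₀‖ ^ (p - 1)) ‖(p : Ω)‖ with hlt | hge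
  · have hother : ∀ η ∈ S.erase η₀, ‖x - η‖ = ‖η₀ - η‖ := fun η hη => by
      rw [Finset.mem_erase] at hη
      have hd := norm_root_sub_root_pow ((hmem η₀).mp hη₀) ((hmem η).mp hη.2) (Ne.symm hη.1)
      have h2 : ‖x - η₀‖ < ‖η₀ - η‖ := lt_of_pow_lt_pow_left₀ (p - 1) (norm_nonneg _) (hd ▸ hlt)
      rw [show x - η = (η₀ - η) - (η₀ - x) by ring, norm_sub_eq_of_lt (by rwa [norm_sub_rev η₀ x])]
    have hp1 : (S.erase η₀).card = p - 1 := by rw [Finset.card_erase_of_mem hη₀, hcard]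
    have h2 : ∏ η ∈ S.erase η₀, ‖x - η‖ = ‖(p : Ω)‖ := by
      rcases eq_or_ne ζ 1 with h1 | h1
      · exact absurd (hζ.unique (h1 ▸ IsPrimitiveRoot.one)) hp.out.ne_one
      have hc : ∀ η ∈ S.erase η₀, ‖x - η‖ = ‖ζ - 1‖ := fun η hη => by
        rw [hother η hη]
        rw [Finset.mem_erase] at hη
        refine (pow_left_inj₀ (norm_nonneg _) (norm_nonneg _)
          (Nat.sub_ne_zero_of_lt hp.out.one_lt)).mp ?_
        exact (norm_root_sub_root_pow ((hmem η₀).mp hη₀) ((hmem η).mp hη.2) (Ne.symm hη.1)).trans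
            (norm_root_sub_one_pow hζ.pow_eq_one h1).symm
      rw [Finset.prod_congr rfl hc, Finset.prod_const, hp1,
        norm_root_sub_one_pow hζ.pow_eq_one h1]
    rw [← h2, Finset.mul_prod_erase S (fun η => ‖x - η‖) hη₀, hprod]
    exact hs
  · exfalso
    have hall : ∀ η ∈ S, ‖(p : Ω)‖ ≤ ‖x - η‖ ^ (p - 1) := fun η hη =>
      hge.trans (pow_le_pow_left₀ (norm_nonneg _) (hmin η hη) _)
    have : ‖(p : Ω)‖ ^ p ≤ s ^ (p - 1) := by
      calc ‖(p : Ω)‖ ^ p = ∏ _η ∈ S, ‖(p : Ω)‖ := by rw [Finset.prod_const, hcard]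
        _ ≤ ∏ η ∈ S, ‖x - η‖ ^ (p - 1) := Finset.prod_le_prod (fun _ _ => norm_nonneg _) hall
        _ = ‖x ^ p - 1‖ ^ (p - 1) := by rw [Finset.prod_pow, hprod]
        _ ≤ s ^ (p - 1) := pow_le_pow_left₀ (norm_nonneg _) hs _
    linarith

end Fermat.Agent.FlatBound
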