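import Fermat.Agent.FlatBound.Expansion

/-!
# Totally ramified finite normal extensions of an unramified field

The structure `TotRam` and bounds on the minimal polynomial of a uniformizer.
-/

set_option autoImplicit false

noncomputable section

open Finset Module Polynomial
open scoped Classical IntermediateField

namespace Fermat.Agent.FlatBound

variable {p : ℕ} [hp : Fact p.Prime]

local notation "Ω" => PadicAlgCl p

variable {K : IntermediateField ℚ_[p] (PadicAlgCl p)}

/-- `L` is totally ramified of degree at most `e` over the unramified `K`, with uniformizer `π`. -/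
structure TotRam (K : IntermediateField ℚ_[p] (PadicAlgCl p))
    (L : IntermediateField K (PadicAlgCl p)) (π : PadicAlgCl p) (e : ℕ) : Prop where
  unram : Unram K
  unif : Uniformizer π e
  mem : π ∈ L
  finiteDim : FiniteDimensional K L
  finrank_le : finrank K L ≤ e
  normal : ∀ (σ : PadicAlgCl p ≃ₐ[K] PadicAlgCl p), ∀ x ∈ L, σ x ∈ L

theorem isIntegral_alg (y : Ω) : IsIntegral K y := (Algebra.IsAlgebraic.isAlgebraic y).isIntegral

/-- The minimal polynomial of a uniformizer has degree at least `e`. -/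
theorem Uniformizer.le_natDegree_minpoly {w : PadicAlgCl p} {e : ℕ} (hw : Uniformizer w e)
    (hK : Unram K) : e ≤ (minpoly K w).natDegree := by
  by_contra h
  rw [not_le] at h
  exact minpoly.ne_zero (isIntegral_alg w) (hw.eq_zero_of_aeval_eq_zero hK h (minpoly.aeval K w))

theorem natDegree_minpoly_le_finrank {M : IntermediateField K (PadicAlgCl p)}
    [FiniteDimensional K M] {z : PadicAlgCl p} (hz : z ∈ M) :
    (minpoly K z).natDegree ≤ finrank K M := by
  have := minpoly.natDegree_le (A := K) (⟨z, hz⟩ : M)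
  rwa [IntermediateField.minpoly_eq] at this

/-- Every element of `K⟮w⟯` is a short expansion. -/
theorem exists_poly_of_mem_adjoin {w z : Ω} (hz : z ∈ K⟮w⟯) :
    ∃ h : K[X], h.natDegree < (minpoly K w).natDegree ∧ aeval w h = z := by
  rw [← IntermediateField.mem_toSubalgebra,
    IntermediateField.adjoin_simple_toSubalgebra_of_isAlgebraic
      (Algebra.IsAlgebraic.isAlgebraic w), Algebra.adjoin_singleton_eq_range_aeval] at hz
  obtain ⟨h, rfl⟩ := hz
  refine ⟨h %ₘ minpoly K w, natDegree_modByMonic_lt h (minpoly.monic (isIntegral_alg w))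
    (minpoly.ne_one K w), ?_⟩
  rw [aeval_modByMonic_eq_self_of_root (minpoly.aeval K w)]
  rfl

variable {L : IntermediateField K (PadicAlgCl p)} {π : PadicAlgCl p} {e : ℕ}
  (hT : TotRam K L π e)

namespace TotRam

include hT

theorem natDegree_minpoly : (minpoly K π).natDegree = e :=
  le_antisymm (haveI := hT.finiteDim; (natDegree_minpoly_le_finrank hT.mem).trans hT.finrank_le)
    (hT.unif.le_natDegree_minpoly hT.unram)

theorem adjoin_eq : K⟮π⟯ = L := by
  have := hT.finiteDim
  refine IntermediateField.eq_of_le_of_finrank_le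
    (IntermediateField.adjoin_simple_le_iff.mpr hT.mem) ?_
  rw [IntermediateField.adjoin.finrank (isIntegral_alg π), hT.natDegree_minpoly]
  exact hT.finrank_le

theorem exists_poly {z : Ω} (hz : z ∈ L) :
    ∃ h : K[X], h.natDegree < e ∧ aeval π h = z := by
  rw [← hT.adjoin_eq] at hz
  rw [← hT.natDegree_minpoly]
  exact exists_poly_of_mem_adjoin hz

theorem exists_zpow {z : Ω} (hz : z ∈ L) (h0 : z ≠ 0) : ∃ m : ℤ, ‖z‖ = ‖π‖ ^ m := by
  obtain ⟨h, hdeg, rfl⟩ := hT.exists_poly hz
  exact (hT.unif.exists_norm_aeval_eq hT.unram hdeg (fun e => h0 (by simp [e]))).2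

/-- Absolute values on `L` are discrete. -/
theorem norm_le_mul_of_lt {a b : Ω} (ha : a ∈ L) (hb : b ∈ L) (h : ‖a‖ < ‖b‖) :
    ‖a‖ ≤ ‖π‖ * ‖b‖ := by
  rcases eq_or_ne a 0 with rfl | ha0
  · simpa using mul_nonneg (norm_nonneg π) (norm_nonneg b)
  have hb0 : b ≠ 0 := fun e => by simp [e] at h; linarith [norm_nonneg a]
  obtain ⟨m, hm⟩ := hT.exists_zpow ha ha0
  obtain ⟨n, hn⟩ := hT.exists_zpow hb hb0
  rw [hm, hn] at h ⊢
  have hlt : n < m := by
    by_contra hle
    rw [not_lt] at hle
    exact absurd h (not_lt.mpr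
      (zpow_le_zpow_right_of_le_one₀ hT.unif.norm_pos hT.unif.norm_lt_one.le hle))
  rw [← zpow_one_add₀ hT.unif.norm_pos.ne']
  exact zpow_le_zpow_right_of_le_one₀ hT.unif.norm_pos hT.unif.norm_lt_one.le (by omega)

theorem rootsIn_subset {z : Ω} (hz : z ∈ rootsIn (minpoly K π)) : z ∈ L := by
  obtain ⟨σ, rfl⟩ := exists_algEquiv_of_mem_rootsIn hz
  exact hT.normal σ π hT.mem

omit hT in
theorem norm_root {z : Ω} (hz : z ∈ rootsIn (minpoly K π)) : ‖z‖ = ‖π‖ := by
  obtain ⟨σ, rfl⟩ := exists_algEquiv_of_mem_rootsIn hz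
  exact norm_algEquiv_apply σ π

end TotRam

/-- Coefficients of a product of linear factors with roots of absolute value at most `c`. -/
theorem norm_coeff_prod_le {c : ℝ} (hc : 0 ≤ c) (S : Finset Ω) (hS : ∀ z ∈ S, ‖z‖ ≤ c) :
    ∀ i ≤ S.card, ‖(∏ z ∈ S, (X - C z)).coeff i‖ ≤ c ^ (S.card - i) := by
  induction S using Finset.induction_on with
  | empty => intro i hi; simp at hi; subst hi; simp
  | insert z S hz ih =>
    intro i hi
    have ih' := ih fun w hw => hS w (Finset.mem_insert_of_mem hw)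
    have hcard : (∏ w ∈ S, (X - C w)).natDegree = S.card := by
      rw [natDegree_prod_of_monic _ _ fun w _ => monic_X_sub_C w]
      simp
    rw [Finset.card_insert_of_notMem hz] at hi ⊢
    rw [Finset.prod_insert hz, sub_mul, coeff_sub, coeff_C_mul]
    refine (norm_sub_le_max' _ _).trans (max_le ?_ ?_)
    · rcases i with _ | i
      · simp only [coeff_X_mul_zero, norm_zero]; positivity
      · rw [coeff_X_mul, Nat.succ_sub_succ]
        exact ih' i (by omega)
    · rw [norm_mul]
      rcases eq_or_lt_of_le hi with rfl | hlt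
      · rw [coeff_eq_zero_of_natDegree_lt (by omega), norm_zero, mul_zero]; positivity
      · rw [Nat.succ_sub (by omega : i ≤ S.card), pow_succ']
        exact mul_le_mul (hS z (Finset.mem_insert_self z S)) (ih' i (by omega)) (norm_nonneg _) hc

namespace TotRam

include hT

omit hT in
theorem coeff_minpoly (i : ℕ) :
    ((minpoly K π).coeff i : Ω) = (∏ z ∈ rootsIn (minpoly K π), (X - C z)).coeff i := by
  rw [← map_minpoly_eq_prod, coeff_map]
  rfl

theorem norm_coeff_minpoly_le {i : ℕ} (hi : i < e) :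
    ‖((minpoly K π).coeff i : Ω)‖ ≤ ‖π‖ ^ e := by
  have h1 : ‖((minpoly K π).coeff i : Ω)‖ < 1 := by
    rw [TotRam.coeff_minpoly]
    refine (norm_coeff_prod_le hT.unif.norm_pos.le _ (fun z hz => (TotRam.norm_root hz).le) i
      (by rw [card_rootsIn_minpoly, hT.natDegree_minpoly]; exact hi.le)).trans_lt ?_
    rw [card_rootsIn_minpoly, hT.natDegree_minpoly]
    exact pow_lt_one₀ hT.unif.norm_pos.le hT.unif.norm_lt_one (by omega)
  rcases eq_or_ne ((minpoly K π).coeff i) 0 with h0 | h0
  · rw [h0, ZeroMemClass.coe_zero, norm_zero]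
    exact pow_nonneg hT.unif.norm_pos.le e
  obtain ⟨k, hk⟩ := hT.unram _ ((minpoly K π).coeff i).2 fun h => h0 (Subtype.ext h)
  rw [hk] at h1
  rw [hT.unif.norm_pow, hk]
  have hk1 : 1 ≤ k := by
    by_contra hle
    have h2 := one_le_zpow_of_nonpos₀ (norm_p_pos (p := p)) norm_p_lt_one.le (show k ≤ 0 by omega)
    exact absurd h1 (not_lt.mpr h2)
  calc ‖(p : Ω)‖ ^ k ≤ ‖(p : Ω)‖ ^ (1 : ℤ) :=
        zpow_le_zpow_right_of_le_one₀ norm_p_pos norm_p_lt_one.le hk1
    _ = ‖(p : Ω)‖ := zpow_one _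

theorem norm_coeff_minpoly_lt_one {i : ℕ} (hi : i < e) :
    ‖((minpoly K π).coeff i : Ω)‖ < 1 := by
  refine (hT.norm_coeff_minpoly_le hi).trans_lt ?_
  rw [hT.unif.norm_pow]
  exact norm_p_lt_one

theorem norm_coeff_zero_minpoly : ‖((minpoly K π).coeff 0 : Ω)‖ = ‖π‖ ^ e := by
  rw [TotRam.coeff_minpoly, coeff_zero_eq_eval_zero, eval_prod, norm_prod]
  rw [Finset.prod_congr rfl fun z hz => show ‖eval (0 : Ω) (X - C z)‖ = ‖π‖ by
    simp [TotRam.norm_root hz], Finset.prod_const, card_rootsIn_minpoly, hT.natDegree_minpoly]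

theorem norm_coeff_minpoly_le_one (i : ℕ) : ‖((minpoly K π).coeff i : Ω)‖ ≤ 1 := by
  rcases lt_trichotomy i e with h | rfl | h
  · exact (hT.norm_coeff_minpoly_lt_one h).le
  · rw [← hT.natDegree_minpoly, (minpoly.monic (isIntegral_alg π)).coeff_natDegree]
    simp
  · rw [coeff_eq_zero_of_natDegree_lt (hT.natDegree_minpoly ▸ h)]
    simp

/-- If an integral polynomial kills `π` its value elsewhere is bounded by that of the minimal
polynomial. -/
theorem norm_aeval_le_of_root {R : K[X]} (hR : ∀ i, ‖(R.coeff i : Ω)‖ ≤ 1)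
    (h0 : aeval π R = 0) {β : Ω} (hβ : ‖β‖ ≤ 1) :
    ‖aeval β R‖ ≤ ‖aeval β (minpoly K π)‖ := by
  obtain ⟨q, rfl⟩ := minpoly.dvd K π h0
  rw [map_mul, norm_mul]
  refine mul_le_of_le_one_right (norm_nonneg _) (norm_aeval_le_one (fun j => ?_) hβ)
  exact norm_coeff_le_one_of_mul (minpoly.monic (isIntegral_alg π))
    (fun i hi => hT.norm_coeff_minpoly_lt_one (hT.natDegree_minpoly ▸ hi)) hR j

end TotRam

end Fermat.Agent.FlatBound
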